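import Fermat.Agent.S44w.Eigen
import Fermat.Agent.S36.Equiv
import Fermat.Agent.S34.Descent
import Fermat.Agent.Cofaith.ES
import Fermat.Agent.QX4.Commute

/-!
# The eigenspace is killed by the push-forwards to lower level
-/

set_option autoImplicit false
set_option linter.unusedSectionVars false
set_option linter.style.haveILetI false

noncomputable section

open CuspForm ModularCurve AlgebraicCurve Fermat.Agent.GalRep Fermat.Agent.S36red

namespace Fermat.Agent.S44w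

/-- a relation of the Hecke algebra at level `m` kills all torsion of `J₀(m)` -/
theorem inclS_smul_eq_zero (m : ℕ) [NeZero m] (S : Set ℕ)
    (hS : ∀ ℓ : ℕ, ℓ.Prime → ℓ ∣ m → ℓ ∈ S) {t : HeckeAlgS S} (ht : evS m S t = 0) {n : ℕ}
    (hn : n ≠ 0) {x : JZero m} (hx : n • x = 0) :
    (letI := heckeModuleBar m; inclS S t • x) = 0 := by
  letI := heckeModuleBar m
  show inclS S t • x = 0
  obtain ⟨e, he, h⟩ := Cofaith.cofaithful' m
  obtain ⟨y, rfl⟩ := S34aux.jzero_divisible m he x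
  have h1 : (e * n) • y = 0 := by rw [mul_comm, mul_smul, hx]
  have h2 : inclS S (e * t) • y = 0 := h S hS t ht (e * n) (mul_ne_zero he hn) y h1
  rw [map_mul, map_natCast, mul_comm, mul_smul, Nat.cast_smul_eq_nsmul] at h2
  exact h2

section

variable {m q : ℕ} [NeZero m] [NeZero q] (hq : q.Prime) {S : Finset ℕ} {p : ℕ} [hp : Fact p.Prime]
  {a : ℕ → ℤ} {t : HeckeAlgS (↑S : Set ℕ)}

include hq in
/-- `α_*` kills the eigenspace if the eigensystem does not occur at level `m`. -/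
theorem alPush_eq_zero (hS : ∀ ℓ : ℕ, ℓ.Prime → ℓ ∣ m * q → ℓ ∈ S)
    (ht : evS m (↑S : Set ℕ) t = 0) (hθ : theta S p a t = 1) {x : JZero (m * q)}
    (hx : letI := heckeModuleBar (m * q); x ∈ eigenPart S p a (JZero (m * q))) :
    alPush m q x = 0 := by
  letI := heckeModuleBar (m * q)
  letI := heckeModuleBar m
  have h1 : inclS (↑S : Set ℕ) t • x = x := inclS_smul_of_theta_eq_one hx hθ
  have h2 : alPush m q (inclS (↑S : Set ℕ) t • x) = inclS (↑S : Set ℕ) t • alPush m q x :=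
    alPush_inclS m q hq (↑S) (fun r hr hd => hS r hr hd) t x
  rw [h1] at h2
  rw [h2]
  refine inclS_smul_eq_zero m (↑S) (fun ℓ hℓ hd => hS ℓ hℓ (hd.mul_right q)) ht hp.out.ne_zero ?_
  rw [← map_nsmul]
  have hpx : p • x = 0 := hx.1
  rw [hpx, map_zero]

include hq in
/-- `β_*` kills the eigenspace if the eigensystem does not occur at level `m`. -/
theorem bePush_eq_zero (hS : ∀ ℓ : ℕ, ℓ.Prime → ℓ ∣ m * q → ℓ ∈ S)
    (ht : evS m (↑S : Set ℕ) t = 0) (hθ : theta S p a t = 1) {x : JZero (m * q)}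
    (hx : letI := heckeModuleBar (m * q); x ∈ eigenPart S p a (JZero (m * q))) :
    bePush m q x = 0 := by
  letI := heckeModuleBar (m * q)
  letI := heckeModuleBar m
  have h1 : inclS (↑S : Set ℕ) t • x = x := inclS_smul_of_theta_eq_one hx hθ
  have h2 : bePush m q (inclS (↑S : Set ℕ) t • x) = inclS (↑S : Set ℕ) t • bePush m q x :=
    bePush_inclS m q hq (↑S) (fun r hr hd => hS r hr hd) t x
  rw [h1] at h2
  rw [h2]
  refine inclS_smul_eq_zero m (↑S) (fun ℓ hℓ hd => hS ℓ hℓ (hd.mul_right q)) ht hp.out.ne_zero ?_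
  rw [← map_nsmul]
  have hpx : p • x = 0 := hx.1
  rw [hpx, map_zero]

include hq in
theorem pushA_eq_zero (hS : ∀ ℓ : ℕ, ℓ.Prime → ℓ ∣ m * q → ℓ ∈ S)
    (ht : evS m (↑S : Set ℕ) t = 0) (hθ : theta S p a t = 1) {x : JZero (m * q)}
    (hx : letI := heckeModuleBar (m * q); x ∈ eigenPart S p a (JZero (m * q))) :
    QX4.pushA m q x = 0 := alPush_eq_zero hq hS ht hθ hx

/-- the eigenspace is stable under the Atkin--Lehner involution -/
theorem wJ_mem_eigenPart (hm : ¬ q ∣ m) (hS : ∀ ℓ : ℕ, ℓ.Prime → ℓ ∣ m * q → ℓ ∈ S)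
    {x : JZero (m * q)}
    (hx : letI := heckeModuleBar (m * q); x ∈ eigenPart S p a (JZero (m * q))) :
    letI := heckeModuleBar (m * q); QX4.wJ hq hm x ∈ eigenPart S p a (JZero (m * q)) := by
  letI := heckeModuleBar (m * q)
  have hcomm := Fermat.Agent.HeckeComm.heckeOperatorsCommuteBar (m * q)
  refine ⟨?_, fun ℓ hℓ => ?_⟩
  · have hpx : p • x = 0 := hx.1
    show p • QX4.wJ hq hm x = 0
    rw [← map_nsmul, hpx, map_zero]
  · show heckeGen ℓ • QX4.wJ hq hm x = a (ℓ : ℕ) • QX4.wJ hq hm x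
    have h1 : heckeGen ℓ • QX4.wJ hq hm x = heckeOperatorBar (m * q) ℓ (QX4.wJ hq hm x) :=
      heckeModuleBar_heckeGen_smul hcomm ℓ _
    have h2 : heckeGen ℓ • x = heckeOperatorBar (m * q) ℓ x :=
      heckeModuleBar_heckeGen_smul hcomm ℓ _
    rw [h1, ← QX4.wJ_hecke hq hm ℓ (fun h => hℓ (hS ℓ ℓ.2 h)) hp.out.ne_zero x hx.1, ← h2,
      ← map_zsmul]
    exact congrArg _ (hx.2 ℓ hℓ)

omit hp in
/-- the eigenspace is stable under the Galois group -/
theorem galois_smul_mem_eigenPart {N : ℕ} [NeZero N] (σ : GQ) {x : JZero N}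
    (hx : letI := heckeModuleBar N; x ∈ eigenPart S p a (JZero N)) :
    letI := heckeModuleBar N; σ • x ∈ eigenPart S p a (JZero N) := by
  letI := heckeModuleBar N
  refine ⟨?_, fun ℓ hℓ => ?_⟩
  · have hpx : p • x = 0 := hx.1
    show p • (σ • x) = 0
    have h0 : σ • (p • x) = p • (σ • x) :=
      map_nsmul (DistribMulAction.toAddMonoidHom (JZero N) σ) p x
    rw [← h0, hpx]
    exact map_zero (DistribMulAction.toAddMonoidHom (JZero N) σ)
  · have h1 : heckeGen ℓ • (σ • x) = σ • (heckeGen ℓ • x) := Cofaith.heckeAlg_smul_comm N _ σ x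
    have h2 : heckeGen ℓ • x = a (ℓ : ℕ) • x := hx.2 ℓ hℓ
    show heckeGen ℓ • (σ • x) = a (ℓ : ℕ) • (σ • x)
    rw [h1, h2]
    exact map_zsmul (DistribMulAction.toAddMonoidHom (JZero N) σ) (a (ℓ : ℕ)) x

/-- the Hecke operator on the eigenspace -/
theorem heckeOperatorBar_of_mem {N : ℕ} [NeZero N] {x : JZero N}
    (hx : letI := heckeModuleBar N; x ∈ eigenPart S p a (JZero N)) (ℓ : Nat.Primes)
    (hℓ : (ℓ : ℕ) ∉ S) : heckeOperatorBar N ℓ x = a (ℓ : ℕ) • x := by
  letI := heckeModuleBar N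
  have h1 : heckeGen ℓ • x = heckeOperatorBar N ℓ x :=
    heckeModuleBar_heckeGen_smul (Fermat.Agent.HeckeComm.heckeOperatorsCommuteBar N) ℓ _
  rw [← h1]
  exact hx.2 ℓ hℓ

end

end Fermat.Agent.S44w

end
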