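import Mathlib

/-!
# An irreducible two-dimensional representation with an odd involution spans `End V`
-/

set_option autoImplicit false

namespace Fermat.Agent.S44w

variable {k G V : Type*} [Field k] [Group G] [AddCommGroup V] [Module k V]

theorem span_range_eq_top_of_odd (h2 : (2 : k) ≠ 0) (ρ : G →* Module.End k V)
    (hV : Module.finrank k V = 2)
    (hirr : ∀ W : Submodule k V, (∀ g, ∀ x ∈ W, ρ g x ∈ W) → W = ⊥ ∨ W = ⊤)
    (c : G) (hc : ρ c * ρ c = 1) (hdet : LinearMap.det (ρ c) = -1) :
    Submodule.span k (Set.range ρ) = ⊤ := by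
  classical
  haveI : FiniteDimensional k V := Module.finite_of_finrank_pos (by rw [hV]; norm_num)
  have hcc : ∀ v, ρ c (ρ c v) = v := fun v => by
    rw [← Module.End.mul_apply, hc, Module.End.one_apply]
  -- eigenvectors
  obtain ⟨e, he0, he⟩ : ∃ e : V, e ≠ 0 ∧ ρ c e = e := by
    by_contra hcon
    push Not at hcon
    have h1 : ρ c = -1 := by
      refine LinearMap.ext fun v => ?_
      by_contra hne
      refine hcon (ρ c v + v) (fun h0 => hne ?_) ?_
      · rw [LinearMap.neg_apply, Module.End.one_apply]
        exact eq_neg_of_add_eq_zero_left h0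
      · rw [map_add, hcc, add_comm]
    rw [h1, ← neg_one_smul k (1 : Module.End k V), LinearMap.det_smul, hV, map_one] at hdet
    apply h2
    linear_combination hdet
  obtain ⟨f, hf0, hf⟩ : ∃ f : V, f ≠ 0 ∧ ρ c f = -f := by
    by_contra hcon
    push Not at hcon
    have h1 : ρ c = 1 := by
      refine LinearMap.ext fun v => ?_
      by_contra hne
      refine hcon (ρ c v - v) (fun h0 => hne ?_) ?_
      · rw [Module.End.one_apply]
        exact sub_eq_zero.mp h0
      · rw [map_sub, hcc, neg_sub]
    rw [h1, map_one] at hdet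
    apply h2
    linear_combination hdet
  have hli : LinearIndependent k ![e, f] := by
    rw [LinearIndependent.pair_iff]
    intro s t hst
    have h1 := congrArg (ρ c) hst
    rw [map_add, map_smul, map_smul, he, hf, map_zero, smul_neg] at h1
    have h3 : (2 * s) • e = 0 := by
      have : (2 * s) • e = (s • e + t • f) + (s • e + -(t • f)) := by
        rw [mul_smul, two_smul]; abel
      rw [this, hst, h1, add_zero]
    have hs : s = 0 := by
      have := (smul_eq_zero.mp h3).resolve_right he0
      exact (mul_eq_zero.mp this).resolve_left h2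
    rw [hs, zero_smul, zero_add] at hst
    exact ⟨hs, (smul_eq_zero.mp hst).resolve_right hf0⟩
  let b := basisOfLinearIndependentOfCardEqFinrank hli (by rw [hV]; rfl)
  have hb0 : b 0 = e := by
    show (basisOfLinearIndependentOfCardEqFinrank hli _) 0 = e
    rw [coe_basisOfLinearIndependentOfCardEqFinrank]
    rfl
  have hb1 : b 1 = f := by
    show (basisOfLinearIndependentOfCardEqFinrank hli _) 1 = f
    rw [coe_basisOfLinearIndependentOfCardEqFinrank]
    rfl
  -- the subalgebra
  set A : Submodule k (Module.End k V) := Submodule.span k (Set.range ρ) with hA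
  have hρA : ∀ g, ρ g ∈ A := fun g => Submodule.subset_span ⟨g, rfl⟩
  have h1A : (1 : Module.End k V) ∈ A := by rw [← map_one ρ]; exact hρA 1
  have hmul : ∀ x ∈ A, ∀ y ∈ A, x * y ∈ A := by
    intro x hx y hy
    induction hx using Submodule.span_induction with
    | mem x hx =>
      obtain ⟨g, rfl⟩ := hx
      induction hy using Submodule.span_induction with
      | mem y hy => obtain ⟨h, rfl⟩ := hy; rw [← map_mul]; exact hρA _
      | zero => rw [mul_zero]; exact A.zero_mem
      | add u v _ _ hu hv => rw [mul_add]; exact A.add_mem hu hv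
      | smul r u _ hu => rw [mul_smul_comm]; exact A.smul_mem _ hu
    | zero => rw [zero_mul]; exact A.zero_mem
    | add u v _ _ hu hv => rw [add_mul]; exact A.add_mem hu hv
    | smul r u _ hu => rw [smul_mul_assoc]; exact A.smul_mem _ hu
  let E : Fin 2 → Fin 2 → Module.End k V := fun i j => (b.coord j).smulRight (b i)
  have hEapply : ∀ i j x, E i j x = b.repr x j • b i := fun i j x => rfl
  -- E 0 0 and E 1 1
  have hsum : ∀ x : V, b.repr x 0 • e + b.repr x 1 • f = x := fun x => by
    have := b.sum_repr x
    rwa [Fin.sum_univ_two, hb0, hb1] at this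
  have hE00 : E 0 0 = (2 : k)⁻¹ • (1 + ρ c) := by
    refine LinearMap.ext fun x => ?_
    rw [hEapply, LinearMap.smul_apply, LinearMap.add_apply, Module.End.one_apply, hb0]
    conv_rhs => rw [← hsum x]
    rw [map_add, map_smul, map_smul, he, hf, smul_neg]
    have h5 : b.repr x 0 • e + b.repr x 1 • f + (b.repr x 0 • e + -(b.repr x 1 • f)) =
      (2 : k) • (b.repr x 0 • e) := by rw [two_smul]; abel
    rw [h5, smul_smul, inv_mul_cancel₀ h2, one_smul]
  have hE11 : E 1 1 = 1 - E 0 0 := by
    refine LinearMap.ext fun x => ?_
    rw [LinearMap.sub_apply, Module.End.one_apply, hEapply, hEapply, hb0, hb1]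
    conv_rhs => rw [← hsum x]
    simp only [hsum]
    nth_rewrite 2 [← hsum x]
    abel
  have hEA00 : E 0 0 ∈ A := by
    rw [hE00]; exact A.smul_mem _ (A.add_mem h1A (hρA c))
  have hEA11 : E 1 1 ∈ A := by
    rw [hE11]; exact A.sub_mem h1A hEA00
  have hmulE : ∀ (i j : Fin 2) (X : Module.End k V), E i i * X * E j j =
      b.repr (X (b j)) i • E i j := by
    intro i j X
    refine LinearMap.ext fun x => ?_
    rw [Module.End.mul_apply, Module.End.mul_apply, hEapply, hEapply, map_smul, map_smul,
      LinearMap.smul_apply, hEapply, Finsupp.smul_apply, smul_eq_mul, smul_smul, mul_comm]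
  -- off-diagonal
  have hoff : ∀ i j : Fin 2, i ≠ j → E i j ∈ A := by
    intro i j hij
    obtain ⟨g, hg⟩ : ∃ g, b.repr (ρ g (b j)) i ≠ 0 := by
      by_contra hcon
      push Not at hcon
      have hstab : ∀ g, ∀ x ∈ Submodule.span k {b j}, ρ g x ∈ Submodule.span k {b j} := by
        intro g x hx
        obtain ⟨r, rfl⟩ := Submodule.mem_span_singleton.mp hx
        rw [map_smul]
        refine Submodule.smul_mem _ _ ?_
        have h6 : ρ g (b j) = b.repr (ρ g (b j)) j • b j := by
          conv_lhs => rw [← b.sum_repr (ρ g (b j))]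
          refine Finset.sum_eq_single j (fun l _ hl => ?_) (fun h => (h (Finset.mem_univ _)).elim)
          have : l = i := by omega
          rw [this, hcon g, zero_smul]
        rw [h6]
        exact Submodule.smul_mem _ _ (Submodule.mem_span_singleton_self _)
      rcases hirr _ hstab with h | h
      · rw [Submodule.span_singleton_eq_bot] at h
        exact b.ne_zero j h
      · have h7 := finrank_span_le_card (R := k) ({b j} : Set V)
        rw [h, finrank_top, hV] at h7
        simp at h7
    have h8 : E i i * ρ g * E j j ∈ A := by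
      have hi : E i i ∈ A := by fin_cases i <;> assumption
      have hj : E j j ∈ A := by fin_cases j <;> assumption
      exact hmul _ (hmul _ hi _ (hρA g)) _ hj
    rw [hmulE] at h8
    have h9 := A.smul_mem (b.repr (ρ g (b j)) i)⁻¹ h8
    rwa [smul_smul, inv_mul_cancel₀ hg, one_smul] at h9
  have hall : ∀ i j, E i j ∈ A := by
    intro i j
    by_cases hij : i = j
    · subst hij
      fin_cases i <;> assumption
    · exact hoff i j hij
  rw [eq_top_iff]
  intro X _
  have hX : X = ∑ i, ∑ j, b.repr (X (b j)) i • E i j := by
    refine b.ext fun l => ?_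
    rw [LinearMap.sum_apply]
    conv_lhs => rw [← b.sum_repr (X (b l))]
    refine Finset.sum_congr rfl fun i _ => ?_
    rw [LinearMap.sum_apply]
    rw [Finset.sum_eq_single l]
    · rw [LinearMap.smul_apply, hEapply, b.repr_self, Finsupp.single_eq_same, one_smul]
    · intro j _ hj
      rw [LinearMap.smul_apply, hEapply, b.repr_self, Finsupp.single_eq_of_ne hj, zero_smul,
        smul_zero]
    · intro h; exact (h (Finset.mem_univ _)).elim
  rw [hX]
  exact A.sum_mem fun i _ => A.sum_mem fun j _ => A.smul_mem _ (hall i j)

end Fermat.Agent.S44w
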