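import Fermat.Agent.S44w.Galois
import Fermat.Agent.S44w.Span
import Fermat.Agent.ECFrob.Odd
import Fermat.Agent.S33.InertiaMu
import Fermat.Prelude.Def_GaloisRep_ComplexConjugation

/-!
# Consequences of the relation on the eigenspace

* an automorphism acting trivially on `E[p]` acts trivially on the eigenspace;
* inertia at `p` cannot act on the eigenspace through the cyclotomic character.
-/

set_option autoImplicit false
set_option linter.style.haveILetI false

noncomputable section

open CuspForm ModularCurve Fermat.Agent.GalRep Fermat.Agent.ECFrob WeierstrassCurve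
  WeierstrassCurve.Affine WeierstrassCurve.Affine.Point Fermat.Agent.Torsion Fermat.Agent.ECRed

namespace Fermat.Agent.S44w

lemma two_ne_zero_zmod {p : ℕ} [hp : Fact p.Prime] (hp2 : p ≠ 2) : (2 : ZMod p) ≠ 0 := by
  have : ((2 : ℕ) : ZMod p) ≠ 0 := by
    rw [Ne, ZMod.natCast_eq_zero_iff]
    intro h
    exact hp2 ((Nat.prime_dvd_prime_iff_eq hp.out Nat.prime_two).mp h)
  exact_mod_cast this

section

variable {W : WeierstrassCurve ℤ} {p : ℕ} [hp : Fact p.Prime]

/-- The mod `p` representation spans the endomorphism ring if it is irreducible and `p ≠ 2`. -/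
theorem span_range_rho (hΔ : W.Δ ≠ 0) (hp2 : p ≠ 2)
    (hirr : GaloisRepIsIrreducible (K := AlgebraicClosure ℚ) ℚ (W.map (Int.castRingHom ℚ)) p) :
    Submodule.span (ZMod p) (Set.range (rho W p)) = ⊤ := by
  have hcc : complexConjugation * complexConjugation = 1 := complexConjugation_mul_self
  have hc1 : complexConjugation ≠ 1 := by
    intro h
    have h1 := complexEmbedding_complexConjugation
    obtain ⟨i, hi⟩ := IsAlgClosed.exists_pow_nat_eq (-1 : AlgebraicClosure ℚ) (n := 2) two_pos
    have h2 := h1 i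
    rw [h, AlgEquiv.one_apply] at h2
    have h3 : complexEmbedding i ^ 2 = -1 := by rw [← map_pow, hi, map_neg, map_one]
    have h4 : (complexEmbedding i).im = 0 := Complex.conj_eq_iff_im.mp h2.symm
    have h5 : (complexEmbedding i ^ 2).re = -1 := by rw [h3]; simp
    rw [sq, Complex.mul_re, h4] at h5
    nlinarith [mul_self_nonneg (complexEmbedding i).re]
  refine span_range_eq_top_of_odd (two_ne_zero_zmod hp2) (rho W p) (finrank_rat hΔ) ?_
    complexConjugation ?_ ?_
  · intro V hV
    exact hirr.2 V (fun σ x hx => hV σ x hx)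
  · rw [← map_mul, hcc, map_one]
  · exact det_rho_involution hΔ hcc hc1

variable {S : Finset ℕ} {a : ℕ → ℤ} {J : Type*} [AddCommGroup J]
  [Module HeckeAlg J] [DistribMulAction GQ J] [SMulCommClass GQ HeckeAlg J]

/-- Elements acting trivially on `E[p]` act trivially on the eigenspace. -/
theorem smul_eq_of_rho_eq_one (hΔ : W.Δ ≠ 0) (hp2 : p ≠ 2)
    (hspan : Submodule.span (ZMod p) (Set.range (rho W p)) = ⊤)
    (hX : ∀ g : GQ, eigenRep S p a J g * eigenRep S p a J g =
      LinearMap.trace (ZMod p) _ (rho W p g) • eigenRep S p a J g -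
        algebraMap (ZMod p) _ (LinearMap.det (rho W p g)))
    {g : GQ} (hg : rho W p g = 1) {x : J} (hx : x ∈ eigenPart S p a J) : g • x = x := by
  haveI := finite_rat hΔ hp.out.ne_zero
  haveI : Module.Finite (ZMod p)
      (Submodule.torsionBy ℤ ((W.map (Int.castRingHom ℚ))⁄(AlgebraicClosure ℚ)).Point p) :=
    Module.Finite.of_finite
  let b := Module.finBasisOfFinrankEq _ _ (finrank_rat hΔ (p := p))
  have h1 := blr (rho W p) (eigenRep S p a J) (two_ne_zero_zmod hp2) b hspan hX
    (MonoidAlgebra.of (ZMod p) GQ g - 1) (by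
      rw [map_sub, map_one, sub_eq_zero, ← hg]
      simp)
  rw [map_sub, map_one, sub_eq_zero] at h1
  have h2 : eigenRep S p a J g = 1 := by
    rw [← h1]; simp
  have h3 := congrArg (fun f : Module.End (ZMod p) (eigenPart S p a J) =>
    ((f ⟨x, hx⟩ : eigenPart S p a J) : J)) h2
  exact h3

/-- Inertia at `p` does not act on a non-zero eigenspace through the cyclotomic character. -/
theorem false_of_inertia_cyclotomic (hΔ : W.Δ ≠ 0) (hp2 : p ≠ 2)
    (hspan : Submodule.span (ZMod p) (Set.range (rho W p)) = ⊤)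
    (hX : ∀ g : GQ, eigenRep S p a J g * eigenRep S p a J g =
      LinearMap.trace (ZMod p) _ (rho W p g) • eigenRep S p a J g -
        algebraMap (ZMod p) _ (LinearMap.det (rho W p g)))
    (hne : ∃ x ∈ eigenPart S p a J, x ≠ 0)
    {A : ValuationSubring (AlgebraicClosure ℚ)} (hA : A.LiesOverPrime p)
    (hI : ∀ σ ∈ A.inertiaSubgroupIn ℚ, ∀ x ∈ eigenPart S p a J,
      σ • x = (cycMod p σ).val • x) : False := by
  haveI := finite_rat hΔ hp.out.ne_zero
  haveI : Module.Finite (ZMod p)
      (Submodule.torsionBy ℤ ((W.map (Int.castRingHom ℚ))⁄(AlgebraicClosure ℚ)).Point p) :=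
    Module.Finite.of_finite
  let b := Module.finBasisOfFinrankEq _ _ (finrank_rat hΔ (p := p))
  haveI : Nontrivial (eigenPart S p a J) := by
    obtain ⟨x, hx, hx0⟩ := hne
    exact ⟨⟨x, hx⟩, 0, fun h => hx0 (congrArg Subtype.val h)⟩
  obtain ⟨ζ, hζ⟩ := exists_primitiveRoot p
  obtain ⟨σ, hσ, hσζ⟩ := S33aux.exists_inertia_inv hp.out hA hζ
  have hcyc : cycMod p σ = -1 := by
    have h1 : σ ζ = ζ ^ (p - 1) := by
      rw [hσζ]
      refine inv_eq_of_mul_eq_one_right ?_
      rw [← pow_succ', Nat.sub_add_cancel hp.out.one_le, hζ.pow_eq_one]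
    rw [cycMod_unique hζ h1, Nat.cast_sub hp.out.one_le]
    simp
  have h2 := two_ne_zero_zmod (p := p) hp2
  have h3 := blr_converse (rho W p) (eigenRep S p a J) h2 b hspan hX
    (MonoidAlgebra.of (ZMod p) GQ σ + 1) (by
      rw [map_add, map_one]
      refine LinearMap.ext fun x => Subtype.ext ?_
      have h4 := hI σ hσ x x.2
      have h5 : (((MonoidAlgebra.lift (ZMod p) _ _ (eigenRep S p a J)
          (MonoidAlgebra.of (ZMod p) GQ σ) + 1) x : eigenPart S p a J) : J) =
          σ • (x : J) + (x : J) := by simp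
      rw [h5, h4, LinearMap.zero_apply, AddSubgroup.coe_zero, hcyc]
      nth_rewrite 2 [← one_smul ℕ (x : J)]
      rw [← add_smul]
      have h6 : p ∣ (-1 : ZMod p).val + 1 := by
        rw [← ZMod.natCast_eq_zero_iff]
        push_cast
        rw [ZMod.natCast_zmod_val, neg_add_cancel]
      obtain ⟨c, hc⟩ := h6
      rw [hc, mul_comm, mul_smul, x.2.1, smul_zero])
  rw [map_add, map_one] at h3
  have h4 : rho W p σ = -1 := by
    have : rho W p σ + 1 = 0 := by
      rw [← h3]; simp
    exact eq_neg_of_add_eq_zero_left this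
  have h5 := det_rho hΔ (p := p) σ
  rw [h4, hcyc, ← neg_one_smul (ZMod p) (1 : Module.End (ZMod p) _), LinearMap.det_smul,
    finrank_rat hΔ, map_one] at h5
  apply h2
  linear_combination h5

end

end Fermat.Agent.S44w

end
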