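import Fermat.Agent.S44w.PPow
import Fermat.Agent.S44w.Final
import Fermat.Agent.S41.NonEis
import Fermat.Agent.S37aux.Bare
import Fermat.Agent.GoodRed.GenusAll

/-!
# Lowering the level at `p`: the general argument
-/

set_option autoImplicit false
set_option linter.unusedSectionVars false
set_option linter.style.haveILetI false

noncomputable section

open CuspForm ModularCurve HahnSeries AlgebraicCurve
open Fermat.Agent.GaussVal Fermat.Agent.TEll Fermat.Agent.TwoGauss Fermat.Agent.GalRep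
open WeierstrassCurve WeierstrassCurve.Affine WeierstrassCurve.Affine.Point
open Fermat.Agent.ECFrob Fermat.Agent.Torsion Fermat.Agent.ECRed
open scoped Fermat.Agent.GaussVal

namespace Fermat.Agent.S44w

local notation "𝕂" => AlgebraicClosure ℚ

/-- the Eichler-Shimura input for `J₀(N)`, unconditionally. -/
theorem esInput (N : ℕ) [NeZero N] {p : ℕ} (hp : p.Prime) (S : Set ℕ)
    (hNS : ∀ ℓ : ℕ, ℓ.Prime → ℓ ∣ N → ℓ ∈ S) :
    letI := heckeModuleBar N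
    haveI := Cofaith.smulCommClass_JZero N
    ESInput N p S (JZero N) := by
  letI := heckeModuleBar N
  haveI := Cofaith.smulCommClass_JZero N
  exact Cofaith.esInput_JZero N hp S hNS
    (Fermat.Agent.S37aux.specializationExists_of N p
      (Fermat.Agent.HeckeComm.heckeOperatorsCommuteBar N)
      (fun ℓ hℓ hN A hA => Fermat.Agent.S37aux.bareRed N ℓ hℓ A hA hN)
      (Fermat.Agent.Cofaith.smulCommClass_JZero N))

/-- Non-Eisenstein primes outside a finite set. -/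
theorem exists_nonEis {W : WeierstrassCurve ℤ} (hΔ : W.Δ ≠ 0) {p : ℕ} [hpf : Fact p.Prime]
    (hp2 : p ≠ 2)
    (hirr : GaloisRepIsIrreducible (K := AlgebraicClosure ℚ) ℚ (W.map (Int.castRingHom ℚ)) p)
    (S S₀ : Finset ℕ) {a : ℕ → ℤ}
    (ha : ∀ ℓ : ℕ, ℓ.Prime → ℓ ∉ S₀ → ((a ℓ : ℤ) : ZMod p) = ((W.apOfModel ℓ : ℤ) : ZMod p)) :
    ∃ ℓ : ℕ, ℓ.Prime ∧ ℓ ∉ S ∧ ¬ (p : ℤ) ∣ a ℓ - (ℓ + 1) := by
  classical
  set M := ∏ s ∈ (S ∪ S₀).filter (· ≠ 0), s with hM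
  have hM0 : 0 < M := Finset.prod_pos fun s hs => Nat.pos_of_ne_zero (Finset.mem_filter.1 hs).2
  obtain ⟨ℓ, hℓ, -, -, h1, h2⟩ := S41ne.ne1' hp2 hΔ hirr M hM0
  have hmem : ℓ ∉ S ∪ S₀ := by
    intro h
    have h3 : ℓ ∣ M := Finset.dvd_prod_of_mem (fun s => s)
      (Finset.mem_filter.2 ⟨h, hℓ.ne_zero⟩)
    have h4 : (ℓ : ℤ) ∣ (ℓ : ℤ) - 1 := dvd_trans (by exact_mod_cast h3) h1
    have h5 : (ℓ : ℤ) ∣ 1 := by
      have := (dvd_refl (ℓ : ℤ)).sub h4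
      rwa [sub_sub_cancel] at this
    have h6 : ℓ ∣ 1 := by exact_mod_cast h5
    exact hℓ.one_lt.ne' (Nat.dvd_one.1 h6)
  rw [Finset.mem_union, not_or] at hmem
  refine ⟨ℓ, hℓ, hmem.1, fun h => h2 ?_⟩
  have h3 := ha ℓ hℓ hmem.2
  rw [← ZMod.intCast_zmod_eq_zero_iff_dvd] at h ⊢
  push_cast at h ⊢
  rw [← h3]
  exact h

section Main

variable {A : ValuationSubring (AlgebraicClosure ℚ)} {p m : ℕ} [NeZero m]
  [hpf : Fact p.Prime] [CharP (IsLocalRing.ResidueField A) p]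
  (hp : p.Prime) (hm : ¬ p ∣ m) (hA : A.LiesOverPrime p)
  (H3 : S18aux.DegThm (IsLocalRing.ResidueField A) m)

local notation "κ" => IsLocalRing.ResidueField A

/-- **(ORD)** at level `m p`: if the Kummer functions of the classes in `X` reduce to `p`-th
powers at infinity and `X` is killed by `α_*`, inertia acts through the cyclotomic character. -/
def OrdN : Prop :=
  ∀ X : AddSubgroup (JZero (m * p)), (X : Set (JZero (m * p))).Finite →
    (∀ x ∈ X, p • x = 0) → (∀ x ∈ X, QX4.wJ hp hm x ∈ X) →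
    (∀ σ : 𝕂 ≃ₐ[ℚ] 𝕂, ∀ x ∈ X, σ • x ∈ X) →
    (∀ x ∈ X, QX4.pushA m p x = 0) →
    (∀ x ∈ X, ∃ (f : modularFunctionFieldBar (m * p)) (hO : f ∈ O₁ hp hA), IsKummer p x f ∧
      f⁻¹ ∈ O₁ hp hA ∧ ∃ g : modularFunctionFieldFullC κ m, ρ₁ hp hm hA H3 ⟨f, hO⟩ = g ^ p) →
    ∀ σ ∈ A.inertiaSubgroupIn ℚ, ∀ x ∈ X, σ • x = (cycMod p σ).val • x

/-- **Level lowering at `p`**, general argument. -/
theorem level_lower [IsAlgClosed κ] {W : WeierstrassCurve ℤ} (hΔ : W.Δ ≠ 0)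
    (hp2 : p ≠ 2)
    (hirr : GaloisRepIsIrreducible (K := AlgebraicClosure ℚ) ℚ (W.map (Int.castRingHom ℚ)) p)
    {S : Finset ℕ} (hS : ∀ ℓ : ℕ, ℓ.Prime → ℓ ∣ m * p → ℓ ∈ S) {a : ℕ → ℤ} (S₀ : Finset ℕ)
    (ha : ∀ ℓ : ℕ, ℓ.Prime → ℓ ∉ S₀ → ((a ℓ : ℤ) : ZMod p) = ((W.apOfModel ℓ : ℤ) : ZMod p))
    {f : CuspForm (CongruenceSubgroup.Gamma0 (m * p)) 2} (hf : f.IsNormalizedEigenform)
    {𝔪 : Ideal (integralClosure ℤ ℂ)} (h𝔪 : 𝔪.IsMaximal) (hp𝔪 : (p : integralClosure ℤ ℂ) ∈ 𝔪)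
    (h : ∀ ℓ : ℕ, ℓ.Prime → ℓ ∉ S → ∃ b : integralClosure ℤ ℂ,
      (b : ℂ) = ModularFormClass.qCoeff f ℓ ∧ b - ((a ℓ : ℤ) : integralClosure ℤ ℂ) ∈ 𝔪)
    (hG2 : G2 κ p m) (hOrd : OrdN hp hm hA H3)
    {H : Subgroup (𝕂 ≃ₐ[ℚ] 𝕂)} (hHA : H ≤ A.inertiaSubgroupIn ℚ)
    (hHE : ∀ σ ∈ H, rho W p σ = 1) (hstar : StarEis hp hm hA H3 H) :
    ∃ (f' : CuspForm (CongruenceSubgroup.Gamma0 m) 2) (𝔪' : Ideal (integralClosure ℤ ℂ)),
      f'.IsNormalizedEigenform ∧ 𝔪'.IsMaximal ∧ (p : integralClosure ℤ ℂ) ∈ 𝔪' ∧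
      ∀ ℓ : ℕ, ℓ.Prime → ℓ ∉ S → ∃ b : integralClosure ℤ ℂ,
        (b : ℂ) = ModularFormClass.qCoeff f' ℓ ∧ b - ((a ℓ : ℤ) : integralClosure ℤ ℂ) ∈ 𝔪' := by
  classical
  rcases exists_separating_or_eigenform m S p a with ⟨t, ht, hθ⟩ | h1
  swap
  · exact h1
  exfalso
  letI := heckeModuleBar (m * p)
  haveI := Cofaith.smulCommClass_JZero (m * p)
  have hES := esInput (m * p) hp (↑S : Set ℕ) (fun ℓ hℓ hd => hS ℓ hℓ hd)
  have hpS : p ∈ S := hS p hp (Dvd.intro_left m rfl)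
  -- the relation
  set S' : Finset ℕ := S ∪ S₀ ∪ W.Δ.natAbs.primeFactors with hS'
  have hrel := fun g => eigenRep_relation (a := a) hES hΔ S'
    (Finset.subset_union_left.trans Finset.subset_union_left)
    (Finset.mem_union_left _ (Finset.mem_union_left _ hpS))
    (fun q hq hd => Finset.mem_union_left _ (Finset.mem_union_left _ (hS q hq hd)))
    (fun q hq hd => Finset.mem_union_right _
      (Nat.mem_primeFactors.2 ⟨hq, Int.natCast_dvd.1 hd, Int.natAbs_ne_zero.2 hΔ⟩))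
    (fun ℓ hℓ hℓS => ha ℓ hℓ fun h0 => hℓS
      (Finset.mem_union_left _ (Finset.mem_union_right _ h0))) g
  have hspan := span_range_rho hΔ hp2 hirr
  have hne := exists_mem_eigenPart_ne_zero (a := a) hES
    (fun n => Cofaith.finite_torsion_set (m * p) (pow_ne_zero n hp.ne_zero)) hf h𝔪 hp𝔪 h
  have hnE := exists_nonEis hΔ hp2 hirr S S₀ ha
  refine false_of_inertia_cyclotomic hΔ hp2 hspan hrel hne hA ?_
  refine hOrd (eigenPart S p a (JZero (m * p))) ?_ (fun x hx => hx.1)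
    (fun x hx => wJ_mem_eigenPart hp hm hS hx) (fun σ x hx => galois_smul_mem_eigenPart σ hx)
    (fun x hx => pushA_eq_zero hp hS ht hθ hx) fun x hx =>
      exists_pow_of_star hp hm hA H3 hS ht hθ hG2 hHA hstar hnE hx fun σ hσ => ?_
  · exact (Cofaith.finite_torsion_set (m * p) hp.ne_zero).subset fun x hx => hx.1
  · exact smul_eq_of_rho_eq_one hΔ hp2 hspan hrel (hHE σ hσ) hx

end Main

end Fermat.Agent.S44w

end
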