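import Fermat.Agent.S44w.Final

/-!
# The Kummer generator of the local extension cut out by `E[p]`
-/

set_option autoImplicit false
set_option linter.unusedSectionVars false
set_option linter.style.haveILetI false

noncomputable section

open CuspForm ModularCurve Fermat.Agent.GalRep Fermat.Agent.ECFrob WeierstrassCurve
  WeierstrassCurve.Affine WeierstrassCurve.Affine.Point Fermat.Agent.Torsion Fermat.Agent.ECRed

namespace Fermat.Agent.S44w

variable {W : WeierstrassCurve ℤ} {p : ℕ} [hp : Fact p.Prime]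

/-- the local structure of `E[p]` (multiplicative peu ramifie or ordinary) -/
def LocLine (E : WeierstrassCurve ℚ) (p : ℕ) [Fact p.Prime]
    (A : ValuationSubring (AlgebraicClosure ℚ)) (ζ : AlgebraicClosure ℚ) : Prop :=
  ∃ L : Submodule (ZMod p) (Submodule.torsionBy ℤ (E⁄(AlgebraicClosure ℚ)).Point p),
      Module.finrank (ZMod p) L = 1 ∧
      (∀ σ ∈ A.inertiaSubgroupIn ℚ,
        ∀ x : Submodule.torsionBy ℤ (E⁄(AlgebraicClosure ℚ)).Point p, σ • x - x ∈ L) ∧
      (∀ σ ∈ A.inertiaSubgroupIn ℚ, ∀ z ∈ L, σ • z = ECFrob.cycMod p σ • z) ∧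
      (∀ z ∈ L, z ≠ 0 → ∀ x : Submodule.torsionBy ℤ (E⁄(AlgebraicClosure ℚ)).Point p,
        ∃ ρ : AlgebraicClosure ℚ, A.valuation ρ = 1 ∧ ρ ≠ 0 ∧
          (∀ σ ∈ A.inertiaSubgroupIn ℚ, σ (ρ ^ p) = ρ ^ p) ∧
          ∀ σ ∈ A.inertiaSubgroupIn ℚ, ∃ k : ZMod p,
            σ • x = x + k • z ∧ σ ρ = ζ ^ k.val * ρ)

/-- an inertia element fixing `ζ` and the Kummer generator `ρ` acts trivially on `E[p]`. -/
theorem LocLine.exists_rho (hΔ : W.Δ ≠ 0) {A : ValuationSubring (AlgebraicClosure ℚ)}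
    {ζ : AlgebraicClosure ℚ} (hζ : IsPrimitiveRoot ζ p) (h : LocLine (W.map (Int.castRingHom ℚ)) p A ζ) :
    ∃ ρ : AlgebraicClosure ℚ, A.valuation ρ = 1 ∧
      (∀ σ ∈ A.inertiaSubgroupIn ℚ, σ (ρ ^ p) = ρ ^ p) ∧
      ∀ σ ∈ A.inertiaSubgroupIn ℚ, σ ζ = ζ → σ ρ = ρ → rho W p σ = 1 := by
  haveI := finite_rat hΔ hp.out.ne_zero
  haveI : Module.Finite (ZMod p)
      (Submodule.torsionBy ℤ ((W.map (Int.castRingHom ℚ))⁄(AlgebraicClosure ℚ)).Point p) :=
    Module.Finite.of_finite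
  obtain ⟨L, hL, -, h2, h3⟩ := h
  obtain ⟨z, hz, hz0⟩ : ∃ z ∈ L, z ≠ 0 := by
    by_contra hcon
    push Not at hcon
    have : L = ⊥ := (Submodule.eq_bot_iff L).2 hcon
    rw [this, finrank_bot] at hL
    exact zero_ne_one hL
  obtain ⟨x, hx⟩ : ∃ x, x ∉ L := by
    by_contra hcon
    push Not at hcon
    have h4 : L = ⊤ := (Submodule.eq_top_iff').2 hcon
    have h5 := finrank_rat hΔ (p := p)
    rw [← finrank_top, ← h4, hL] at h5
    omega
  obtain ⟨ρ, hρ1, hρ0, hρp, hρ⟩ := h3 z hz hz0 x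
  refine ⟨ρ, hρ1, hρp, fun σ hσ hσζ hσρ => ?_⟩
  obtain ⟨k, hk1, hk2⟩ := hρ σ hσ
  have hk : k = 0 := by
    rw [hσρ] at hk2
    have h4 : ζ ^ k.val = 1 := by
      have := mul_right_cancel₀ hρ0 ((one_mul ρ).trans hk2)
      exact this.symm
    have h5 := hζ.dvd_of_pow_eq_one _ h4
    have h6 := Nat.eq_zero_of_dvd_of_lt h5 (ZMod.val_lt k)
    exact (ZMod.val_eq_zero k).1 h6
  rw [hk, zero_smul, add_zero] at hk1
  have hcyc : cycMod p σ = 1 := by
    have h4 : σ ζ = ζ ^ 1 := by rw [pow_one, hσζ]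
    rw [cycMod_unique hζ h4, Nat.cast_one]
  have hz1 : σ • z = z := by rw [h2 σ hσ z hz, hcyc, one_smul]
  -- `z` and `x` span
  have hspanL : Submodule.span (ZMod p) {z} = L := by
    refine Submodule.eq_of_le_of_finrank_le ?_ ?_
    · rw [Submodule.span_singleton_le_iff_mem]; exact hz
    · rw [hL, finrank_span_singleton hz0]
  have hspan : Submodule.span (ZMod p) {z} ⊔ Submodule.span (ZMod p) {x} = ⊤ := by
    refine Submodule.eq_top_of_finrank_eq ?_
    have h4 : Submodule.span (ZMod p) {z} < Submodule.span (ZMod p) {z} ⊔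
        Submodule.span (ZMod p) {x} := by
      refine lt_of_le_of_ne le_sup_left fun he => hx ?_
      rw [← hspanL, he]
      exact (le_sup_right : Submodule.span (ZMod p) {x} ≤ _) (Submodule.mem_span_singleton_self x)
    have h5 := Submodule.finrank_lt_finrank_of_lt h4
    rw [finrank_span_singleton hz0] at h5
    have h6 := Submodule.finrank_le (Submodule.span (ZMod p) {z} ⊔ Submodule.span (ZMod p) {x})
    have h7 := finrank_rat hΔ (p := p)
    rw [h7] at h6 ⊢
    omega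
  have hker : Submodule.span (ZMod p) {z} ⊔ Submodule.span (ZMod p) {x} ≤
      LinearMap.ker (rho W p σ - 1) := by
    refine sup_le ?_ ?_
    · rw [Submodule.span_singleton_le_iff_mem, LinearMap.mem_ker, LinearMap.sub_apply,
        sub_eq_zero]
      exact hz1
    · rw [Submodule.span_singleton_le_iff_mem, LinearMap.mem_ker, LinearMap.sub_apply,
        sub_eq_zero]
      exact hk1
  rw [hspan, top_le_iff, LinearMap.ker_eq_top, sub_eq_zero] at hker
  exact hker

end Fermat.Agent.S44w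

end
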