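import Mathlib
import Fermat.Prelude.Def_FLTPrelim_Modularity

/-!
# `a_ℓ` does not depend on the integral model, for almost all `ℓ`
-/

set_option autoImplicit false
set_option linter.style.haveILetI false

noncomputable section

namespace Fermat.Agent.S44w

open WeierstrassCurve WeierstrassCurve.Affine

section Field

variable {k : Type*} [Field k] (W : WeierstrassCurve k) (C : VariableChange k)

lemma equation_of_variableChange {x y : k} (h : (C • W).toAffine.Equation x y) :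
    W.toAffine.Equation ((C.u : k) ^ 2 * x + C.r) ((C.u : k) ^ 3 * y + (C.u : k) ^ 2 * C.s * x + C.t) := by
  have hu : (C.u : k) ≠ 0 := C.u.ne_zero
  rw [equation_iff] at h ⊢
  rw [variableChange_a₁, variableChange_a₂, variableChange_a₃, variableChange_a₄,
    variableChange_a₆] at h
  simp only [Units.val_inv_eq_inv_val] at h
  field_simp at h
  linear_combination h

/-- the map on points induced by a change of variables. -/
def pointMap (hΔ : W.Δ ≠ 0) : (C • W).toAffine.Point → W.toAffine.Point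
  | .zero => .zero
  | .some x y h => .some ((C.u : k) ^ 2 * x + C.r)
      ((C.u : k) ^ 3 * y + (C.u : k) ^ 2 * C.s * x + C.t)
      ((equation_iff_nonsingular_of_Δ_ne_zero hΔ).mp (equation_of_variableChange W C h.1))

lemma pointMap_injective (hΔ : W.Δ ≠ 0) : Function.Injective (pointMap W C hΔ) := by
  have hu : (C.u : k) ≠ 0 := C.u.ne_zero
  rintro (_ | ⟨x, y, h⟩) (_ | ⟨x', y', h'⟩) heq
  · rfl
  · simp [pointMap] at heq
  · simp [pointMap] at heq
  · simp only [pointMap, Point.some.injEq] at heq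
    obtain ⟨h1, h2⟩ := heq
    have hx : x = x' := by
      have := add_right_cancel h1
      exact mul_left_cancel₀ (pow_ne_zero 2 hu) this
    subst hx
    have hy : y = y' := by
      have := add_right_cancel (add_right_cancel h2)
      exact mul_left_cancel₀ (pow_ne_zero 3 hu) this
    subst hy
    rfl

lemma card_variableChange [Finite k] (hΔ : W.Δ ≠ 0) : (C • W).card = W.card := by
  apply le_antisymm
  · exact Nat.card_le_card_of_injective _ (pointMap_injective W C hΔ)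
  · have hΔ' : (C • W).Δ ≠ 0 := by
      rw [variableChange_Δ]
      exact mul_ne_zero (pow_ne_zero _ (Units.ne_zero _)) hΔ
    have h := Nat.card_le_card_of_injective _ (pointMap_injective (C • W) C⁻¹ hΔ')
    rw [inv_smul_smul] at h
    exact h

end Field

lemma norm_le_one_of_notMem {q : ℚ} {ℓ : ℕ} [hℓ : Fact ℓ.Prime] (h : ℓ ∉ q.den.primeFactors) :
    ‖((q : ℚ) : ℚ_[ℓ])‖ ≤ 1 := by
  refine Padic.norm_rat_le_one fun hd => h ?_
  rw [Nat.mem_primeFactors]
  exact ⟨hℓ.out, hd, q.den_ne_zero⟩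

/-- The Frobenius traces of two integral models of the same curve agree at almost all primes. -/
theorem exists_finset_apOfModel_eq {W W' : WeierstrassCurve ℤ} (hΔ : W.Δ ≠ 0)
    {C : VariableChange ℚ} (h : C • W.map (Int.castRingHom ℚ) = W'.map (Int.castRingHom ℚ)) :
    ∃ S : Finset ℕ, ∀ ℓ : ℕ, ℓ.Prime → ℓ ∉ S → W'.apOfModel ℓ = W.apOfModel ℓ := by
  classical
  refine ⟨(C.u : ℚ).den.primeFactors ∪ ((C.u⁻¹ : ℚˣ) : ℚ).den.primeFactors ∪
    C.r.den.primeFactors ∪ C.s.den.primeFactors ∪ C.t.den.primeFactors ∪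
    W.Δ.natAbs.primeFactors, fun ℓ hℓ hS => ?_⟩
  simp only [Finset.mem_union, not_or] at hS
  obtain ⟨⟨⟨⟨⟨hu, hu'⟩, hr⟩, hs⟩, ht⟩, hD⟩ := hS
  haveI : Fact ℓ.Prime := ⟨hℓ⟩
  let Cp : VariableChange ℤ_[ℓ] :=
    { u := ⟨⟨((C.u : ℚ) : ℚ_[ℓ]), norm_le_one_of_notMem hu⟩,
        ⟨(((C.u⁻¹ : ℚˣ) : ℚ) : ℚ_[ℓ]), norm_le_one_of_notMem hu'⟩,
        Subtype.ext (by
          show ((C.u : ℚ) : ℚ_[ℓ]) * (((C.u⁻¹ : ℚˣ) : ℚ) : ℚ_[ℓ]) = 1
          rw [← Rat.cast_mul, Units.mul_inv, Rat.cast_one]),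
        Subtype.ext (by
          show (((C.u⁻¹ : ℚˣ) : ℚ) : ℚ_[ℓ]) * ((C.u : ℚ) : ℚ_[ℓ]) = 1
          rw [← Rat.cast_mul, Units.inv_mul, Rat.cast_one])⟩
      r := ⟨(C.r : ℚ_[ℓ]), norm_le_one_of_notMem hr⟩
      s := ⟨(C.s : ℚ_[ℓ]), norm_le_one_of_notMem hs⟩
      t := ⟨(C.t : ℚ_[ℓ]), norm_le_one_of_notMem ht⟩ }
  have hCp : Cp.map (algebraMap ℤ_[ℓ] ℚ_[ℓ]) = C.map (algebraMap ℚ ℚ_[ℓ]) := by
    ext
    · rfl
    · rfl
    · rfl
    · rfl
  have hmapZ : ∀ (V : WeierstrassCurve ℤ), (V.map (Int.castRingHom ℤ_[ℓ])).map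
      (algebraMap ℤ_[ℓ] ℚ_[ℓ]) = (V.map (Int.castRingHom ℚ)).map (algebraMap ℚ ℚ_[ℓ]) := by
    intro V
    rw [WeierstrassCurve.map_map, WeierstrassCurve.map_map]
    congr 1
  have h1 : Cp • W.map (Int.castRingHom ℤ_[ℓ]) = W'.map (Int.castRingHom ℤ_[ℓ]) := by
    apply WeierstrassCurve.map_injective (f := algebraMap ℤ_[ℓ] ℚ_[ℓ])
      (FaithfulSMul.algebraMap_injective _ _)
    simp only
    rw [← WeierstrassCurve.map_variableChange, hCp, hmapZ, hmapZ,
      WeierstrassCurve.map_variableChange, h]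
  have h2 := congrArg (fun V => V.map (PadicInt.toZMod (p := ℓ))) h1
  rw [← WeierstrassCurve.map_variableChange, WeierstrassCurve.map_map,
    WeierstrassCurve.map_map] at h2
  have h3 : (PadicInt.toZMod (p := ℓ)).comp (Int.castRingHom ℤ_[ℓ]) = Int.castRingHom (ZMod ℓ) :=
    RingHom.ext_int _ _
  rw [h3] at h2
  have h4 : (W.map (Int.castRingHom (ZMod ℓ))).Δ ≠ 0 := by
    rw [WeierstrassCurve.map_Δ, eq_intCast, Ne, ZMod.intCast_zmod_eq_zero_iff_dvd]
    intro hd
    apply hD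
    rw [Nat.mem_primeFactors]
    exact ⟨hℓ, Int.natCast_dvd.mp hd, Int.natAbs_ne_zero.mpr hΔ⟩
  show (W'.reductionMod ℓ).traceOfFrobenius = (W.reductionMod ℓ).traceOfFrobenius
  rw [traceOfFrobenius, traceOfFrobenius]
  congr 2
  show (W'.map (Int.castRingHom (ZMod ℓ))).card = (W.map (Int.castRingHom (ZMod ℓ))).card
  rw [← h2, card_variableChange _ _ h4]

end Fermat.Agent.S44w

end
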