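import Fermat.Agent.S44w.Main
import Fermat.Agent.S44w.Loc
import Fermat.Agent.S44w.Model
import Fermat.Agent.S44_LocalE
import Fermat.Agent.Frey.CurveInt
import Fermat.Agent.Star.InstUnit
import Fermat.Agent.Star.InstGood
import Fermat.Agent.Dlog.Concrete
import Fermat.Prelude.Def_FreyPackage_IsConductorLevel
import Fermat.Prelude.Def_FLTPrelim_ModularRep

/-!
# Lowering the level at `p` for the Frey curve
-/

set_option autoImplicit false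
set_option linter.unusedSectionVars false
set_option linter.style.haveILetI false

noncomputable section

open CuspForm ModularCurve HahnSeries AlgebraicCurve
open Fermat.Agent.GaussVal Fermat.Agent.TEll Fermat.Agent.TwoGauss Fermat.Agent.GalRep
open WeierstrassCurve WeierstrassCurve.Affine WeierstrassCurve.Affine.Point
open Fermat.Agent.ECFrob Fermat.Agent.Torsion Fermat.Agent.ECRed
open scoped Fermat.Agent.GaussVal

namespace Fermat.Agent.S44w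

local notation "𝕂" => AlgebraicClosure ℚ

theorem not_dvd_twelve {p : ℕ} (hp : p.Prime) (hp5 : 5 ≤ p) : ¬ p ∣ 12 := by
  intro h12
  have h1 : p ∣ 2 ^ 2 * 3 := h12
  rcases hp.dvd_mul.1 h1 with h | h
  · have := Nat.le_of_dvd (by norm_num) (hp.dvd_of_dvd_pow h)
    omega
  · have := Nat.le_of_dvd (by norm_num) h
    omega

section

variable {A : ValuationSubring (AlgebraicClosure ℚ)} {p m : ℕ} [NeZero m]
  [hpf : Fact p.Prime] [CharP (IsLocalRing.ResidueField A) p]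
  (hp : p.Prime) (hm : ¬ p ∣ m) (hA : A.LiesOverPrime p)
  (H3 : S18aux.DegThm (IsLocalRing.ResidueField A) m)

local notation "κ" => IsLocalRing.ResidueField A

/-- **(I3)** the local field cut out by `ζ` and a `p`-th root `ρ` of a unit is wild or tame. -/
def LocInput : Prop :=
  ∀ ζ ρ : 𝕂, IsPrimitiveRoot ζ p → A.valuation ρ = 1 →
    (∀ σ ∈ A.inertiaSubgroupIn ℚ, σ (ρ ^ p) = ρ ^ p) →
    ∃ H : Subgroup (𝕂 ≃ₐ[ℚ] 𝕂), H ≤ A.inertiaSubgroupIn ℚ ∧ (∀ σ ∈ H, σ ζ = ζ ∧ σ ρ = ρ) ∧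
      (Nonempty (Star.Model.Wild (Star.Inst.model hp hm hA H3)
        (H.map (arithmeticGalois (modularFunctionFieldFull (m * p))))) ∨
      Nonempty (Star.Model.Tame (Star.Inst.model hp hm hA H3)
        (H.map (arithmeticGalois (modularFunctionFieldFull (m * p))))))

/-- **Level lowering at `p ≥ 5`** when the local structure of `E[p]` is a line with unit Kummer
generator. -/
theorem level_lower_of_line {W : WeierstrassCurve ℤ} (hΔ : W.Δ ≠ 0)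
    (hp5 : 5 ≤ p)
    (hirr : GaloisRepIsIrreducible (K := AlgebraicClosure ℚ) ℚ (W.map (Int.castRingHom ℚ)) p)
    {S : Finset ℕ} (hS : ∀ ℓ : ℕ, ℓ.Prime → ℓ ∣ m * p → ℓ ∈ S) {a : ℕ → ℤ} (S₀ : Finset ℕ)
    (ha : ∀ ℓ : ℕ, ℓ.Prime → ℓ ∉ S₀ → ((a ℓ : ℤ) : ZMod p) = ((W.apOfModel ℓ : ℤ) : ZMod p))
    {f : CuspForm (CongruenceSubgroup.Gamma0 (m * p)) 2} (hf : f.IsNormalizedEigenform)
    {𝔪 : Ideal (integralClosure ℤ ℂ)} (h𝔪 : 𝔪.IsMaximal) (hp𝔪 : (p : integralClosure ℤ ℂ) ∈ 𝔪)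
    (h : ∀ ℓ : ℕ, ℓ.Prime → ℓ ∉ S → ∃ b : integralClosure ℤ ℂ,
      (b : ℂ) = ModularFormClass.qCoeff f ℓ ∧ b - ((a ℓ : ℤ) : integralClosure ℤ ℂ) ∈ 𝔪)
    {ζ : 𝕂} (hζ : IsPrimitiveRoot ζ p) (hloc : LocLine (W.map (Int.castRingHom ℚ)) p A ζ)
    (hI3 : LocInput hp hm hA H3) (hOrd : OrdN hp hm hA H3) :
    ∃ (f' : CuspForm (CongruenceSubgroup.Gamma0 m) 2) (𝔪' : Ideal (integralClosure ℤ ℂ)),
      f'.IsNormalizedEigenform ∧ 𝔪'.IsMaximal ∧ (p : integralClosure ℤ ℂ) ∈ 𝔪' ∧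
      ∀ ℓ : ℕ, ℓ.Prime → ℓ ∉ S → ∃ b : integralClosure ℤ ℂ,
        (b : ℂ) = ModularFormClass.qCoeff f' ℓ ∧ b - ((a ℓ : ℤ) : integralClosure ℤ ℂ) ∈ 𝔪' := by
  have i1 : FF.IsFF 𝕂 (modularFunctionFieldBar (m * p)) := Cofaith.isFF_bar (m * p)
  have i2 : FF.IsFF κ (modularFunctionFieldFullC κ m) :=
    (GoodRed.degEq_all hp hA (NeZero.ne m) hm).isFF'
  obtain ⟨ρ, hρ1, hρp, hρ⟩ := hloc.exists_rho hΔ hζ
  obtain ⟨H, hHA, hH, hW⟩ := hI3 ζ ρ hζ hρ1 hρp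
  refine level_lower hp hm hA H3 hΔ (by omega) hirr hS S₀ ha hf h𝔪 hp𝔪 h
    (fun y hy hw => Dlog.dlog_mem_span hp hA hp5 hm hy hw) hOrd hHA
    (fun σ hσ => hρ σ (hHA hσ) (hH σ hσ).1 (hH σ hσ).2)
    (starEis_of_unit hp hm hA H3 (Star.Inst.good hp hm hA H3)
      (Star.Inst.unitData hp hm hA H3) ?_ hW)
  exact not_dvd_twelve hp hp5

end

/-- **Level lowering at `p` for the Frey curve.** -/
theorem frey_level_lower (P : FreyPackage) {N : ℕ} (hcond : P.IsConductorLevel N)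
    (hpN : P.p ∣ N)
    (hirr : GaloisRepIsIrreducible (K := AlgebraicClosure ℚ) ℚ P.freyCurve P.p)
    (hmod : P.ModularRepOfLevel N)
    (hI3 : ∀ (A : ValuationSubring (AlgebraicClosure ℚ)) (p m : ℕ) [NeZero m]
      [Fact p.Prime] [CharP (IsLocalRing.ResidueField A) p] (hp : p.Prime) (hm : ¬ p ∣ m)
      (hA : A.LiesOverPrime p) (H3 : S18aux.DegThm (IsLocalRing.ResidueField A) m),
      5 ≤ p → LocInput hp hm hA H3)
    (hOrd : ∀ (A : ValuationSubring (AlgebraicClosure ℚ)) (p m : ℕ) [NeZero m]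
      [Fact p.Prime] [CharP (IsLocalRing.ResidueField A) p] (hp : p.Prime) (hm : ¬ p ∣ m)
      (hA : A.LiesOverPrime p) (H3 : S18aux.DegThm (IsLocalRing.ResidueField A) m),
      5 ≤ p → OrdN hp hm hA H3) :
    ∃ M : ℕ, M ∣ N ∧ ¬ P.p ∣ M ∧ P.ModularRepOfLevel M := by
  classical
  haveI : Fact P.p.Prime := ⟨P.pp⟩
  obtain ⟨m, hm⟩ := hpN
  rw [mul_comm] at hm
  subst hm
  have hm0 : m ≠ 0 := by
    rintro rfl
    have := hcond.pos
    simp at this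
  haveI : NeZero m := ⟨hm0⟩
  have hpm : ¬ P.p ∣ m := by
    intro h
    refine hcond.sq_not_dvd P.pp ?_
    rw [pow_two]
    exact Nat.mul_dvd_mul h dvd_rfl
  obtain ⟨f, W, 𝔪, hf, hW, h𝔪, hp𝔪, hcong⟩ := hmod
  obtain ⟨A, hA⟩ := Frob.exists_liesOverPrime P.p P.pp
  haveI : CharP (IsLocalRing.ResidueField A) P.p := TEll.charP_residueField A P.p hA
  have H3 := GoodRed.degThm_res P.pp hA hm0 hpm
  obtain ⟨ζ, hζ⟩ := exists_primitiveRoot P.p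
  -- the two models
  have hW0 := Frey.freyCurveInt_Δ_ne_zero P
  obtain ⟨C, hC⟩ := hW
  have hC' : C • P.freyCurveInt.map (Int.castRingHom ℚ) = W.map (Int.castRingHom ℚ) := by
    rw [Frey.freyCurveInt_map]; exact hC
  obtain ⟨S₀, hS₀⟩ := exists_finset_apOfModel_eq hW0 hC'
  have hWΔ : W.Δ ≠ 0 := by
    intro h0
    have h1 : (W.map (Int.castRingHom ℚ)).Δ = 0 := by rw [WeierstrassCurve.map_Δ, h0, _root_.map_zero]
    rw [← hC', WeierstrassCurve.variableChange_Δ, WeierstrassCurve.map_Δ] at h1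
    rcases mul_eq_zero.1 h1 with h2 | h2
    · exact (pow_ne_zero 12 (Units.ne_zero _)) h2
    · exact hW0 (by simpa using h2)
  set S : Finset ℕ := (m * P.p * W.Δ.natAbs).primeFactors with hS
  have hS0 : m * P.p * W.Δ.natAbs ≠ 0 :=
    mul_ne_zero (mul_ne_zero hm0 P.hp0) (Int.natAbs_ne_zero.2 hWΔ)
  have hmemS : ∀ ℓ : ℕ, ℓ.Prime → (ℓ ∈ S ↔ ℓ ∣ m * P.p ∨ (ℓ : ℤ) ∣ W.Δ) := by
    intro ℓ hℓ
    rw [hS, Nat.mem_primeFactors_of_ne_zero hS0, hℓ.dvd_mul, Int.natCast_dvd]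
    exact ⟨fun h => h.2, fun h => ⟨hℓ, h⟩⟩
  have hirr' : GaloisRepIsIrreducible (K := AlgebraicClosure ℚ) ℚ
      (P.freyCurveInt.map (Int.castRingHom ℚ)) P.p := by
    rw [Frey.freyCurveInt_map]; exact hirr
  have hloc : LocLine (P.freyCurveInt.map (Int.castRingHom ℚ)) P.p A ζ := by
    rw [Frey.freyCurveInt_map]
    exact LocE.frey_local P hA (hcond.p_dvd_abc (Dvd.intro_left m rfl)) hζ
  obtain ⟨f', 𝔪', hf', h𝔪', hp𝔪', h'⟩ := level_lower_of_line (a := fun ℓ => W.apOfModel ℓ)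
    P.pp hpm hA H3 hW0 P.hp5 hirr'
    (S := S) (fun ℓ hℓ hd => (hmemS ℓ hℓ).2 (Or.inl hd)) S₀
    (fun ℓ hℓ hℓS => by rw [hS₀ ℓ hℓ hℓS]) hf h𝔪 hp𝔪 (fun ℓ hℓ hℓS => by
      rw [hmemS ℓ hℓ, not_or] at hℓS
      exact hcong ℓ hℓ hℓS.2 hℓS.1 (fun h => hℓS.1 (h ▸ Dvd.intro_left m rfl)))
    hζ hloc (hI3 A P.p m P.pp hpm hA H3 P.hp5) (hOrd A P.p m P.pp hpm hA H3 P.hp5)
  refine ⟨m, Dvd.intro _ rfl, hpm, f', W, 𝔪', hf', ⟨C, hC⟩, h𝔪', hp𝔪', ?_⟩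
  intro ℓ hℓ hgood hℓm hℓp
  refine h' ℓ hℓ ?_
  rw [hmemS ℓ hℓ, not_or]
  refine ⟨fun h => ?_, hgood⟩
  rcases (hℓ.dvd_mul).1 h with h | h
  · exact hℓm h
  · exact hℓp ((Nat.prime_dvd_prime_iff_eq hℓ P.pp).1 h)

end Fermat.Agent.S44w

end
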