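import Fermat.Agent.Star.TVersion

/-!
# Eigenfunctions which are not Eisenstein have reductions with orders divisible by `p`
-/

set_option autoImplicit false
set_option linter.unusedSectionVars false

noncomputable section

open AlgebraicCurve WithZero Module
open Fermat.Agent.RR Fermat.Agent.FF

namespace Fermat.Agent.Star

variable {K F k F' : Type*} [Field K] [Field F] [Algebra K F] [Field k] [Field F']
    [Algebra k F'] [IsAlgClosed K] [IsFF K F] [IsAlgClosed k] [IsFF k F']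

open SemilinearAut

namespace Model

variable {M : Model K F k F'}

/-- a scaled `p`-th power decomposition: if `y = c * g ^ p` is a unit for `O i`, then
`red y` is a constant times a `p`-th power. -/
theorem red_eq_of_eq_mul_pow {i : Fin 2} {y : F} (y0 : y ≠ 0) (hy : y ∈ M.O i)
    (hy' : y⁻¹ ∈ M.O i) {c : K} {g : F} {n : ℕ} (h : y = algebraMap K F c * g ^ n) :
    ∃ (c' : k) (g' : F'), c' ≠ 0 ∧ g' ≠ 0 ∧ M.red i y = algebraMap k F' c' * g' ^ n := by
  by_cases hn : n = 0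
  · subst hn
    have hyc : y = algebraMap K F c := by rw [h, pow_zero, mul_one]
    have hcA : c ∈ M.A := by rw [← M.mem_O_iff i, ← hyc]; exact hy
    have hr : M.red i y = algebraMap k F' (M.cres c) := by rw [hyc, red_algebraMap hcA]
    refine ⟨M.cres c, 1, ?_, one_ne_zero, by rw [hr, pow_zero, mul_one]⟩
    intro h0
    have := (red_ne_zero_iff hy).2 ⟨y0, hy'⟩
    rw [hr, h0, map_zero] at this
    exact this rfl
  have g0 : g ≠ 0 := by
    rintro rfl
    rw [zero_pow hn, mul_zero] at h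
    exact y0 h
  obtain ⟨b, hb0, h1, h2, -⟩ := M.scale i g g0
  have hbF : algebraMap K F b ≠ 0 := (_root_.map_ne_zero _).2 hb0
  set g₁ := g * (algebraMap K F b)⁻¹ with hg₁
  have g₁0 : g₁ ≠ 0 := mul_ne_zero g0 (inv_ne_zero hbF)
  have hyc : y = algebraMap K F (c * b ^ n) * g₁ ^ n := by
    have e1 : g = g₁ * algebraMap K F b := by rw [hg₁, inv_mul_cancel_right₀ hbF]
    rw [h, map_mul, map_pow, e1, mul_pow]
    ring
  have hc1 : algebraMap K F (c * b ^ n) = y * (g₁⁻¹) ^ n := by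
    rw [hyc, mul_assoc, ← mul_pow, mul_inv_cancel₀ g₁0, one_pow, mul_one]
  have hcO : algebraMap K F (c * b ^ n) ∈ M.O i := by
    rw [hc1]; exact mul_mem hy (pow_mem h2 n)
  have hcA : c * b ^ n ∈ M.A := (M.mem_O_iff i _).1 hcO
  have hr : M.red i y = algebraMap k F' (M.cres (c * b ^ n)) * M.red i g₁ ^ n := by
    conv_lhs => rw [hyc]
    rw [red_mul hcO (pow_mem h1 n), red_algebraMap hcA, red_pow h1]
  have hy1 := (red_ne_zero_iff hy).2 ⟨y0, hy'⟩
  refine ⟨M.cres (c * b ^ n), M.red i g₁, ?_, (red_ne_zero_iff h1).2 ⟨g₁0, h2⟩, hr⟩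
  intro h0
  rw [hr, h0, map_zero, zero_mul] at hy1
  exact hy1 rfl

/-- **The non-Eisenstein argument** -/
theorem dvd_ord_red_of_eigen (hM : M.Good) (U : UnitData M) (hpE : ¬ M.p ∣ U.E)
    {H : Subgroup (SemilinearAut K F)}
    (W : Nonempty (Wild M H) ∨ Nonempty (Tame M H)) {f : F} (f0 : f ≠ 0)
    (hfix : ∀ g ∈ H, g • f = f) (hO : f ∈ M.O 0)
    (hO' : f⁻¹ ∈ M.O 0) (hdiv : ∀ v : Place K F, (M.p : ℤ) ∣ v.ord f)
    {T : F →* F} {e : ℕ} (hT : M.TOp T e) {a : ℤ} {c : K} {g : F}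
    (hTf : T f = algebraMap K F c * f ^ a * g ^ M.p) (hae : ¬ (M.p : ℤ) ∣ a - e)
    (w : Place k F') : (M.p : ℤ) ∣ w.ord (M.red 0 f) := by
  obtain ⟨n, ⟨h1, h2⟩, h3⟩ := starT hM U W f0 hfix hO hO' hdiv
  by_cases hw : M.red 0 (M.x 0) ∈ w.toValuationSubring
  swap
  · exact h2 w hw
  have hp : Prime (M.p : ℤ) := Nat.prime_iff_prime_int.1 M.hp
  have h4 := h1 w hw
  have h5 := h3 T e hT w hw
  -- the reduction of `T f`
  obtain ⟨TO, TO'⟩ := hT.unit 0 f hO hO' f0
  have Tf0 : T f ≠ 0 := Datum.T_ne_zero T f0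
  obtain ⟨z1, z2⟩ := zpow_unit_mem hO hO' a
  have fa0 : f ^ a ≠ 0 := zpow_ne_zero a f0
  have hy : T f * (f ^ a)⁻¹ = algebraMap K F c * g ^ M.p := by
    rw [hTf]; field_simp
  have hyO : T f * (f ^ a)⁻¹ ∈ M.O 0 := mul_mem TO z2
  have hyO' : (T f * (f ^ a)⁻¹)⁻¹ ∈ M.O 0 := by
    rw [mul_inv, inv_inv]; exact mul_mem TO' z1
  obtain ⟨c', g', hc', hg', hr⟩ := red_eq_of_eq_mul_pow (mul_ne_zero Tf0 (inv_ne_zero fa0))
    hyO hyO' hy
  have hfr : M.red 0 f ≠ 0 := (red_ne_zero_iff hO).2 ⟨f0, hO'⟩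
  have hord : w.ord (M.red 0 (T f)) = a * w.ord (M.red 0 f) + M.p * w.ord g' := by
    have h6 : M.red 0 (T f) = M.red 0 f ^ a * (algebraMap k F' c' * g' ^ M.p) := by
      have h7 : T f = f ^ a * (T f * (f ^ a)⁻¹) := by field_simp
      conv_lhs => rw [h7]
      rw [red_mul z1 hyO, hr]
      congr 1
      obtain ⟨l, rfl | rfl⟩ := a.eq_nat_or_neg
      · rw [zpow_natCast, red_pow hO, zpow_natCast]
      · rw [zpow_neg, zpow_natCast, red_inv (pow_mem hO l) (by rw [← inv_pow]; exact pow_mem hO' l)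
          (pow_ne_zero l f0), red_pow hO, zpow_neg, zpow_natCast]
    have hc'F : algebraMap k F' c' ≠ 0 := (_root_.map_ne_zero _).2 hc'
    rw [h6, Place.ord_mul _ (zpow_ne_zero a hfr) (mul_ne_zero hc'F (pow_ne_zero _ hg')),
      Place.ord_mul _ hc'F (pow_ne_zero _ hg'), Place.ord_zpow, ord_algebraMap, ord_pow]
    ring
  rw [hord] at h5
  have h6 : (M.p : ℤ) ∣ (a - e) * (n * w.ord (M.red 0 U.u)) := by
    have h7 : (M.p : ℤ) ∣ U.E * (M.p * w.ord g') := ⟨U.E * w.ord g', by ring⟩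
    have h8 := (h5.sub (h4.mul_left a)).sub h7
    have h9 : U.E * (a * w.ord (M.red 0 f) + M.p * w.ord g') - e * n * w.ord (M.red 0 U.u) -
        a * (U.E * w.ord (M.red 0 f) - n * w.ord (M.red 0 U.u)) - U.E * (M.p * w.ord g') =
        (a - e) * (n * w.ord (M.red 0 U.u)) := by ring
    rwa [h9] at h8
  have h7 : (M.p : ℤ) ∣ n * w.ord (M.red 0 U.u) := (hp.dvd_or_dvd h6).resolve_left hae
  have h8 : (M.p : ℤ) ∣ U.E * w.ord (M.red 0 f) := by
    have := h4.add h7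
    rwa [sub_add_cancel] at this
  refine (hp.dvd_or_dvd h8).resolve_left ?_
  intro h
  exact hpE (by exact_mod_cast h)

end Model

end Fermat.Agent.Star
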