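import Fermat.Agent.S44w.Lift
import Fermat.Agent.S35_Separate
import Fermat.Agent.Oldforms.Basic

/-!
# Mod `p` Hecke eigensystems: support at level `M` or a separating Hecke operator
-/

set_option autoImplicit false
set_option linter.style.haveILetI false

noncomputable section

open CuspForm ModularCurve Fermat.Agent.GalRep FermatAgent.HeckeEigen

namespace Fermat.Agent.S44w

/-- The character `T_ℓ ↦ a ℓ mod p` of the polynomial Hecke algebra outside `S`. -/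
def theta (S : Finset ℕ) (p : ℕ) (a : ℕ → ℤ) : HeckeAlgS (↑S : Set ℕ) →+* ZMod p :=
  (MvPolynomial.aeval (R := ℤ) (fun ℓ => ((a (ℓ.1 : ℕ) : ℤ) : ZMod p))).toRingHom

@[simp] lemma theta_X (S : Finset ℕ) (p : ℕ) (a : ℕ → ℤ)
    (ℓ : {ℓ : Nat.Primes // (ℓ : ℕ) ∉ (↑S : Set ℕ)}) :
    theta S p a (MvPolynomial.X ℓ) = ((a (ℓ.1 : ℕ) : ℤ) : ZMod p) :=
  MvPolynomial.aeval_X _ _

/-- integral version of `theta`. -/
def thetaZ (S : Finset ℕ) (a : ℕ → ℤ) : HeckeAlgS (↑S : Set ℕ) →+* ℤ :=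
  (MvPolynomial.aeval (R := ℤ) (fun ℓ => a (ℓ.1 : ℕ))).toRingHom

@[simp] lemma thetaZ_X (S : Finset ℕ) (a : ℕ → ℤ)
    (ℓ : {ℓ : Nat.Primes // (ℓ : ℕ) ∉ (↑S : Set ℕ)}) :
    thetaZ S a (MvPolynomial.X ℓ) = a (ℓ.1 : ℕ) :=
  MvPolynomial.aeval_X _ _

lemma theta_eq (S : Finset ℕ) (p : ℕ) (a : ℕ → ℤ) (t : HeckeAlgS (↑S : Set ℕ)) :
    theta S p a t = ((thetaZ S a t : ℤ) : ZMod p) := by
  have h : theta S p a = (Int.castRingHom (ZMod p)).comp (thetaZ S a) := by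
    apply MvPolynomial.ringHom_ext
    · intro r
      simp
    · intro i
      simp
  rw [h]
  rfl

lemma theta_surjective (S : Finset ℕ) (p : ℕ) (a : ℕ → ℤ) :
    Function.Surjective (theta S p a) := by
  intro x
  obtain ⟨n, rfl⟩ := ZMod.intCast_surjective x
  exact ⟨(n : HeckeAlgS (↑S : Set ℕ)), by rw [map_intCast]⟩

/-- Either some Hecke operator kills `S₂(Γ₀(M))` and is `1` on the eigensystem, or the eigensystem
is realised by an eigenform of level `M`. -/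
theorem exists_separating_or_eigenform (M : ℕ) [NeZero M] (S : Finset ℕ) (p : ℕ) [Fact p.Prime]
    (a : ℕ → ℤ) :
    (∃ t : HeckeAlgS (↑S : Set ℕ), evS M (↑S : Set ℕ) t = 0 ∧ theta S p a t = 1) ∨
    ∃ (f : CuspForm (CongruenceSubgroup.Gamma0 M) 2) (𝔪 : Ideal (integralClosure ℤ ℂ)),
      f.IsNormalizedEigenform ∧ 𝔪.IsMaximal ∧ (p : integralClosure ℤ ℂ) ∈ 𝔪 ∧
      ∀ ℓ : ℕ, ℓ.Prime → ℓ ∉ S → ∃ b : integralClosure ℤ ℂ,
        (b : ℂ) = ModularFormClass.qCoeff f ℓ ∧ b - ((a ℓ : ℤ) : integralClosure ℤ ℂ) ∈ 𝔪 := by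
  classical
  by_cases h : ∃ t : HeckeAlgS (↑S : Set ℕ), evS M (↑S : Set ℕ) t = 0 ∧ theta S p a t ≠ 0
  · left
    obtain ⟨t, ht, hθ⟩ := h
    obtain ⟨u, hu⟩ := theta_surjective S p a (theta S p a t)⁻¹
    refine ⟨u * t, ?_, ?_⟩
    · rw [map_mul, ht, mul_zero]
    · rw [map_mul, hu, inv_mul_cancel₀ hθ]
  · right
    push Not at h
    let e := (RingHom.liftOfSurjective (evS M (↑S : Set ℕ)).toRingHom
      (S35aux.evS_surjective M (↑S : Set ℕ)) ⟨theta S p a, fun t ht => h t ht⟩)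
    have he : ∀ t, e (evS M (↑S : Set ℕ) t) = theta S p a t := fun t =>
      RingHom.liftOfRightInverse_comp_apply _ _ _ _ t
    haveI : Module.Finite ℤ (heckeAlgebra M 2 (↑S : Set ℕ)) := Fermat.Agent.S22.result M 2 _
    obtain ⟨χ, 𝔪, h𝔪, hp𝔪, hχ⟩ := exists_char_lift e p (by simp)
    obtain ⟨v, hv0, hv⟩ := S35aux.exists_cuspForm_of_char M (↑S : Set ℕ) χ
    obtain ⟨f, hf, hfℓ⟩ := Oldforms.exists_eigenform_of_joint
      {ℓ : Nat.Primes | (ℓ : ℕ) ∉ (↑S : Set ℕ)}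
      (fun ℓ => if hℓ : (ℓ : ℕ) ∉ (↑S : Set ℕ) then χ (genS M (↑S : Set ℕ) ⟨ℓ, hℓ⟩) else 0) v hv0
      (fun ℓ hℓ => by
        have hℓ' : (ℓ : ℕ) ∉ (↑S : Set ℕ) := hℓ
        rw [dif_pos hℓ', ← hv]
        congr 1
        rw [genS]
        by_cases h : (ℓ : ℕ) ∣ M
        · rw [heckeOp_of_dvd h]; simp only [h, dite_true]; rfl
        · rw [heckeOp_of_not_dvd h]; simp only [h, dite_false]; rfl)
    refine ⟨f, 𝔪, hf, h𝔪, hp𝔪, fun ℓ hℓ hℓS => ?_⟩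
    have hℓ' : ℓ ∉ (↑S : Set ℕ) := by simpa using hℓS
    obtain ⟨b, hb, hb'⟩ := hχ (genS M (↑S : Set ℕ) ⟨⟨ℓ, hℓ⟩, hℓ'⟩) (a ℓ) (by
      have h1 := he (MvPolynomial.X ⟨⟨ℓ, hℓ⟩, hℓ'⟩)
      rw [evS, MvPolynomial.aeval_X, theta_X] at h1
      exact h1)
    refine ⟨b, ?_, hb'⟩
    rw [hb]
    have h2 := hfℓ ⟨ℓ, hℓ⟩ hℓ'
    rw [h2, dif_pos (show ((⟨ℓ, hℓ⟩ : Nat.Primes) : ℕ) ∉ (↑S : Set ℕ) from hℓ')]

lemma intCast_mem_iff {p : ℕ} (hp : p.Prime) {𝔪 : Ideal (integralClosure ℤ ℂ)} (h𝔪 : 𝔪.IsMaximal)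
    (hp𝔪 : (p : integralClosure ℤ ℂ) ∈ 𝔪) (n : ℤ) (hn : (n : integralClosure ℤ ℂ) ∈ 𝔪) :
    (p : ℤ) ∣ n := by
  by_contra h
  have h1 : IsCoprime (p : ℤ) n :=
    (Prime.coprime_iff_not_dvd (Nat.prime_iff_prime_int.mp hp)).mpr h
  obtain ⟨u, v, huv⟩ := h1
  apply h𝔪.ne_top
  rw [Ideal.eq_top_iff_one]
  have h2 := congrArg (Int.cast : ℤ → integralClosure ℤ ℂ) huv
  push_cast at h2
  rw [← h2]
  exact 𝔪.add_mem (𝔪.mul_mem_left _ hp𝔪) (𝔪.mul_mem_left _ hn)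

/-- A Hecke operator that is `0` modulo `p` at level `N` is zero on the mod `p` eigensystem of an
eigenform of level `N`. -/
theorem theta_eq_zero_of_mem_span {N : ℕ} [NeZero N] {S : Finset ℕ} {p : ℕ} [hp : Fact p.Prime]
    {a : ℕ → ℤ} {f : CuspForm (CongruenceSubgroup.Gamma0 N) 2} (hf : f.IsNormalizedEigenform)
    {𝔪 : Ideal (integralClosure ℤ ℂ)} (h𝔪 : 𝔪.IsMaximal) (hp𝔪 : (p : integralClosure ℤ ℂ) ∈ 𝔪)
    (h : ∀ ℓ : ℕ, ℓ.Prime → ℓ ∉ S → ∃ b : integralClosure ℤ ℂ,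
        (b : ℂ) = ModularFormClass.qCoeff f ℓ ∧ b - ((a ℓ : ℤ) : integralClosure ℤ ℂ) ∈ 𝔪)
    {t : HeckeAlgS (↑S : Set ℕ)}
    (ht : evS N (↑S : Set ℕ) t ∈ Ideal.span {(p : heckeAlgebra N 2 (↑S : Set ℕ))}) :
    theta S p a t = 0 := by
  classical
  choose b hb hb' using h
  let c : HeckeAlgS (↑S : Set ℕ) →+* integralClosure ℤ ℂ :=
    (MvPolynomial.aeval (R := ℤ) (fun ℓ => b (ℓ.1 : ℕ) ℓ.1.2 (by simpa using ℓ.2))).toRingHom
  have hcX : ∀ ℓ : {ℓ : Nat.Primes // (ℓ : ℕ) ∉ (↑S : Set ℕ)}, c (MvPolynomial.X ℓ) =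
      b (ℓ.1 : ℕ) ℓ.1.2 (by simpa using ℓ.2) := fun ℓ => MvPolynomial.aeval_X _ _
  have hcθ : ∀ s : HeckeAlgS (↑S : Set ℕ),
      Ideal.Quotient.mk 𝔪 (c s) = Ideal.Quotient.mk 𝔪 ((thetaZ S a s : ℤ) : integralClosure ℤ ℂ) := by
    intro s
    have h1 : (Ideal.Quotient.mk 𝔪).comp c =
        ((Ideal.Quotient.mk 𝔪).comp (Int.castRingHom _)).comp (thetaZ S a) := by
      apply MvPolynomial.ringHom_ext
      · intro r; simp
      · intro ℓ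
        rw [RingHom.comp_apply, RingHom.comp_apply, RingHom.comp_apply, hcX, thetaZ_X]
        exact Ideal.Quotient.eq.mpr (hb' _ _ _)
    exact congrArg (fun g : HeckeAlgS (↑S : Set ℕ) →+* _ => g s) h1
  have heig := S35aux.evS_apply_of_eigen (N := N) (S := S)
    ((algebraMap (integralClosure ℤ ℂ) ℂ).comp c) f (fun ℓ => by
      rw [heckeOp_eq_of_isNormalizedEigenform hf, RingHom.comp_apply, hcX]
      congr 1
      exact (hb _ _ _).symm) t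
  obtain ⟨s, hs⟩ := Ideal.mem_span_singleton'.mp ht
  have hp0 : (p : ℂ) ≠ 0 := Nat.cast_ne_zero.mpr hp.out.ne_zero
  obtain ⟨s', rfl⟩ := S35aux.evS_surjective N (↑S : Set ℕ) s
  have heig' := S35aux.evS_apply_of_eigen (N := N) (S := S)
    ((algebraMap (integralClosure ℤ ℂ) ℂ).comp c) f (fun ℓ => by
      rw [heckeOp_eq_of_isNormalizedEigenform hf, RingHom.comp_apply, hcX]
      congr 1
      exact (hb _ _ _).symm) s'
  have h2 : c t = p * c s' := by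
    have h3 : ((evS N (↑S : Set ℕ) t : heckeAlgebra N 2 (↑S : Set ℕ)) : Module.End ℂ _) f =
        (p : ℂ) • (((evS N (↑S : Set ℕ) s' : heckeAlgebra N 2 (↑S : Set ℕ)) :
          Module.End ℂ _) f) := by
      rw [← hs, mul_comm]
      have h4 : (((p : heckeAlgebra N 2 (↑S : Set ℕ)) * evS N (↑S : Set ℕ) s' :
          heckeAlgebra N 2 (↑S : Set ℕ)) : Module.End ℂ _) =
          (p : ℂ) • ((evS N (↑S : Set ℕ) s' : heckeAlgebra N 2 (↑S : Set ℕ)) :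
            Module.End ℂ (CuspForm (CongruenceSubgroup.Gamma0 N) 2)) := by
        rw [← nsmul_eq_mul, Nat.cast_smul_eq_nsmul]
        rfl
      rw [h4]
      rfl
    rw [heig, heig', smul_smul] at h3
    have h5 := smul_left_injective ℂ hf.ne_zero h3
    apply Subtype.ext
    simpa using h5
  have h6 : (thetaZ S a t : integralClosure ℤ ℂ) ∈ 𝔪 := by
    rw [← Ideal.Quotient.eq_zero_iff_mem, ← hcθ, h2, Ideal.Quotient.eq_zero_iff_mem]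
    exact 𝔪.mul_mem_right _ hp𝔪
  rw [theta_eq, ZMod.intCast_zmod_eq_zero_iff_dvd]
  exact intCast_mem_iff hp.out h𝔪 hp𝔪 _ h6

end Fermat.Agent.S44w

end
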