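import Fermat.Agent.S44w.Dlog
import Fermat.Agent.S44w.Dichotomy
import Fermat.Agent.S23

/-!
# Reduction of integral cusp forms and Hecke operators
-/

set_option autoImplicit false
set_option linter.style.haveILetI false

noncomputable section

open CuspForm ModularCurve ModularFormClass Fermat.Agent.GalRep FermatAgent.HeckeEigen
open Fermat.Agent.TEll
open scoped TensorProduct

namespace Fermat.Agent.S44w

section Lattice

variable {M : ℕ}

/-- the lattice of cusp forms with integral Fourier coefficients -/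
abbrev LZ (M : ℕ) : Type := ↥(intLattice M 2)

theorem exists_int_qCoeff {f : CuspForm (CongruenceSubgroup.Gamma0 M) 2} (hf : f ∈ intLattice M 2)
    (n : ℕ) : ∃ m : ℤ, qCoeff ⇑f n = m := by
  unfold intLattice at hf
  induction hf using Submodule.span_induction with
  | mem f hf => exact hf n
  | zero => exact ⟨0, by rw [qCoeff_zero]; simp⟩
  | add f g _ _ hf hg =>
    obtain ⟨a, ha⟩ := hf
    obtain ⟨b, hb⟩ := hg
    exact ⟨a + b, by rw [qCoeff_add, ha, hb]; simp⟩
  | smul c f _ hf =>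
    obtain ⟨a, ha⟩ := hf
    refine ⟨c * a, ?_⟩
    rw [← Int.cast_smul_eq_zsmul ℂ c f, qCoeff_smul, ha]
    simp

/-- the `n`-th coefficient as an integer valued linear functional on the lattice -/
def coefZ (n : ℕ) : LZ M →ₗ[ℤ] ℤ where
  toFun f := (exists_int_qCoeff f.2 n).choose
  map_add' f g := by
    have hf := (exists_int_qCoeff f.2 n).choose_spec
    have hg := (exists_int_qCoeff g.2 n).choose_spec
    have hfg := (exists_int_qCoeff (f + g).2 n).choose_spec
    have : qCoeff ⇑(f + g).1 n = qCoeff ⇑f.1 n + qCoeff ⇑g.1 n := qCoeff_add f.1 g.1 n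
    rw [hf, hg, hfg] at this
    exact_mod_cast this
  map_smul' c f := by
    have hf := (exists_int_qCoeff f.2 n).choose_spec
    have hfg := (exists_int_qCoeff (c • f).2 n).choose_spec
    have : qCoeff ⇑(c • f).1 n = (c : ℂ) * qCoeff ⇑f.1 n := by
      rw [← qCoeff_smul, Int.cast_smul_eq_zsmul]; rfl
    rw [hf, hfg] at this
    rw [smul_eq_mul]
    exact_mod_cast this

theorem coefZ_spec (n : ℕ) (f : LZ M) : (coefZ n f : ℂ) = qCoeff ⇑f.1 n :=
  (exists_int_qCoeff f.2 n).choose_spec.symm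

theorem coefZ_eq {n : ℕ} {f : LZ M} {m : ℤ} (h : qCoeff ⇑f.1 n = m) : coefZ n f = m := by
  have := (coefZ_spec n f).trans h
  exact_mod_cast this

/-- The lattice is saturated. -/
theorem exists_smul_of_dvd {p : ℤ} (hp : p ≠ 0) (f : LZ M) (h : ∀ n, p ∣ coefZ n f) :
    ∃ g : LZ M, f = p • g := by
  choose b hb using h
  have hpC : (p : ℂ) ≠ 0 := by exact_mod_cast hp
  have h1 : ∀ n, qCoeff ⇑(((p : ℂ)⁻¹) • (f : CuspForm (CongruenceSubgroup.Gamma0 M) 2)) n =
      (b n : ℂ) := by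
    intro n
    rw [qCoeff_smul, ← coefZ_spec, hb n]
    push_cast
    field_simp
  refine ⟨⟨((p : ℂ)⁻¹) • f, Submodule.subset_span fun n => ⟨b n, h1 n⟩⟩, ?_⟩
  apply Subtype.ext
  show (f : CuspForm (CongruenceSubgroup.Gamma0 M) 2) = p • (((p : ℂ)⁻¹) • _)
  rw [← Int.cast_smul_eq_zsmul ℂ p, smul_smul, mul_inv_cancel₀ hpC, one_smul]

instance : Module.IsTorsionFree ℤ (LZ M) := by
  refine Module.IsTorsionFree.of_smul_eq_zero fun r x h => ?_
  by_cases hr : r = 0
  · exact Or.inl hr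
  · right
    have h1 : (r : ℂ) • (x : CuspForm (CongruenceSubgroup.Gamma0 M) 2) = 0 := by
      rw [Int.cast_smul_eq_zsmul]
      exact congrArg Subtype.val h
    apply Subtype.ext
    exact (smul_eq_zero.mp h1).resolve_left (by exact_mod_cast hr)

instance [NeZero M] : Module.Finite ℤ (LZ M) :=
  Module.Finite.iff_fg.mpr (CuspForm.intLattice_fg M 2)

instance [NeZero M] : Module.Free ℤ (LZ M) := inferInstance

theorem finrank_le [NeZero M] :
    Module.finrank ℂ (CuspForm (CongruenceSubgroup.Gamma0 M) 2) ≤ Module.finrank ℤ (LZ M) := by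
  have h := Fermat.Agent.S23.result M
  unfold HasIntegralStructure at h
  let b := Module.Free.chooseBasis ℤ (LZ M)
  have hspan : Submodule.span ℂ (Set.range fun i => ((b i : LZ M) :
      CuspForm (CongruenceSubgroup.Gamma0 M) 2)) = ⊤ := by
    rw [eq_top_iff, ← h, Submodule.span_le]
    intro f hf
    have h1 : (⟨f, hf⟩ : LZ M) ∈ Submodule.span ℤ (Set.range b) := by rw [b.span_eq]; trivial
    have h2 : f ∈ Submodule.span ℤ (Set.range fun i => ((b i : LZ M) :
      CuspForm (CongruenceSubgroup.Gamma0 M) 2)) := by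
      have h3 := Submodule.mem_map_of_mem (f := (intLattice M 2).subtype) h1
      rw [Submodule.map_span, ← Set.range_comp] at h3
      exact h3
    exact Submodule.span_subset_span ℤ ℂ _ h2
  have h1 := finrank_range_le_card (R := ℂ) (fun i => ((b i : LZ M) :
      CuspForm (CongruenceSubgroup.Gamma0 M) 2))
  rw [Set.finrank, hspan, finrank_top] at h1
  rwa [Module.finrank_eq_card_chooseBasisIndex (R := ℤ) (M := LZ M)]

variable (k : Type*) [Field k]

/-- reduction of the `q`-expansion -/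
def redL : LZ M →ₗ[ℤ] LaurentSeries k where
  toFun f := HahnSeries.ofPowerSeries ℤ k (PowerSeries.mk fun n => ((coefZ n f : ℤ) : k))
  map_add' f g := by
    rw [← map_add]
    congr 1
    ext n
    simp
  map_smul' c f := by
    have h1 : (PowerSeries.mk fun n => ((coefZ n (c • f) : ℤ) : k)) =
        c • (PowerSeries.mk fun n => ((coefZ n f : ℤ) : k)) := by
      ext n
      rw [PowerSeries.coeff_mk, map_smul, map_zsmul, PowerSeries.coeff_mk]
      simp
    rw [h1, map_zsmul]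
    rfl

theorem redL_apply (f : LZ M) :
    redL k f = HahnSeries.ofPowerSeries ℤ k (PowerSeries.mk fun n => ((coefZ n f : ℤ) : k)) := rfl

theorem redL_coeff (f : LZ M) (n : ℕ) : (redL k f).coeff (n : ℤ) = ((coefZ n f : ℤ) : k) := by
  rw [redL_apply, HahnSeries.ofPowerSeries_apply_coeff, PowerSeries.coeff_mk]

theorem redL_coeff_neg (f : LZ M) {n : ℤ} (hn : n < 0) : (redL k f).coeff n = 0 := by
  rw [redL_apply]
  exact ModularCurve.ofPowerSeries_coeff_of_neg _ hn

/-- The reductions of a basis of the lattice are linearly independent. -/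
theorem linearIndependent_redL [NeZero M] (p : ℕ) [Fact p.Prime] [CharP k p] {ι : Type*}
    (b : Module.Basis ι ℤ (LZ M)) : LinearIndependent k fun i => redL k (b i) := by
  letI : Algebra (ZMod p) k := ZMod.algebra k p
  rw [linearIndependent_iff']
  intro s c hc i₀ hi₀
  by_contra hne
  obtain ⟨π, hπ⟩ : ∃ π : Module.Dual (ZMod p) k, π (c i₀) ≠ 0 := by
    by_contra hcon
    push Not at hcon
    exact hne ((Module.forall_dual_apply_eq_zero_iff (ZMod p) _).mp hcon)
  choose d hd using fun i => ZMod.intCast_surjective (π (c i))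
  have h1 : ∀ n : ℕ, (p : ℤ) ∣ coefZ n (∑ i ∈ s, d i • b i) := by
    intro n
    have h2 := congrArg (fun φ : LaurentSeries k => φ.coeff (n : ℤ)) hc
    simp only [HahnSeries.coeff_sum, HahnSeries.coeff_smul, redL_coeff, HahnSeries.coeff_zero,
      smul_eq_mul] at h2
    have h3 := congrArg π h2
    rw [map_sum, map_zero] at h3
    rw [← ZMod.intCast_zmod_eq_zero_iff_dvd, map_sum, Int.cast_sum, ← h3]
    refine Finset.sum_congr rfl fun i _ => ?_
    rw [map_smul, smul_eq_mul, Int.cast_mul, hd i]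
    have h4 : c i * ((coefZ n (b i) : ℤ) : k) = ((coefZ n (b i) : ℤ) : ZMod p) • c i := by
      rw [Algebra.smul_def, map_intCast, mul_comm]
    rw [h4, map_smul, smul_eq_mul, mul_comm]
  obtain ⟨g, hg⟩ := exists_smul_of_dvd (by exact_mod_cast (Fact.out : p.Prime).ne_zero) _ h1
  apply hπ
  have h5 := congrArg (fun x => b.repr x i₀) hg
  simp only [map_sum, map_smul, Finsupp.coe_finset_sum, Finset.sum_apply, Finsupp.smul_apply,
    Module.Basis.repr_self, smul_eq_mul] at h5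
  rw [Finset.sum_eq_single i₀ (fun j _ hj => by
      rw [Finsupp.single_eq_of_ne (Ne.symm hj), mul_zero]) (fun h => absurd hi₀ h),
    Finsupp.single_eq_same, mul_one] at h5
  rw [← hd i₀, h5, ZMod.intCast_zmod_eq_zero_iff_dvd]
  exact dvd_mul_right _ _

/-- the reduction map on `k ⊗ L` -/
def redK : k ⊗[ℤ] LZ M →ₗ[k] LaurentSeries k := LinearMap.liftBaseChange k (redL k)

@[simp] theorem redK_tmul (c : k) (f : LZ M) : redK k (c ⊗ₜ[ℤ] f) = c • redL k f :=
  LinearMap.liftBaseChange_tmul _ _ _ _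

theorem redK_injective [NeZero M] (p : ℕ) [Fact p.Prime] [CharP k p] :
    Function.Injective (redK k (M := M)) := by
  let b := Module.Free.chooseBasis ℤ (LZ M)
  have h1 := linearIndependent_redL k p b
  have h2 : (fun i => redL k (b i)) = redK k ∘ (b.baseChange k) := by
    funext i
    simp
  rw [h2, linearIndependent_iff] at h1
  rw [injective_iff_map_eq_zero]
  intro x hx
  have h3 := h1 ((b.baseChange k).repr x) (by
    rw [← Finsupp.apply_linearCombination, Module.Basis.linearCombination_repr, hx])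
  rwa [LinearEquiv.map_eq_zero_iff] at h3

theorem range_redK : LinearMap.range (redK k (M := M)) =
    Submodule.span k (Set.range (redL k (M := M))) := by
  apply le_antisymm
  · rintro _ ⟨z, rfl⟩
    induction z using TensorProduct.induction_on with
    | zero => rw [map_zero]; exact zero_mem _
    | tmul c f =>
      rw [redK_tmul]
      exact Submodule.smul_mem _ _ (Submodule.subset_span ⟨f, rfl⟩)
    | add x y hx hy => rw [map_add]; exact add_mem hx hy
  · rw [Submodule.span_le]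
    rintro _ ⟨f, rfl⟩
    exact ⟨1 ⊗ₜ f, by rw [redK_tmul, one_smul]⟩

end Lattice

section Hecke

variable {M : ℕ} [NeZero M] (S : Set ℕ)

/-- the Hecke algebra acts on the lattice -/
def actZ : heckeAlgebra M 2 S →+* Module.End ℤ (LZ M) where
  toFun t := ((t : Module.End ℂ (CuspForm (CongruenceSubgroup.Gamma0 M) 2)).restrictScalars ℤ).restrict
    (fun _ hf => CuspForm.mem_intLattice_of_mem_heckeAlgebra (by norm_num) t.2 hf)
  map_one' := by ext; rfl
  map_mul' _ _ := by ext; rfl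
  map_zero' := by ext; rfl
  map_add' _ _ := by ext; rfl

theorem coe_actZ (t : heckeAlgebra M 2 S) (f : LZ M) :
    ((actZ S t f : LZ M) : CuspForm (CongruenceSubgroup.Gamma0 M) 2) =
      (t : Module.End ℂ (CuspForm (CongruenceSubgroup.Gamma0 M) 2)) f := rfl

theorem coe_genS (ℓ : {ℓ : Nat.Primes // (ℓ : ℕ) ∉ S}) :
    ((genS M S ℓ : heckeAlgebra M 2 S) : Module.End ℂ (CuspForm (CongruenceSubgroup.Gamma0 M) 2)) =
      heckeOp M 2 ℓ.1 := by
  rw [genS]
  by_cases h : (ℓ.1 : ℕ) ∣ M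
  · rw [heckeOp_of_dvd h]; simp only [h, dite_true]; rfl
  · rw [heckeOp_of_not_dvd h]; simp only [h, dite_false]; rfl

theorem coefZ_actZ_genS (ℓ : {ℓ : Nat.Primes // (ℓ : ℕ) ∉ S}) (hℓ : ¬ (ℓ.1 : ℕ) ∣ M)
    (f : LZ M) (n : ℕ) : coefZ n (actZ S (genS M S ℓ) f) = coefZ ((ℓ.1 : ℕ) * n) f +
      if (ℓ.1 : ℕ) ∣ n then ((ℓ.1 : ℕ) : ℤ) * coefZ (n / (ℓ.1 : ℕ)) f else 0 := by
  apply coefZ_eq
  rw [coe_actZ, coe_genS, qCoeff_heckeOp_two, if_neg hℓ]
  by_cases h : (ℓ.1 : ℕ) ∣ n
  · rw [if_pos h, if_pos h, Int.cast_add, Int.cast_mul, coefZ_spec, coefZ_spec]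
    simp
  · rw [if_neg h, if_neg h, mul_zero, add_zero, add_zero, coefZ_spec]

variable (k : Type*) [Field k]

theorem redL_actZ_genS (ℓ : {ℓ : Nat.Primes // (ℓ : ℕ) ∉ S}) (hℓ : ¬ (ℓ.1 : ℕ) ∣ M)
    (f : LZ M) : haveI : NeZero (ℓ.1 : ℕ) := ⟨ℓ.1.2.ne_zero⟩
    redL k (actZ S (genS M S ℓ) f) = T2 (ℓ.1 : ℕ) (redL k f) := by
  haveI : NeZero (ℓ.1 : ℕ) := ⟨ℓ.1.2.ne_zero⟩
  have hpos : (0 : ℤ) < (ℓ.1 : ℕ) := by exact_mod_cast ℓ.1.2.pos
  ext n
  by_cases hn : n < 0
  · rw [redL_coeff_neg k _ hn]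
    by_cases hd : ((ℓ.1 : ℕ) : ℤ) ∣ n
    · obtain ⟨m, rfl⟩ := hd
      have hm : m < 0 := by
        by_contra h
        push Not at h
        have := mul_nonneg hpos.le h
        omega
      rw [T2_coeff_mul, redL_coeff_neg k _ hm, redL_coeff_neg k _ (mul_neg_of_pos_of_neg hpos hn)]
      simp
    · rw [T2_coeff_of_not_dvd _ _ hd, redL_coeff_neg k _ (mul_neg_of_pos_of_neg hpos hn)]
  · push Not at hn
    obtain ⟨n, rfl⟩ := Int.eq_ofNat_of_zero_le hn
    rw [redL_coeff, coefZ_actZ_genS S ℓ hℓ]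
    by_cases hd : (ℓ.1 : ℕ) ∣ n
    · obtain ⟨m, rfl⟩ := hd
      rw [if_pos (dvd_mul_right _ _), Nat.mul_div_cancel_left _ ℓ.1.2.pos]
      push_cast
      rw [T2_coeff_mul, redL_coeff]
      have h2 : ((ℓ.1 : ℕ) : ℤ) * (((ℓ.1 : ℕ) : ℤ) * (m : ℤ)) =
        (((ℓ.1 : ℕ) * ((ℓ.1 : ℕ) * m) : ℕ) : ℤ) := by push_cast; ring
      rw [h2, redL_coeff]
      ring
    · rw [if_neg hd, T2_coeff_of_not_dvd _ _ (by exact_mod_cast hd)]
      have h2 : ((ℓ.1 : ℕ) : ℤ) * (n : ℤ) = (((ℓ.1 : ℕ) * n : ℕ) : ℤ) := by push_cast; ring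
      rw [h2, redL_coeff, add_zero]

theorem redK_actZ_genS (ℓ : {ℓ : Nat.Primes // (ℓ : ℕ) ∉ S}) (hℓ : ¬ (ℓ.1 : ℕ) ∣ M)
    (z : k ⊗[ℤ] LZ M) : haveI : NeZero (ℓ.1 : ℕ) := ⟨ℓ.1.2.ne_zero⟩
    redK k ((actZ S (genS M S ℓ)).baseChange k z) = T2 (ℓ.1 : ℕ) (redK k z) := by
  haveI : NeZero (ℓ.1 : ℕ) := ⟨ℓ.1.2.ne_zero⟩
  induction z using TensorProduct.induction_on with
  | zero =>
    rw [map_zero, map_zero]
    ext n
    by_cases hd : ((ℓ.1 : ℕ) : ℤ) ∣ n
    · obtain ⟨m, rfl⟩ := hd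
      rw [T2_coeff_mul]; simp
    · rw [T2_coeff_of_not_dvd _ _ hd]; simp
  | tmul c f =>
    rw [LinearMap.baseChange_tmul, redK_tmul, redK_tmul, T2_smul, redL_actZ_genS S k ℓ hℓ]
  | add x y hx hy => rw [map_add, map_add, hx, hy, map_add, T2_add]

end Hecke

/-- An element of the span of the reductions of integral cusp forms of level `M`, which is an
eigenvector of all `T_ℓ`, `ℓ ∉ S`, is killed by `t` if `t` kills `S₂(Γ₀(M))`. -/
theorem eq_zero_of_eigen {M : ℕ} [NeZero M] (S : Finset ℕ) {p : ℕ} [Fact p.Prime] (a : ℕ → ℤ)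
    (k : Type*) [Field k] [CharP k p] (hMS : ∀ q : ℕ, q.Prime → q ∣ M → q ∈ S)
    (t : HeckeAlgS (↑S : Set ℕ)) (ht : evS M (↑S : Set ℕ) t = 0) (hθ : theta S p a t = 1)
    {φ : LaurentSeries k} (hφ : φ ∈ Submodule.span k (Set.range (redL k (M := M))))
    (hT : ∀ (ℓ : ℕ) [NeZero ℓ], ℓ.Prime → ℓ ∉ S → T2 ℓ φ = (((a ℓ : ℤ) : k)) • φ) : φ = 0 := by
  rw [← range_redK] at hφ
  obtain ⟨z, rfl⟩ := hφ
  have hinj := redK_injective (M := M) k p
  have h1 : ∀ ℓ : {ℓ : Nat.Primes // (ℓ : ℕ) ∉ (↑S : Set ℕ)},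
      (actZ (M := M) (↑S : Set ℕ) (genS M (↑S : Set ℕ) ℓ)).baseChange k z =
        ((a (ℓ.1 : ℕ) : ℤ) : k) • z := by
    intro ℓ
    haveI : NeZero (ℓ.1 : ℕ) := ⟨ℓ.1.2.ne_zero⟩
    have hℓS : (ℓ.1 : ℕ) ∉ S := by simpa using ℓ.2
    apply hinj
    rw [redK_actZ_genS (↑S : Set ℕ) k ℓ (fun h => hℓS (hMS _ ℓ.1.2 h)), map_smul,
      hT _ ℓ.1.2 hℓS]
  have h2 : ∀ s : HeckeAlgS (↑S : Set ℕ),
      (actZ (M := M) (↑S : Set ℕ) (evS M (↑S : Set ℕ) s)).baseChange k z =
        ((thetaZ S a s : ℤ) : k) • z := by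
    intro s
    induction s using MvPolynomial.induction_on with
    | C c =>
      have h3 : actZ (M := M) (↑S : Set ℕ) (evS M (↑S : Set ℕ) (MvPolynomial.C c)) =
          (c : Module.End ℤ (LZ M)) := by
        rw [show (MvPolynomial.C c : HeckeAlgS (↑S : Set ℕ)) = (c : HeckeAlgS (↑S : Set ℕ)) by simp]
        rw [map_intCast, map_intCast]
      rw [h3]
      have h4 : thetaZ S a (MvPolynomial.C c) = c := by
        rw [show (MvPolynomial.C c : HeckeAlgS (↑S : Set ℕ)) = (c : HeckeAlgS (↑S : Set ℕ)) by simp]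
        rw [map_intCast]; simp
      rw [h4]
      have h5 : ((c : Module.End ℤ (LZ M))) = c • LinearMap.id := by
        ext; simp
      rw [h5, LinearMap.baseChange_smul, LinearMap.baseChange_id]
      simp [Int.cast_smul_eq_zsmul]
    | add x y hx hy =>
      rw [map_add, map_add, LinearMap.baseChange_add, LinearMap.add_apply, hx, hy, map_add,
        Int.cast_add, add_smul]
    | mul_X s ℓ hs =>
      rw [map_mul, map_mul, Module.End.mul_eq_comp, LinearMap.baseChange_comp, LinearMap.comp_apply]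
      rw [show evS M (↑S : Set ℕ) (MvPolynomial.X ℓ) = genS M (↑S : Set ℕ) ℓ from
        MvPolynomial.aeval_X _ _, h1 ℓ, map_smul, hs, map_mul, thetaZ_X, Int.cast_mul, smul_smul,
        mul_comm]
  have h3 := h2 t
  rw [ht, map_zero, LinearMap.baseChange_zero, LinearMap.zero_apply] at h3
  have h4 : ((thetaZ S a t : ℤ) : k) = 1 := by
    rw [theta_eq] at hθ
    letI : Algebra (ZMod p) k := ZMod.algebra k p
    have h5 := congrArg (algebraMap (ZMod p) k) hθ
    rwa [map_intCast, map_one] at h5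
  rw [h4, one_smul] at h3
  rw [← h3, map_zero]

end Fermat.Agent.S44w
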