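import Fermat.Agent.Igusa.Degree

/-!
# The kernel of `q d/dq` on the function field of `X₀(N)` in characteristic `p`
-/

set_option autoImplicit false

noncomputable section

open HahnSeries ModularCurve IntermediateField
open scoped Polynomial IntermediateField

namespace Fermat.Agent.S44w

open Fermat.Agent.Igusa

variable {k : Type*} [Field k]

/-- if `θ y = 0` the coefficients of the minimal polynomial of `y` over `k(t)` are `p`-th
powers. -/
theorem minpoly_coeff_of_theta (p : ℕ) [Fact p.Prime] [CharP k p] [PerfectRing k p]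
    {t : LaurentSeries k} (ht : theta t ≠ 0) (htr : Transcendental k t)
    (K : IntermediateField k (LaurentSeries k)) (hK : K = k⟮t⟯) {y : LaurentSeries k}
    (hy : IsIntegral K y) (h0 : theta y = 0) (i : ℕ) : ∃ b : K, b ^ p = (minpoly K y).coeff i := by
  have hmem' : ∀ c ∈ K, theta c / theta t ∈ K := by
    rw [hK]
    exact fun c hc => theta_div_mem_adjoin ht hc
  have hmem : ∀ c : K, theta (c : LaurentSeries k) / theta t ∈ K := fun c => hmem' _ c.2
  set P := minpoly K y with hP
  have hmonic : P.Monic := minpoly.monic hy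
  have : CharP K p := charP_of_injective_algebraMap (algebraMap k K).injective p
  -- apply `θ` to the relation
  have h1 : ∑ i ∈ Finset.range (P.natDegree + 1),
      theta (P.coeff i : LaurentSeries k) * y ^ i = 0 := by
    have h2 := theta_eval (P.map (algebraMap K (LaurentSeries k))) y
    rw [Polynomial.eval_map, ← Polynomial.aeval_def, hP, minpoly.aeval, ← hP, theta_zero,
      h0, mul_zero,
      add_zero, Polynomial.natDegree_map] at h2
    rw [h2]
    refine Finset.sum_congr rfl fun i _ => ?_
    rw [Polynomial.coeff_map]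
    rfl
  set Q : K[X] := ∑ i ∈ Finset.range (P.natDegree + 1), Polynomial.monomial i
    (⟨theta (P.coeff i : LaurentSeries k) / theta t, hmem _⟩ : K) with hQ
  have hQc : ∀ i, i < P.natDegree + 1 → ((Q.coeff i : K) : LaurentSeries k) =
      theta (P.coeff i : LaurentSeries k) / theta t := by
    intro i hi
    rw [hQ, Polynomial.finsetSum_coeff, Finset.sum_eq_single i]
    · rw [Polynomial.coeff_monomial, if_pos rfl]
    · intro j _ hji
      rw [Polynomial.coeff_monomial, if_neg hji]
    · intro hn
      exact absurd (Finset.mem_range.mpr hi) hn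
  have hQ0 : Polynomial.aeval y Q = 0 := by
    rw [hQ, map_sum]
    have h2 : ∀ i ∈ Finset.range (P.natDegree + 1),
        Polynomial.aeval y (Polynomial.monomial i
          (⟨theta (P.coeff i : LaurentSeries k) / theta t, hmem _⟩ : K)) =
        (theta (P.coeff i : LaurentSeries k) * y ^ i) * (theta t)⁻¹ := by
      intro i _
      rw [Polynomial.aeval_monomial]
      change theta (P.coeff i : LaurentSeries k) / theta t * y ^ i = _
      rw [div_eq_mul_inv]
      ring
    rw [Finset.sum_congr rfl h2, ← Finset.sum_mul, h1, zero_mul]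
  have hQdeg : Q = 0 := by
    by_contra hne
    have h2 := minpoly.degree_le_of_ne_zero K y hne hQ0
    rw [← hP] at h2
    have h3 : Q.degree < P.degree := by
      rw [Polynomial.degree_eq_natDegree hmonic.ne_zero, Polynomial.degree_lt_iff_coeff_zero]
      intro m hm
      rcases eq_or_lt_of_le hm with rfl | hm
      · apply Subtype.ext
        rw [hQc _ (Nat.lt_succ_self _), hmonic.coeff_natDegree]
        have : theta ((1 : K) : LaurentSeries k) = 0 := theta_one
        rw [this, zero_div]
        rfl
      · rw [hQ, Polynomial.finsetSum_coeff]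
        apply Finset.sum_eq_zero
        intro j hj
        rw [Finset.mem_range] at hj
        rw [Polynomial.coeff_monomial, if_neg (by omega)]
    exact absurd h2 (not_le.mpr h3)
  by_cases hi : i < P.natDegree + 1
  · have h2 := hQc i hi
    rw [hQdeg, Polynomial.coeff_zero] at h2
    have h3 : theta (P.coeff i : LaurentSeries k) = 0 := by
      have h4 : (0 : LaurentSeries k) = theta (P.coeff i : LaurentSeries k) / theta t := h2
      rcases div_eq_zero_iff.mp h4.symm with h | h
      · exact h
      · exact absurd h ht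
    obtain ⟨b, hb, hbp⟩ := exists_pth_root_of_theta p ht htr (hK ▸ (P.coeff i).2 :
      (P.coeff i : LaurentSeries k) ∈ k⟮t⟯) h3
    exact ⟨⟨b, hK ▸ hb⟩, Subtype.ext hbp⟩
  · refine ⟨0, ?_⟩
    rw [zero_pow (Fact.out : p.Prime).ne_zero, Polynomial.coeff_eq_zero_of_natDegree_lt (by omega)]

/-- An element of a field extension `E/K` of char. `p` whose minimal polynomial has coefficients
which are `p`-th powers is a `p`-th power in `K(y)`. -/
theorem exists_pth_root_of_minpoly {K E : Type*} [Field K] [Field E] [Algebra K E] (p : ℕ)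
    [hp : Fact p.Prime] [CharP K p] {y : E} (hy : IsIntegral K y)
    (h : ∀ i, ∃ b : K, b ^ p = (minpoly K y).coeff i) : ∃ z ∈ K⟮y⟯, z ^ p = y := by
  choose b hb using h
  set P := minpoly K y with hP
  let Ω := AlgebraicClosure E
  obtain ⟨z, hz⟩ := IsAlgClosed.exists_pow_nat_eq (algebraMap E Ω y) hp.out.pos
  set P₀ : K[X] := ∑ i ∈ Finset.range (P.natDegree + 1), Polynomial.monomial i (b i) with hP₀
  have hc : ∀ i, i < P.natDegree + 1 → P₀.coeff i = b i := by
    intro i hi
    rw [hP₀, Polynomial.finsetSum_coeff, Finset.sum_eq_single i]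
    · rw [Polynomial.coeff_monomial, if_pos rfl]
    · intro j _ hji
      rw [Polynomial.coeff_monomial, if_neg hji]
    · intro hn
      exact absurd (Finset.mem_range.mpr hi) hn
  have hdeg : P₀.natDegree ≤ P.natDegree := by
    rw [Polynomial.natDegree_le_iff_coeff_eq_zero]
    intro m hm
    rw [hP₀, Polynomial.finsetSum_coeff]
    apply Finset.sum_eq_zero
    intro j hj
    rw [Finset.mem_range] at hj
    rw [Polynomial.coeff_monomial, if_neg (by omega)]
  have hne : P₀ ≠ 0 := by
    intro h0
    have h1 := hc P.natDegree (Nat.lt_succ_self _)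
    rw [h0, Polynomial.coeff_zero] at h1
    have h2 := hb P.natDegree
    rw [← h1, zero_pow hp.out.ne_zero] at h2
    have h3 : P.coeff P.natDegree = 1 := (minpoly.monic hy).coeff_natDegree
    rw [h3] at h2
    exact zero_ne_one h2
  have : CharP Ω p := charP_of_injective_algebraMap (algebraMap K Ω).injective p
  have hroot : Polynomial.aeval z P₀ = 0 := by
    have h1 : (Polynomial.aeval z P₀) ^ p = 0 := by
      rw [hP₀, map_sum, sum_pow_char]
      have h2 : Polynomial.aeval (algebraMap E Ω y) P = 0 := by
        rw [Polynomial.aeval_algebraMap_apply, hP, minpoly.aeval, map_zero]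
      rw [← h2, Polynomial.aeval_eq_sum_range]
      refine Finset.sum_congr rfl fun i _ => ?_
      rw [Polynomial.aeval_monomial, mul_pow, ← map_pow, hb, ← pow_mul, mul_comm i p, pow_mul, hz,
        Algebra.smul_def]
    exact pow_eq_zero_iff hp.out.ne_zero |>.1 h1
  have hzint : IsIntegral K z := (isAlgebraic_iff_isIntegral).1 ⟨P₀, hne, hroot⟩
  have hyint : IsIntegral K (algebraMap E Ω y) := hy.map (IsScalarTower.toAlgHom K E Ω)
  -- degrees
  have h1 : Module.finrank K K⟮z⟯ ≤ Module.finrank K K⟮algebraMap E Ω y⟯ := by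
    rw [IntermediateField.adjoin.finrank hzint, IntermediateField.adjoin.finrank hyint,
      minpoly.algebraMap_eq (algebraMap E Ω).injective, ← hP]
    exact (Polynomial.natDegree_le_of_dvd (minpoly.dvd K z hroot) hne).trans hdeg
  have h2 : K⟮algebraMap E Ω y⟯ ≤ K⟮z⟯ := by
    rw [IntermediateField.adjoin_simple_le_iff, ← hz]
    exact pow_mem (IntermediateField.mem_adjoin_simple_self K z) p
  haveI : FiniteDimensional K K⟮z⟯ := IntermediateField.adjoin.finiteDimensional hzint
  have h3 : K⟮algebraMap E Ω y⟯ = K⟮z⟯ := IntermediateField.eq_of_le_of_finrank_le h2 h1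
  have h4 : z ∈ K⟮algebraMap E Ω y⟯ := by
    rw [h3]; exact IntermediateField.mem_adjoin_simple_self K z
  have h5 : K⟮algebraMap E Ω y⟯ = (K⟮y⟯).map (IsScalarTower.toAlgHom K E Ω) := by
    rw [IntermediateField.adjoin_map, Set.image_singleton]
    rfl
  rw [h5, IntermediateField.mem_map] at h4
  obtain ⟨w, hw, hwz⟩ := h4
  refine ⟨w, hw, ?_⟩
  apply (algebraMap E Ω).injective
  rw [map_pow]
  have h6 : algebraMap E Ω w = z := hwz
  rw [h6, hz]

/-- **The kernel of `θ`.** -/
theorem exists_pth_root_of_theta_eq_zero (p : ℕ) [hp : Fact p.Prime] [CharP k p] [PerfectRing k p]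
    {t : LaurentSeries k} (ht : theta t ≠ 0) (htr : Transcendental k t)
    (F : IntermediateField k (LaurentSeries k)) (htF : t ∈ F)
    {y : LaurentSeries k} (hyF : y ∈ F) (hy : IsIntegral k⟮t⟯ y) (h0 : theta y = 0) :
    ∃ z ∈ F, z ^ p = y := by
  haveI : CharP k⟮t⟯ p := charP_of_injective_algebraMap (algebraMap k k⟮t⟯).injective p
  obtain ⟨z, hz, hzp⟩ := exists_pth_root_of_minpoly p hy
    (minpoly_coeff_of_theta p ht htr _ rfl hy h0)
  refine ⟨z, ?_, hzp⟩
  have hKF : k⟮t⟯ ≤ F := by rwa [adjoin_simple_le_iff]
  have h1 : k⟮t⟯⟮y⟯ ≤ IntermediateField.extendScalars hKF := by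
    rw [adjoin_simple_le_iff]
    exact hyF
  exact h1 hz

/-- all elements of the function field of `X₀(N)` are integral over `k(j)` -/
theorem isIntegral_full (N : ℕ) [NeZero N] {y : LaurentSeries k}
    (hy : y ∈ modularFunctionFieldFullC k N) : IsIntegral k⟮jqModC k⟯ y := by
  rw [modularFunctionFieldFullC] at hy
  rw [← isAlgebraic_iff_isIntegral]
  induction hy using IntermediateField.adjoin_induction with
  | mem x hx =>
    obtain ⟨d, hd0, hd, rfl⟩ := hx
    exact (isIntegral_jqd N d hd).isAlgebraic
  | algebraMap c =>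
    exact (isIntegral_algebraMap (R := k⟮jqModC k⟯) (A := LaurentSeries k)
      (x := algebraMap k k⟮jqModC k⟯ c)).isAlgebraic
  | add x y hx hy ihx ihy => exact ihx.add ihy
  | inv x hx ihx => exact ihx.inv
  | mul x y hx hy ihx ihy => exact ihx.mul ihy

/-- **The kernel of `θ` on the function field of `X₀(N)`.** -/
theorem exists_pth_root_full (p : ℕ) [hp : Fact p.Prime] [CharP k p] [PerfectRing k p]
    (N : ℕ) [NeZero N] (y : modularFunctionFieldFullC k N)
    (h0 : theta (y : LaurentSeries k) = 0) : ∃ z : modularFunctionFieldFullC k N, z ^ p = y := by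
  haveI : PerfectField k := PerfectRing.toPerfectField k p
  obtain ⟨z, hz, hzp⟩ := exists_pth_root_of_theta_eq_zero p (theta_jq_ne_zero k)
    (transcendental_jq k) (modularFunctionFieldFullC k N) (jqModC_mem_full k N) y.2
    (isIntegral_full N y.2) h0
  exact ⟨⟨z, hz⟩, Subtype.ext hzp⟩

end Fermat.Agent.S44w

end
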