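import Fermat.Agent.S44w.Kum
import Fermat.Agent.S44w.Eis
import Fermat.Agent.S44w.Theta
import Fermat.Agent.S44w.Old
import Fermat.Agent.S44w.Red

/-!
# The reduction at infinity of the Kummer function of an eigenclass is a `p`-th power
-/

set_option autoImplicit false
set_option linter.unusedSectionVars false
set_option linter.style.haveILetI false

noncomputable section

open CuspForm ModularCurve HahnSeries AlgebraicCurve
open Fermat.Agent.GaussVal Fermat.Agent.TEll Fermat.Agent.TwoGauss Fermat.Agent.GalRep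
open scoped Fermat.Agent.GaussVal

namespace Fermat.Agent.S44w

local notation "𝕂" => AlgebraicClosure ℚ

/-- **(G2)** at level `m` in characteristic `p`: the logarithmic derivative of a function all of
whose orders are divisible by `p` is in the span of the reductions of integral cusp forms. -/
def G2 (k : Type*) [Field k] (p m : ℕ) : Prop :=
  ∀ y : modularFunctionFieldFullC k m, y ≠ 0 →
    (∀ w : Place k (modularFunctionFieldFullC k m), (p : ℤ) ∣ w.ord y) →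
    dlog (y : LaurentSeries k) ∈ Submodule.span k (Set.range (redL k (M := m)))

/-- an expansion of an integral form is in the range of `redL` -/
theorem mem_range_redL (k : Type*) [Field k] {m : ℕ}
    {h : CuspForm (CongruenceSubgroup.Gamma0 m) 2} (hh : h ∈ intLattice m 2)
    {c : PowerSeries ℤ} (hc : ∀ n, ModularFormClass.qCoeff h n = c.coeff n) :
    HahnSeries.ofPowerSeries ℤ k (c.map (Int.castRingHom k)) ∈ Set.range (redL k (M := m)) := by
  refine ⟨⟨h, hh⟩, ?_⟩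
  rw [redL_apply]
  congr 1
  ext n
  have h1 : coefZ n (⟨h, hh⟩ : LZ m) = PowerSeries.coeff n c :=
    coefZ_eq (f := (⟨h, hh⟩ : LZ m)) (hc n)
  rw [PowerSeries.coeff_mk, PowerSeries.coeff_map, h1]
  rfl

/-- (G2) in another form -/
theorem G2_of {k : Type*} [Field k] {p m : ℕ}
    (H : ∀ y : modularFunctionFieldFullC k m, y ≠ 0 →
      (∀ w : Place k (modularFunctionFieldFullC k m), (p : ℤ) ∣ w.ord y) →
      Fermat.Agent.Igusa.theta (y : LaurentSeries k) / (y : LaurentSeries k) ∈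
        Submodule.span k {φ : LaurentSeries k | ∃ h ∈ intLattice m 2, ∃ c : PowerSeries ℤ,
          (∀ n, ModularFormClass.qCoeff h n = c.coeff n) ∧
            φ = HahnSeries.ofPowerSeries ℤ k (c.map (Int.castRingHom k))}) : G2 k p m := by
  intro y hy hw
  refine Submodule.span_mono ?_ (H y hy hw)
  rintro φ ⟨h, hh, c, hc, rfl⟩
  exact mem_range_redL k hh hc

section Model

variable {A : ValuationSubring (AlgebraicClosure ℚ)} {p m : ℕ} [NeZero m]
  [hpf : Fact p.Prime] [CharP (IsLocalRing.ResidueField A) p]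
  (hp : p.Prime) (hm : ¬ p ∣ m) (hA : A.LiesOverPrime p)
  (H3 : S18aux.DegThm (IsLocalRing.ResidueField A) m)

local notation "κ" => IsLocalRing.ResidueField A

/-- **The reduction at infinity of the Kummer function of an eigenclass with orders divisible by
`p` is a `p`-th power.** -/
theorem exists_pow_of_dvd_ord [IsAlgClosed κ] {S : Finset ℕ} {a : ℕ → ℤ}
    (hS : ∀ ℓ : ℕ, ℓ.Prime → ℓ ∣ m * p → ℓ ∈ S) {t : HeckeAlgS (↑S : Set ℕ)}
    (ht : evS m (↑S : Set ℕ) t = 0) (hθ : theta S p a t = 1) (hG2 : G2 κ p m)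
    {x : JZero (m * p)}
    (hx : letI := heckeModuleBar (m * p); x ∈ eigenPart S p a (JZero (m * p)))
    {f : modularFunctionFieldBar (m * p)} (hf : IsKummer p x f) (hO : f ∈ O₁ hp hA)
    (hO' : f⁻¹ ∈ O₁ hp hA)
    (hord : ∀ w : Place κ (modularFunctionFieldFullC κ m),
      (p : ℤ) ∣ w.ord (ρ₁ hp hm hA H3 ⟨f, hO⟩)) :
    ∃ g : modularFunctionFieldFullC κ m, ρ₁ hp hm hA H3 ⟨f, hO⟩ = g ^ p := by
  letI := heckeModuleBar (m * p)
  set y := ρ₁ hp hm hA H3 ⟨f, hO⟩ with hy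
  have f0 := hf.ne_zero
  have hy0 : y ≠ 0 := by
    intro h
    rw [hy, ρ₁_eq_zero_iff] at h
    rw [ValuationSubring.mem_nonunits_iff] at h
    have h1 : (O₁ hp hA).valuation f⁻¹ ≤ 1 := ((O₁ hp hA).valuation_le_one_iff _).2 hO'
    rw [map_inv₀] at h1
    have h2 : (O₁ hp hA).valuation f ≠ 0 := (Valuation.ne_zero_iff _).2 f0
    have h3 := inv_le_one_iff₀.1 h1
    rcases h3 with h3 | h3
    · exact h2 (le_antisymm h3 zero_le)
    · exact absurd h (not_lt.2 h3)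
  have hyL : (y : LaurentSeries κ) ≠ 0 := fun h => hy0 (Subtype.ext h)
  have hφ := hG2 y hy0 hord
  have hT : ∀ (ℓ : ℕ) [NeZero ℓ], ℓ.Prime → ℓ ∉ S →
      T2 ℓ (dlog (y : LaurentSeries κ)) = (((a ℓ : ℤ) : κ)) • dlog (y : LaurentSeries κ) := by
    intro ℓ _ hℓ hℓS
    have hN : ¬ ℓ ∣ m * p := fun h => hℓS (hS ℓ hℓ h)
    obtain ⟨u, hu, hTf⟩ := exists_TT_eq hp.ne_zero hf ⟨ℓ, hℓ⟩
      (a := a ℓ) (heckeOperatorBar_of_mem hx ⟨ℓ, hℓ⟩ hℓS)
    exact T2_dlog hp hm hA H3 hℓ hN f0 hO hO' hTf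
  have h0 := eq_zero_of_eigen (M := m) S a κ (fun q hq hd => hS q hq (hd.mul_right p)) t ht hθ hφ hT
  have hθ0 : Fermat.Agent.Igusa.theta (y : LaurentSeries κ) = 0 := by
    rw [dlog] at h0
    rcases div_eq_zero_iff.1 h0 with h | h
    · exact h
    · exact absurd h hyL
  obtain ⟨z, hz⟩ := exists_pth_root_full p m y hθ0
  exact ⟨z, hz.symm⟩

/-- **(STAR) + non-Eisenstein** for a subgroup `H` of inertia: the reduction at infinity of an
`H`-fixed unit function with divisor divisible by `p` which is an eigenfunction of `T_ℓ` with a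
non-Eisenstein eigenvalue has all its orders divisible by `p`. -/
def StarEis (H : Subgroup (𝕂 ≃ₐ[ℚ] 𝕂)) : Prop :=
  ∀ (f : modularFunctionFieldBar (m * p)) (hO : f ∈ O₁ hp hA), f ≠ 0 → f⁻¹ ∈ O₁ hp hA →
    (∀ σ ∈ H, arithmeticGalois (modularFunctionFieldFull (m * p)) σ • f = f) →
    (∀ v : Place 𝕂 (modularFunctionFieldBar (m * p)), (p : ℤ) ∣ v.ord f) →
    ∀ (ℓ : ℕ) [NeZero ℓ], ℓ.Prime → ¬ ℓ ∣ m * p → ∀ (a : ℤ) (u : modularFunctionFieldBar (m * p)),
      TT (m * p) ℓ f = f ^ a * u ^ p → ¬ (p : ℤ) ∣ a - (ℓ + 1) →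
        ∀ w : Place κ (modularFunctionFieldFullC κ m), (p : ℤ) ∣ w.ord (ρ₁ hp hm hA H3 ⟨f, hO⟩)

/-- `StarEis` from the two-component model and a unit of degree prime to `p`. -/
theorem starEis_of_unit [IsAlgClosed κ] [FF.IsFF 𝕂 (modularFunctionFieldBar (m * p))]
    [FF.IsFF κ (modularFunctionFieldFullC κ m)]
    (hM : (Star.Inst.model hp hm hA H3).Good) (U : Star.Model.UnitData (Star.Inst.model hp hm hA H3))
    (hpE : ¬ p ∣ U.E) {H : Subgroup (𝕂 ≃ₐ[ℚ] 𝕂)}
    (W : Nonempty (Star.Model.Wild (Star.Inst.model hp hm hA H3)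
        (H.map (arithmeticGalois (modularFunctionFieldFull (m * p))))) ∨
      Nonempty (Star.Model.Tame (Star.Inst.model hp hm hA H3)
        (H.map (arithmeticGalois (modularFunctionFieldFull (m * p)))))) :
    StarEis hp hm hA H3 H := by
  intro f hO f0 hO' hfix hdiv ℓ _ hℓ hN a u hTf hℓa w
  have key := Star.Model.dvd_ord_red_of_eigen (M := Star.Inst.model hp hm hA H3) hM U hpE W
    f0 (by
      intro g hg
      obtain ⟨σ, hσ, rfl⟩ := Subgroup.mem_map.1 hg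
      exact hfix σ hσ) hO hO' hdiv (TOp_TT hp hm hA H3 hℓ hN) (a := a) (c := 1)
      (g := u) (by
        rw [map_one, one_mul]
        exact hTf) (by
        intro h
        apply hℓa
        have e1 : (((ℓ + 1 : ℕ) : ℤ)) = (ℓ : ℤ) + 1 := by push_cast; rfl
        rw [e1] at h
        exact h) w
  rw [red_eq_ρ₁ hp hm hA H3 hO] at key
  exact key

/-- **The main input of the level lowering argument**: if some `T_ℓ` is not Eisenstein on `x`, the
Kummer function reduces to a `p`-th power at infinity. -/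
theorem exists_pow_of_star [IsAlgClosed κ] {S : Finset ℕ} {a : ℕ → ℤ}
    (hS : ∀ ℓ : ℕ, ℓ.Prime → ℓ ∣ m * p → ℓ ∈ S) {t : HeckeAlgS (↑S : Set ℕ)}
    (ht : evS m (↑S : Set ℕ) t = 0) (hθ : theta S p a t = 1) (hG2 : G2 κ p m)
    {H : Subgroup (𝕂 ≃ₐ[ℚ] 𝕂)} (hHA : H ≤ A.inertiaSubgroupIn ℚ)
    (hstar : StarEis hp hm hA H3 H)
    (hne : ∃ ℓ : ℕ, ℓ.Prime ∧ ℓ ∉ S ∧ ¬ (p : ℤ) ∣ a ℓ - (ℓ + 1))
    {x : JZero (m * p)}
    (hx : letI := heckeModuleBar (m * p); x ∈ eigenPart S p a (JZero (m * p)))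
    (hHx : ∀ σ ∈ H, σ • x = x) :
    ∃ (f : modularFunctionFieldBar (m * p)) (hO : f ∈ O₁ hp hA), IsKummer p x f ∧
      f⁻¹ ∈ O₁ hp hA ∧ ∃ g : modularFunctionFieldFullC κ m, ρ₁ hp hm hA H3 ⟨f, hO⟩ = g ^ p := by
  letI := heckeModuleBar (m * p)
  obtain ⟨f, hf, hO, hO', hfix⟩ := exists_unit_kummer hp hm hA (n := p) hx.1 H hHA hHx
  refine ⟨f, hO, hf, hO', exists_pow_of_dvd_ord hp hm hA H3 hS ht hθ hG2 hx hf hO hO' ?_⟩
  obtain ⟨ℓ, hℓ, hℓS, hℓa⟩ := hne
  haveI : NeZero ℓ := ⟨hℓ.ne_zero⟩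
  have hN : ¬ ℓ ∣ m * p := fun h => hℓS (hS ℓ hℓ h)
  obtain ⟨u, hu, hTf⟩ := exists_TT_eq hp.ne_zero hf ⟨ℓ, hℓ⟩
      (a := a ℓ) (heckeOperatorBar_of_mem hx ⟨ℓ, hℓ⟩ hℓS)
  exact hstar f hO hf.ne_zero hO' hfix (fun v => hf.dvd v) ℓ hℓ hN (a ℓ) u hTf hℓa

end Model

end Fermat.Agent.S44w

end
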