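import Fermat.Agent.Igusa.Separable
import Fermat.Agent.ModFun.SecProd
import Fermat.Agent.TEll.Gauss

/-!
# Logarithmic derivatives of Laurent series and the operators `T_ℓ`
-/

set_option autoImplicit false

noncomputable section

open ModularCurve Fermat.Agent.TEll Fermat.Agent.X0Emb Fermat.Agent.Igusa

namespace Fermat.Agent.S44w

variable {k : Type*} [Field k]

/-- the logarithmic derivative `(q d/dq y) / y`. -/
def dlog (y : LaurentSeries k) : LaurentSeries k := theta y / y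

theorem dlog_mul {x y : LaurentSeries k} (hx : x ≠ 0) (hy : y ≠ 0) :
    dlog (x * y) = dlog x + dlog y := by
  rw [dlog, dlog, dlog, theta_mul]
  field_simp

theorem dlog_one : dlog (1 : LaurentSeries k) = 0 := by
  rw [dlog, theta_one, zero_div]

theorem dlog_prod {ι : Type*} (s : Finset ι) (y : ι → LaurentSeries k) (hy : ∀ i ∈ s, y i ≠ 0) :
    dlog (∏ i ∈ s, y i) = ∑ i ∈ s, dlog (y i) := by
  classical
  induction s using Finset.induction_on with
  | empty => simp [dlog_one]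
  | insert a s ha ih =>
    rw [Finset.prod_insert ha, Finset.sum_insert ha, dlog_mul (hy a (Finset.mem_insert_self _ _))
      (Finset.prod_ne_zero_iff.mpr fun i hi => hy i (Finset.mem_insert_of_mem hi)),
      ih fun i hi => hy i (Finset.mem_insert_of_mem hi)]

theorem dlog_pow {y : LaurentSeries k} (hy : y ≠ 0) (n : ℕ) : dlog (y ^ n) = n * dlog y := by
  induction n with
  | zero => simp [dlog_one]
  | succ n ih =>
    rw [pow_succ, dlog_mul (pow_ne_zero _ hy) hy, ih]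
    push_cast
    ring

theorem dlog_inv {y : LaurentSeries k} (hy : y ≠ 0) : dlog y⁻¹ = -dlog y := by
  have h := dlog_mul hy (inv_ne_zero hy)
  rw [mul_inv_cancel₀ hy, dlog_one] at h
  linear_combination -h

theorem dlog_zpow {y : LaurentSeries k} (hy : y ≠ 0) (n : ℤ) : dlog (y ^ n) = n * dlog y := by
  cases n with
  | ofNat n => simpa using dlog_pow hy n
  | negSucc n =>
    rw [zpow_negSucc, dlog_inv (pow_ne_zero _ hy), dlog_pow hy, Int.cast_negSucc]
    ring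

theorem dlog_algebraMap (c : k) : dlog (algebraMap k (LaurentSeries k) c) = 0 := by
  rw [dlog, theta_algebraMap, zero_div]

/-- a `p`-th power has no logarithmic derivative in characteristic `p` -/
theorem dlog_pow_char (p : ℕ) [CharP k p] {y : LaurentSeries k} (hy : y ≠ 0) :
    dlog (y ^ p) = 0 := by
  have hp0 : (p : LaurentSeries k) = 0 := by
    rw [← map_natCast (algebraMap k (LaurentSeries k)), CharP.cast_eq_zero, map_zero]
  rw [dlog_pow hy, hp0, zero_mul]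

theorem qExpand_ne_zero (ℓ : ℕ) [NeZero ℓ] {y : LaurentSeries k} (hy : y ≠ 0) :
    qExpand k ℓ y ≠ 0 := (map_ne_zero_iff _ (qExpand_injective ℓ)).mpr hy

theorem dlog_qExpand (ℓ : ℕ) [NeZero ℓ] {y : LaurentSeries k} :
    dlog (qExpand k ℓ y) = ℓ * qExpand k ℓ (dlog y) := by
  rw [dlog, dlog, theta_qExpand, map_div₀, mul_div_assoc]

theorem theta_twist (c : kˣ) (y : LaurentSeries k) : theta (twist c y) = twist c (theta y) := by
  ext n
  show (n : k) * (twist c y).coeff n = _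
  rw [twist_coeff, twist_coeff]
  show _ = _ * ((n : k) * y.coeff n)
  ring

theorem dlog_twist (c : kˣ) (y : LaurentSeries k) : dlog (twist c y) = twist c (dlog y) := by
  rw [dlog, dlog, theta_twist, map_div₀]

theorem twist_ne_zero (c : kˣ) {y : LaurentSeries k} (hy : y ≠ 0) : twist c y ≠ 0 :=
  (map_ne_zero (twist c)).mpr hy

/-- sum of the twists by the `ℓ`-th roots of unity -/
theorem sum_twist (ℓ : ℕ) [NeZero ℓ] (c : kˣ) (hc : IsPrimitiveRoot (c : k) ℓ)
    (y : LaurentSeries k) :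
    ∑ b : Fin ℓ, twist (c ^ (b : ℕ)) y = ℓ * qExpand k ℓ (sec ℓ 0 y) := by
  have hcu : c ^ ℓ = 1 := Units.ext (by push_cast; exact hc.pow_eq_one)
  ext n
  rw [HahnSeries.coeff_sum, natCast_mul_coeff]
  simp only [twist_coeff]
  rw [← Finset.sum_mul]
  have hsum : ∑ b : Fin ℓ, ((((c ^ (b : ℕ)) ^ n : kˣ)) : k) = ∑ b ∈ Finset.range ℓ,
      ((((c ^ n : kˣ)) : k)) ^ b := by
    rw [Finset.sum_range fun b => ((((c ^ n : kˣ)) : k)) ^ b]
    refine Finset.sum_congr rfl fun b _ => ?_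
    rw [← Units.val_pow_eq_pow_val]
    congr 1
    rw [← zpow_natCast, ← zpow_natCast, ← zpow_mul, ← zpow_mul, mul_comm]
  rw [hsum]
  by_cases hn : (ℓ : ℤ) ∣ n
  · obtain ⟨m, rfl⟩ := hn
    rw [qExpand_coeff_mul, sec_coeff, add_zero]
    rw [zpow_mul, zpow_natCast, hcu, one_zpow]
    simp
  · rw [qExpand_coeff_of_not_dvd ℓ _ hn, mul_zero]
    have h1 : ((((c ^ n : kˣ)) : k)) ≠ 1 := by
      intro h
      apply hn
      have h2 : c ^ n = 1 := Units.ext h
      have h3 : IsPrimitiveRoot c ℓ := by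
        rw [← IsPrimitiveRoot.coe_units_iff]; exact hc
      exact (h3.zpow_eq_one_iff_dvd n).mp h2
    have h2 := mul_neg_geom_sum ((((c ^ n : kˣ)) : k)) ℓ
    have h3 : ((((c ^ n : kˣ)) : k)) ^ ℓ = 1 := by
      rw [← Units.val_pow_eq_pow_val, ← zpow_natCast, ← zpow_mul, mul_comm, zpow_mul,
        zpow_natCast, hcu, one_zpow, Units.val_one]
    rw [h3, sub_self] at h2
    rcases mul_eq_zero.mp h2 with h4 | h4
    · exact absurd (sub_eq_zero.mp h4).symm h1
    · rw [h4, zero_mul]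

/-- the weight two Hecke operator on Laurent series -/
def T2 (ℓ : ℕ) [NeZero ℓ] (φ : LaurentSeries k) : LaurentSeries k :=
  ℓ * qExpand k ℓ φ + sec ℓ 0 φ

theorem T2_coeff_mul (ℓ : ℕ) [NeZero ℓ] (φ : LaurentSeries k) (n : ℤ) :
    (T2 ℓ φ).coeff (ℓ * n) = ℓ * φ.coeff n + φ.coeff (ℓ * (ℓ * n)) := by
  rw [T2, HahnSeries.coeff_add, natCast_mul_coeff, qExpand_coeff_mul, sec_coeff, add_zero]

theorem T2_coeff_of_not_dvd (ℓ : ℕ) [NeZero ℓ] (φ : LaurentSeries k) {n : ℤ}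
    (hn : ¬ (ℓ : ℤ) ∣ n) : (T2 ℓ φ).coeff n = φ.coeff (ℓ * n) := by
  rw [T2, HahnSeries.coeff_add, natCast_mul_coeff, qExpand_coeff_of_not_dvd ℓ _ hn, sec_coeff,
    add_zero, mul_zero, zero_add]

theorem T2_add (ℓ : ℕ) [NeZero ℓ] (φ ψ : LaurentSeries k) : T2 ℓ (φ + ψ) = T2 ℓ φ + T2 ℓ ψ := by
  rw [T2, T2, T2, map_add, sec_add]
  ring

theorem T2_smul (ℓ : ℕ) [NeZero ℓ] (c : k) (φ : LaurentSeries k) : T2 ℓ (c • φ) = c • T2 ℓ φ := by
  ext n
  by_cases hn : (ℓ : ℤ) ∣ n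
  · obtain ⟨m, rfl⟩ := hn
    rw [T2_coeff_mul, HahnSeries.coeff_smul, HahnSeries.coeff_smul, HahnSeries.coeff_smul,
      T2_coeff_mul]
    simp only [smul_eq_mul]
    ring
  · rw [T2_coeff_of_not_dvd ℓ _ hn, HahnSeries.coeff_smul, HahnSeries.coeff_smul,
      T2_coeff_of_not_dvd ℓ _ hn]

theorem dlog_secNorm (ℓ : ℕ) [NeZero ℓ] (hℓ : (ℓ : k) ≠ 0) [IsAlgClosed k]
    {y : LaurentSeries k} (hy : y ≠ 0) : dlog (secNorm k ℓ y) = sec ℓ 0 (dlog y) := by
  have hN : NeZero (ℓ : k) := ⟨hℓ⟩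
  obtain ⟨c, hc⟩ : ∃ c : k, IsPrimitiveRoot c ℓ := HasEnoughRootsOfUnity.exists_primitiveRoot k ℓ
  have hcu : IsUnit c := hc.isUnit (NeZero.ne ℓ)
  obtain ⟨u, rfl⟩ := hcu
  have hℓ' : (ℓ : LaurentSeries k) ≠ 0 := by
    rw [← map_natCast (algebraMap k (LaurentSeries k))]
    exact (map_ne_zero _).mpr hℓ
  apply qExpand_injective (R := k) ℓ
  apply mul_left_cancel₀ hℓ'
  rw [← dlog_qExpand, ModFun.qExpand_secNorm ℓ u hc, dlog_prod _ _ fun b _ => twist_ne_zero _ hy,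
    ← sum_twist ℓ u hc]
  exact Finset.sum_congr rfl fun b _ => dlog_twist _ _

/-- The logarithmic derivative intertwines the multiplicative and the weight two Hecke
operators. -/
theorem dlog_TSer (ℓ : ℕ) [NeZero ℓ] (hℓ : (ℓ : k) ≠ 0) [IsAlgClosed k]
    {y : LaurentSeries k} (hy : y ≠ 0) : dlog (TSer k ℓ y) = T2 ℓ (dlog y) := by
  rw [TSer_apply, dlog_mul (qExpand_ne_zero ℓ hy) (secNorm_ne_zero ℓ hy), dlog_qExpand,
    dlog_secNorm ℓ hℓ hy, T2]

end Fermat.Agent.S44w
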