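import Mathlib

/-!
# A Boston–Lenstra–Ribet type theorem

`V` is a two-dimensional absolutely irreducible representation of a group `G` over a field `k` of
characteristic `≠ 2`, `X` a representation of `G` on which every `g` satisfies the characteristic
polynomial of `g` on `V`. Then everything in `k[G]` that kills `V` kills `X`, and conversely if
`X ≠ 0`.
-/

set_option autoImplicit false

namespace Fermat.Agent.S44w

open LinearMap Module

variable {k G V X : Type*} [Field k] [Group G] [AddCommGroup V] [Module k V]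
  [AddCommGroup X] [Module k X]

section Abs

variable {A E : Type*} [Ring A] [Algebra k A] [Ring E] [Algebra k E]

/-- The abstract computation: `r : A → E` an algebra hom, `t : A → k` linear, `s = t - r`
anti-multiplicative, `I` an ideal (given as a predicate) on which `t` vanishes, and an element
`z * w - w * z` whose square is `1` modulo `I`. Then `r` kills `I`. -/
theorem blr_abs (h2 : (2 : k) ≠ 0) (r : A →ₐ[k] E) (t : A →ₗ[k] k) 
    (hs : ∀ a b : A, algebraMap k E (t (a * b)) - r (a * b) =
      (algebraMap k E (t b) - r b) * (algebraMap k E (t a) - r a))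
    (I : Submodule k A) (hI : ∀ a ∈ I, ∀ b, a * b ∈ I)
    (ht : ∀ a ∈ I, t a = 0)
    (z w : A) (hzw : 1 - (z * w - w * z) * (z * w - w * z) ∈ I) :
    ∀ a ∈ I, r a = 0 := by
  -- (1) : `r y r z = s z r y`
  have h1 : ∀ y ∈ I, ∀ z : A, r y * r z = (algebraMap k E (t z) - r z) * r y := by
    intro y hy z
    have := hs y z
    rw [ht _ (hI y hy z), ht y hy, map_zero, zero_sub, zero_sub, map_mul, mul_neg, neg_inj] at this
    exact this
  have h3 : ∀ y ∈ I, ∀ z w : A, r y * (r z * r w) = r y * (r w * r z) := by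
    intro y hy z w
    have e1 := h1 y hy (z * w)
    rw [hs, map_mul, mul_assoc, ← h1 y hy z, ← mul_assoc (algebraMap k E (t w) - r w),
      ← h1 y hy w, mul_assoc] at e1
    exact e1
  -- `r y (r z r w - r w r z) = 0`
  have h4 : ∀ y ∈ I, r y * (r z * r w - r w * r z) = 0 := by
    intro y hy
    rw [mul_sub, h3 y hy z w, sub_self]
  set y' := 1 - (z * w - w * z) * (z * w - w * z) with hy'
  have h5 : ∀ y ∈ I, r y = r y * r y' := by
    intro y hy
    rw [hy', map_sub, map_one, map_mul, map_sub, map_mul, map_mul, mul_sub, mul_one, ← mul_assoc,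
      h4 y hy, zero_mul, sub_zero]
  have he : r y' * r y' = r y' := (h5 y' hzw).symm
  have he2 : r y' = - r y' := by
    have := hs y' y'
    rw [ht _ (hI y' hzw y'), ht _ hzw, map_zero, zero_sub, zero_sub, map_mul, neg_mul_neg, he] at this
    exact this.symm
  have he3 : r y' = 0 := by
    have h6 : (2 : k) • r y' = 0 := by
      rw [two_smul]
      nth_rewrite 1 [he2]
      exact neg_add_cancel _
    exact (smul_eq_zero.mp h6).resolve_left h2
  intro a ha
  rw [h5 a ha, he3, mul_zero]

end Abs

variable (ρ : G →* Module.End k V) (r : G →* Module.End k X)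

/-- **BLR**: everything killing `V` kills `X`. -/
theorem blr (h2 : (2 : k) ≠ 0) (b : Module.Basis (Fin 2) k V)
    (hspan : Submodule.span k (Set.range ρ) = ⊤)
    (hX : ∀ g : G, r g * r g = LinearMap.trace k V (ρ g) • r g -
      algebraMap k (Module.End k X) (LinearMap.det (ρ g))) 
    (y : MonoidAlgebra k G) (hy : MonoidAlgebra.lift k _ _ ρ y = 0) :
    MonoidAlgebra.lift k _ _ r y = 0 := by
  classical
  set R := MonoidAlgebra.lift k _ _ ρ with hR
  set r' := MonoidAlgebra.lift k _ _ r with hr'
  set t : MonoidAlgebra k G →ₗ[k] k := (LinearMap.trace k V).comp R.toLinearMap with ht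
  have hRof : ∀ g, R (MonoidAlgebra.of k G g) = ρ g := fun g => by rw [hR]; simp
  have hrof : ∀ g, r' (MonoidAlgebra.of k G g) = r g := fun g => by rw [hr']; simp
  have htof : ∀ g, t (MonoidAlgebra.of k G g) = LinearMap.trace k V (ρ g) := fun g => by
    rw [ht, LinearMap.comp_apply, AlgHom.toLinearMap_apply, hRof]
  -- anti-multiplicativity on group elements
  have hsg : ∀ g : G, algebraMap k (Module.End k X) (LinearMap.trace k V (ρ g)) - r g =
      LinearMap.det (ρ g) • r g⁻¹ := by
    intro g
    have h : r g⁻¹ * (r g * r g) = r g⁻¹ * (LinearMap.trace k V (ρ g) • r g -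
      algebraMap k (Module.End k X) (LinearMap.det (ρ g))) := by rw [hX g]
    rw [← mul_assoc, ← map_mul, inv_mul_cancel, map_one, one_mul, mul_sub, mul_smul_comm,
      ← map_mul, inv_mul_cancel, map_one, ← Algebra.commutes, ← Algebra.smul_def] at h
    rw [Algebra.algebraMap_eq_smul_one, h]
    abel
  have hsgg : ∀ g h : G, algebraMap k (Module.End k X) (LinearMap.trace k V (ρ (g * h))) - r (g * h) =
      (algebraMap k (Module.End k X) (LinearMap.trace k V (ρ h)) - r h) *
      (algebraMap k (Module.End k X) (LinearMap.trace k V (ρ g)) - r g) := by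
    intro g h
    rw [hsg, hsg, hsg, map_mul, map_mul, mul_inv_rev, map_mul, smul_mul_smul_comm, mul_comm]
  set σ : MonoidAlgebra k G →ₗ[k] Module.End k X :=
    (Algebra.linearMap k (Module.End k X)).comp t - r'.toLinearMap with hσ
  have hσa : ∀ a, σ a = algebraMap k _ (t a) - r' a := fun a => rfl
  have hs' : ∀ a b : MonoidAlgebra k G, σ (a * b) = σ b * σ a := by
    intro a b
    induction a using MonoidAlgebra.induction_on with
    | of g =>
      induction b using MonoidAlgebra.induction_on with
      | of h =>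
        rw [← map_mul, hσa, hσa, hσa, htof, htof, htof, hrof, hrof, hrof, hsgg]
      | add x y hx hy => rw [mul_add, map_add, map_add, hx, hy, ← add_mul]
      | smul c x hx => rw [mul_smul_comm, map_smul, map_smul, hx, smul_mul_assoc]
    | add x y hx hy => rw [add_mul, map_add, map_add, hx, hy, ← mul_add]
    | smul c x hx => rw [smul_mul_assoc, map_smul, map_smul, hx, mul_smul_comm]
  have hs : ∀ a b : MonoidAlgebra k G, algebraMap k _ (t (a * b)) - r' (a * b) =
      (algebraMap k _ (t b) - r' b) * (algebraMap k _ (t a) - r' a) := fun a b => by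
    rw [← hσa, ← hσa, ← hσa, hs']
  -- surjectivity of `R`
  have hsurj : Function.Surjective R := by
    intro f
    have hf : f ∈ Submodule.span k (Set.range ρ) := by rw [hspan]; trivial
    induction hf using Submodule.span_induction with
    | mem x hx => obtain ⟨g, rfl⟩ := hx; exact ⟨_, hRof g⟩
    | zero => exact ⟨0, map_zero _⟩
    | add x y _ _ hx hy =>
      obtain ⟨x', rfl⟩ := hx
      obtain ⟨y', rfl⟩ := hy
      exact ⟨x' + y', map_add _ _ _⟩
    | smul c x _ hx =>
      obtain ⟨x', rfl⟩ := hx
      exact ⟨c • x', map_smul _ _ _⟩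
  obtain ⟨z, hz⟩ := hsurj (Matrix.toLinAlgEquiv b !![0, 1; 0, 0])
  obtain ⟨w, hw⟩ := hsurj (Matrix.toLinAlgEquiv b !![0, 0; 1, 0])
  refine blr_abs h2 r' t hs (LinearMap.ker R.toLinearMap) ?_ ?_ z w ?_ y hy
  · intro a ha b
    rw [LinearMap.mem_ker, AlgHom.toLinearMap_apply] at ha ⊢
    rw [map_mul, ha, zero_mul]
  · intro a ha
    rw [LinearMap.mem_ker, AlgHom.toLinearMap_apply] at ha
    rw [ht, LinearMap.comp_apply, AlgHom.toLinearMap_apply, ha, map_zero]
  · rw [LinearMap.mem_ker, AlgHom.toLinearMap_apply]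
    have hM : (1 : Matrix (Fin 2) (Fin 2) k) -
        (!![0, 1; 0, 0] * !![0, 0; 1, 0] - !![0, 0; 1, 0] * !![0, 1; 0, 0]) *
        (!![0, 1; 0, 0] * !![0, 0; 1, 0] - !![0, 0; 1, 0] * !![0, 1; 0, 0]) = 0 := by
      ext i j
      fin_cases i <;> fin_cases j <;> simp
    have h := congrArg (Matrix.toLinAlgEquiv b) hM
    rw [map_zero, map_sub, map_one, map_mul, map_sub, map_mul, map_mul, ← hz, ← hw] at h
    rw [← h, map_sub, map_one, map_mul, map_sub, map_mul, map_mul]

lemma lift_surjective (hspan : Submodule.span k (Set.range ρ) = ⊤) :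
    Function.Surjective (MonoidAlgebra.lift k _ _ ρ) := by
  intro f
  have hf : f ∈ Submodule.span k (Set.range ρ) := by rw [hspan]; trivial
  induction hf using Submodule.span_induction with
  | mem x hx => obtain ⟨g, rfl⟩ := hx; exact ⟨MonoidAlgebra.of k G g, by simp⟩
  | zero => exact ⟨0, map_zero _⟩
  | add x y _ _ hx hy =>
    obtain ⟨x', rfl⟩ := hx
    obtain ⟨y', rfl⟩ := hy
    exact ⟨x' + y', map_add _ _ _⟩
  | smul c x _ hx =>
    obtain ⟨x', rfl⟩ := hx
    exact ⟨c • x', map_smul _ _ _⟩

/-- Converse of `blr`: everything killing `X ≠ 0` kills `V`. -/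
theorem blr_converse [Nontrivial X] (h2 : (2 : k) ≠ 0) (b : Module.Basis (Fin 2) k V)
    (hspan : Submodule.span k (Set.range ρ) = ⊤)
    (hX : ∀ g : G, r g * r g = LinearMap.trace k V (ρ g) • r g -
      algebraMap k (Module.End k X) (LinearMap.det (ρ g)))
    (y : MonoidAlgebra k G) (hy : MonoidAlgebra.lift k _ _ r y = 0) :
    MonoidAlgebra.lift k _ _ ρ y = 0 := by
  classical
  by_contra hne
  set f := MonoidAlgebra.lift k _ _ ρ y with hf
  obtain ⟨v, hv⟩ : ∃ v, f v ≠ 0 := by
    by_contra h
    push Not at h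
    exact hne (LinearMap.ext h)
  obtain ⟨φ, hφ⟩ := Module.Projective.exists_dual_eq_one k hv
  have hsurj := lift_surjective ρ hspan
  choose g hg using fun i : Fin 2 => hsurj (φ.smulRight (b i))
  choose h hh using fun i : Fin 2 => hsurj ((b.coord i).smulRight v)
  set c : MonoidAlgebra k G := ∑ i, g i * y * h i with hc
  have h1 : MonoidAlgebra.lift k _ _ ρ c = 1 := by
    rw [hc, map_sum]
    refine LinearMap.ext fun x => ?_
    rw [LinearMap.sum_apply]
    simp only [map_mul, hg, hh, ← hf, Module.End.mul_apply, LinearMap.smulRight_apply, map_smul,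
      hφ, one_smul, Module.Basis.coord_apply, Module.End.one_apply]
    exact b.sum_repr x
  have h3 : MonoidAlgebra.lift k _ _ r (1 - c) = 0 :=
    blr ρ r h2 b hspan hX _ (by rw [map_sub, map_one, h1, sub_self])
  have h4 : MonoidAlgebra.lift k _ _ r c = 0 := by
    rw [hc, map_sum]
    refine Finset.sum_eq_zero fun i _ => ?_
    rw [map_mul, map_mul, hy, mul_zero, zero_mul]
  rw [map_sub, map_one, h4, sub_zero] at h3
  exact one_ne_zero h3

end Fermat.Agent.S44w
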