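import Mathlib

/-!
# Finite modules without `𝔫`-torsion
-/

set_option autoImplicit false

namespace Fermat.Agent.S44w

/-- A finite module with no nonzero element killed by the maximal ideal `𝔫` is killed by some
`r ≡ 1 mod 𝔫`. -/
theorem exists_killing {R : Type*} [CommRing R] (𝔫 : Ideal R) [h𝔫 : 𝔫.IsMaximal]
    {M : Type*} [AddCommGroup M] [Module R M] [Finite M]
    (h : ∀ x : M, (∀ r ∈ 𝔫, r • x = 0) → x = 0) :
    ∃ r : R, r - 1 ∈ 𝔫 ∧ ∀ x : M, r • x = 0 := by
  classical
  induction hn : Nat.card M using Nat.strong_induction_on generalizing M with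
  | _ n ih =>
    by_cases hM : ∀ x : M, x = 0
    · exact ⟨1, by simp, fun x => by rw [hM x, smul_zero]⟩
    push Not at hM
    obtain ⟨x, hx, hmin⟩ : ∃ x : M, x ≠ 0 ∧ ∀ y : M, y ≠ 0 →
        Nat.card (Submodule.span R {x}) ≤ Nat.card (Submodule.span R {y}) := by
      obtain ⟨x, hx, hmin⟩ := Set.exists_min_image {x : M | x ≠ 0}
        (fun x => Nat.card (Submodule.span R {x})) (Set.toFinite _) hM
      exact ⟨x, hx, hmin⟩
    -- the annihilator of `x` is maximal
    have hmax : ∀ r : R, r • x ≠ 0 → ∃ s : R, x = s • (r • x) := by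
      intro r hr
      have hle : Submodule.span R {r • x} ≤ Submodule.span R {x} := by
        rw [Submodule.span_singleton_le_iff_mem]
        exact Submodule.smul_mem _ _ (Submodule.mem_span_singleton_self x)
      have heq : Submodule.span R {r • x} = Submodule.span R {x} := by
        apply SetLike.coe_injective
        refine Set.eq_of_subset_of_ncard_le hle ?_ (Set.toFinite _)
        rw [← Nat.card_coe_set_eq, ← Nat.card_coe_set_eq]
        exact hmin _ hr
      have hxm : x ∈ Submodule.span R {r • x} := by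
        rw [heq]; exact Submodule.mem_span_singleton_self x
      obtain ⟨s, hs⟩ := Submodule.mem_span_singleton.mp hxm
      exact ⟨s, hs.symm⟩
    -- an element `q ≡ 1 mod 𝔫` killing `x`
    obtain ⟨r, hr, hrx⟩ : ∃ r ∈ 𝔫, r • x ≠ 0 := by
      by_contra hcon
      push Not at hcon
      exact hx (h x hcon)
    obtain ⟨s, hs⟩ := hmax r hrx
    set q : R := 1 - s * r with hq
    have hqx : q • x = 0 := by rw [hq, sub_smul, one_smul, mul_smul, ← hs, sub_self]
    have hq1 : q - 1 ∈ 𝔫 := by
      rw [hq]
      have : 1 - s * r - 1 = - (s * r) := by ring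
      rw [this]
      exact 𝔫.neg_mem (𝔫.mul_mem_left _ hr)
    set N : Submodule R M := Submodule.span R {x} with hN
    have hqN : ∀ y ∈ N, q • y = 0 := by
      intro y hy
      obtain ⟨c, rfl⟩ := Submodule.mem_span_singleton.mp hy
      rw [smul_comm, hqx, smul_zero]
    have hfinQ : Finite (M ⧸ N) := Finite.of_surjective _ (Submodule.Quotient.mk_surjective N)
    have hcard : Nat.card (M ⧸ N) < n := by
      have h1 := Submodule.card_eq_card_quotient_mul_card N
      have h2 : 1 < Nat.card N := by
        rw [Finite.one_lt_card_iff_nontrivial]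
        exact ⟨⟨0, ⟨x, Submodule.mem_span_singleton_self x⟩, fun h0 => hx (congrArg Subtype.val h0).symm⟩⟩
      have h3 : 0 < Nat.card (M ⧸ N) := Nat.card_pos
      rw [← hn, h1]
      nlinarith
    obtain ⟨r', hr'1, hr'⟩ := ih _ hcard (M := M ⧸ N) (fun y hy => by
      obtain ⟨y, rfl⟩ := Submodule.Quotient.mk_surjective N y
      have h1 : ∀ r ∈ 𝔫, r • y ∈ N := by
        intro r hr
        have := hy r hr
        rwa [← Submodule.Quotient.mk_smul, Submodule.Quotient.mk_eq_zero] at this
      have h2 : q • y = 0 := by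
        apply h
        intro r hr
        rw [smul_comm]
        exact hqN _ (h1 r hr)
      have h3 : (q - 1) • y ∈ N := h1 _ hq1
      rw [sub_smul, h2, one_smul, zero_sub, Submodule.neg_mem_iff] at h3
      exact (Submodule.Quotient.mk_eq_zero N).mpr h3) rfl
    refine ⟨q * r', ?_, fun y => ?_⟩
    · have : q * r' - 1 = (q - 1) * r' + (r' - 1) := by ring
      rw [this]
      exact 𝔫.add_mem (𝔫.mul_mem_right _ hq1) hr'1
    · rw [mul_smul]
      apply hqN
      have := hr' (Submodule.Quotient.mk y)
      rwa [← Submodule.Quotient.mk_smul, Submodule.Quotient.mk_eq_zero] at this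

end Fermat.Agent.S44w
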