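import Fermat.Agent.S44w.Dichotomy
import Fermat.Agent.S44w.Nakayama
import Fermat.Agent.S44w.BLR
import Fermat.Agent.GalRep.PowTrace
import Fermat.Agent.ECFrob.DetCyc

/-!
# The mod `p` eigenspace in `J[p]` and its Galois action
-/

set_option autoImplicit false
set_option linter.style.haveILetI false

noncomputable section

open CuspForm ModularCurve Fermat.Agent.GalRep

namespace Fermat.Agent.S44w

section Basic

variable (S : Finset ℕ) (p : ℕ) (a : ℕ → ℤ) (J : Type*) [AddCommGroup J] [Module HeckeAlg J]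

/-- `J[p][T_ℓ = a_ℓ, ℓ ∉ S]`. -/
def eigenPart : AddSubgroup J where
  carrier := {x | p • x = 0 ∧ ∀ ℓ : Nat.Primes, (ℓ : ℕ) ∉ S → heckeGen ℓ • x = a (ℓ : ℕ) • x}
  zero_mem' := ⟨smul_zero _, fun ℓ _ => by rw [smul_zero, smul_zero]⟩
  add_mem' := by
    rintro x y ⟨hx, hx'⟩ ⟨hy, hy'⟩
    exact ⟨by rw [smul_add, hx, hy, add_zero], fun ℓ hℓ => by
      rw [smul_add, smul_add, hx' ℓ hℓ, hy' ℓ hℓ]⟩
  neg_mem' := by
    rintro x ⟨hx, hx'⟩
    exact ⟨by rw [smul_neg, hx, neg_zero], fun ℓ hℓ => by rw [smul_neg, smul_neg, hx' ℓ hℓ]⟩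

variable {S p a J}

lemma mem_eigenPart {x : J} : x ∈ eigenPart S p a J ↔
    p • x = 0 ∧ ∀ ℓ : Nat.Primes, (ℓ : ℕ) ∉ S → heckeGen ℓ • x = a (ℓ : ℕ) • x := Iff.rfl

lemma inclS_smul_of_mem {x : J} (hx : x ∈ eigenPart S p a J) (t : HeckeAlgS (↑S : Set ℕ)) :
    inclS (↑S : Set ℕ) t • x = thetaZ S a t • x := by
  induction t using MvPolynomial.induction_on with
  | C c =>
    have h1 : inclS (↑S : Set ℕ) (MvPolynomial.C c) = ((c : ℤ) : HeckeAlg) := by
      rw [inclS, MvPolynomial.rename_C]; simp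
    have h2 : thetaZ S a (MvPolynomial.C c) = c := by
      have : (MvPolynomial.C c : HeckeAlgS (↑S : Set ℕ)) = ((c : ℤ) : HeckeAlgS (↑S : Set ℕ)) := by
        simp
      rw [this, map_intCast]; simp
    rw [h1, h2, Int.cast_smul_eq_zsmul]
  | add u v hu hv => rw [map_add, map_add, add_smul, add_smul, hu, hv]
  | mul_X u ℓ hu =>
    have h1 : inclS (↑S : Set ℕ) (MvPolynomial.X ℓ) = heckeGen ℓ.1 := by
      rw [inclS, MvPolynomial.rename_X]; rfl
    rw [map_mul, map_mul, h1, mul_smul, hx.2 ℓ.1 (by simpa using ℓ.2), smul_comm, hu, thetaZ_X,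
      smul_smul, mul_comm]

lemma inclS_smul_of_theta_eq_one {x : J} (hx : x ∈ eigenPart S p a J)
    {t : HeckeAlgS (↑S : Set ℕ)} (ht : theta S p a t = 1) : inclS (↑S : Set ℕ) t • x = x := by
  rw [inclS_smul_of_mem hx]
  rw [theta_eq, ← Int.cast_one, ← sub_eq_zero, ← Int.cast_sub,
    ZMod.intCast_zmod_eq_zero_iff_dvd] at ht
  obtain ⟨c, hc⟩ := ht
  have h1 : thetaZ S a t = 1 + c * p := by linear_combination hc
  rw [h1, add_smul, one_smul, mul_smul, natCast_zsmul, hx.1, smul_zero, add_zero]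

/-- The eigenspace is non-zero if the eigensystem comes from a form of level `N`. -/
theorem exists_mem_eigenPart_ne_zero {N : ℕ} [NeZero N] [hp : Fact p.Prime]
    [DistribMulAction GQ J] [SMulCommClass GQ HeckeAlg J] (hJ : ESInput N p (↑S : Set ℕ) J)
    (hfin : ∀ m : ℕ, {x : J | p ^ m • x = 0}.Finite)
    {f : CuspForm (CongruenceSubgroup.Gamma0 N) 2} (hf : f.IsNormalizedEigenform)
    {𝔪 : Ideal (integralClosure ℤ ℂ)} (h𝔪 : 𝔪.IsMaximal) (hp𝔪 : (p : integralClosure ℤ ℂ) ∈ 𝔪)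
    (h : ∀ ℓ : ℕ, ℓ.Prime → ℓ ∉ S → ∃ b : integralClosure ℤ ℂ,
        (b : ℂ) = ModularFormClass.qCoeff f ℓ ∧ b - ((a ℓ : ℤ) : integralClosure ℤ ℂ) ∈ 𝔪) :
    ∃ x ∈ eigenPart S p a J, x ≠ 0 := by
  classical
  obtain ⟨m, hm⟩ := hJ.faithful 1
  letI : Module (HeckeAlgS (↑S : Set ℕ)) J := Module.compHom J (inclS (↑S : Set ℕ)).toRingHom
  have hsm : ∀ (t : HeckeAlgS (↑S : Set ℕ)) (x : J), t • x = inclS (↑S : Set ℕ) t • x :=
    fun _ _ => rfl
  let M : Submodule (HeckeAlgS (↑S : Set ℕ)) J :=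
    { carrier := {x | p ^ m • x = 0}
      zero_mem' := smul_zero _
      add_mem' := fun {x y} hx hy => by
        simp only [Set.mem_ofPred_eq] at hx hy ⊢
        rw [smul_add, hx, hy, add_zero]
      smul_mem' := fun t x hx => by
        simp only [Set.mem_ofPred_eq] at hx ⊢
        rw [smul_comm, hx, smul_zero] }
  haveI : Finite M := hfin m
  have hker : (RingHom.ker (theta S p a)).IsMaximal :=
    RingHom.ker_isMaximal_of_surjective _ (theta_surjective S p a)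
  by_contra hcon
  push Not at hcon
  obtain ⟨r, hr1, hr⟩ := exists_killing (RingHom.ker (theta S p a)) (M := M) (fun x hx => by
    apply Subtype.ext
    refine hcon x.1 ⟨?_, fun ℓ hℓ => ?_⟩
    · have h1 := congrArg Subtype.val (hx (p : HeckeAlgS (↑S : Set ℕ)) (by
        rw [RingHom.mem_ker, map_natCast]; simp))
      have h2 : (p : HeckeAlgS (↑S : Set ℕ)) • (x : J) = p • (x : J) := by
        rw [Nat.cast_smul_eq_nsmul]
      rw [← h2]
      exact h1
    · have h1 := congrArg Subtype.val (hx (MvPolynomial.X ⟨ℓ, by simpa using hℓ⟩ -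
        ((a (ℓ : ℕ) : ℤ) : HeckeAlgS (↑S : Set ℕ))) (by
        rw [RingHom.mem_ker, map_sub, theta_X, map_intCast, sub_self]))
      have h2 : (MvPolynomial.X (⟨ℓ, by simpa using hℓ⟩ :
          {ℓ : Nat.Primes // (ℓ : ℕ) ∉ (↑S : Set ℕ)}) -
        ((a (ℓ : ℕ) : ℤ) : HeckeAlgS (↑S : Set ℕ))) • (x : J) = 0 := h1
      rw [sub_smul, sub_eq_zero, Int.cast_smul_eq_zsmul, hsm, inclS, MvPolynomial.rename_X] at h2
      exact h2)
  have h1 := hm r (fun x hx => by
    have := congrArg Subtype.val (hr ⟨x, hx⟩)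
    exact this)
  rw [pow_one] at h1
  have h2 := theta_eq_zero_of_mem_span (a := a) hf h𝔪 hp𝔪 h h1
  rw [RingHom.mem_ker, map_sub, map_one, h2, zero_sub, neg_eq_zero] at hr1
  exact one_ne_zero hr1

end Basic

end Fermat.Agent.S44w

end
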