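import Fermat.Agent.S44w.Eigen

/-!
# The Galois action on the mod `p` eigenspace
-/

set_option autoImplicit false
set_option linter.style.haveILetI false

noncomputable section

open CuspForm ModularCurve Fermat.Agent.GalRep Fermat.Agent.ECFrob WeierstrassCurve
  WeierstrassCurve.Affine WeierstrassCurve.Affine.Point Fermat.Agent.Torsion Fermat.Agent.ECRed

namespace Fermat.Agent.S44w

section Action

variable (S : Finset ℕ) (p : ℕ) [hp : Fact p.Prime] (a : ℕ → ℤ) (J : Type*) [AddCommGroup J]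
  [Module HeckeAlg J] [DistribMulAction GQ J] [SMulCommClass GQ HeckeAlg J]

instance eigenPart.module : Module (ZMod p) (eigenPart S p a J) :=
  AddCommGroup.zmodModule fun x => Subtype.ext x.2.1

lemma gsmul_mem_eigenPart {S : Finset ℕ} {p : ℕ} {a : ℕ → ℤ} {J : Type*} [AddCommGroup J]
    [Module HeckeAlg J] [DistribMulAction GQ J] [SMulCommClass GQ HeckeAlg J]
    (g : GQ) {x : J} (hx : x ∈ eigenPart S p a J) : g • x ∈ eigenPart S p a J := by
  refine ⟨by rw [smul_comm, hx.1, smul_zero], fun ℓ hℓ => ?_⟩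
  rw [← smul_comm, hx.2 ℓ hℓ, smul_comm]

/-- The Galois action on the eigenspace. -/
def eigenRep : GQ →* Module.End (ZMod p) (eigenPart S p a J) where
  toFun g :=
    AddMonoidHom.toZModLinearMap p
      { toFun := fun x => ⟨g • (x : J), gsmul_mem_eigenPart g x.2⟩
        map_zero' := Subtype.ext (smul_zero _)
        map_add' := fun x y => Subtype.ext (smul_add _ _ _) }
  map_one' := by
    refine LinearMap.ext fun x => Subtype.ext ?_
    exact one_smul _ _
  map_mul' g h := by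
    refine LinearMap.ext fun x => Subtype.ext ?_
    exact mul_smul _ _ _

@[simp] lemma coe_eigenRep_apply (g : GQ) (x : eigenPart S p a J) :
    ((eigenRep S p a J g x : eigenPart S p a J) : J) = g • (x : J) := rfl

end Action

section Relation

variable {S : Finset ℕ} {p : ℕ} [hp : Fact p.Prime] {N : ℕ} [NeZero N] {J : Type*} [AddCommGroup J]
  [Module HeckeAlg J] [DistribMulAction GQ J] [SMulCommClass GQ HeckeAlg J]
  {W : WeierstrassCurve ℤ}

lemma trace_rho_pow (hΔ : W.Δ ≠ 0) (g : GQ) (k : ℕ) :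
    LinearMap.trace (ZMod p) _ (rho W p (g ^ k)) =
      tk (LinearMap.trace (ZMod p) _ (rho W p g)) (LinearMap.det (rho W p g)) k := by
  haveI := finite_rat hΔ hp.out.ne_zero
  haveI : Module.Finite (ZMod p)
      (Submodule.torsionBy ℤ ((W.map (Int.castRingHom ℚ))⁄(AlgebraicClosure ℚ)).Point p) :=
    Module.Finite.of_finite
  rw [map_pow]
  refine trace_pow_of_charpoly (finrank_rat hΔ) _ _ _ ?_ k
  let b := Module.finBasisOfFinrankEq _ _ (finrank_rat hΔ (p := p))
  rw [← LinearMap.charpoly_toMatrix _ b, Matrix.charpoly_fin_two, ← LinearMap.trace_eq_matrix_trace _ b,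
    LinearMap.det_toMatrix]

/-- **The relation on the eigenspace**: every `g` satisfies its characteristic polynomial on
`E[p]`. -/
theorem eigenRep_relation {a : ℕ → ℤ} (hJ : ESInput N p (↑S : Set ℕ) J) (hΔ : W.Δ ≠ 0)
    (S' : Finset ℕ) (hSS' : S ⊆ S') (hpS : p ∈ S')
    (hNS : ∀ q : ℕ, q.Prime → q ∣ N → q ∈ S')
    (hΔS : ∀ q : ℕ, q.Prime → (q : ℤ) ∣ W.Δ → q ∈ S')
    (ha : ∀ ℓ : ℕ, ℓ.Prime → ℓ ∉ S' → ((a ℓ : ℤ) : ZMod p) = ((W.apOfModel ℓ : ℤ) : ZMod p))
    (g : GQ) :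
    eigenRep S p a J g * eigenRep S p a J g =
      LinearMap.trace (ZMod p) _ (rho W p g) • eigenRep S p a J g -
        algebraMap (ZMod p) _ (LinearMap.det (rho W p g)) := by
  set r := eigenRep S p a J with hr
  obtain ⟨L₁, hL₁, h₁⟩ := galoisRep_factors (map_Δ_ne_zero hΔ) hp.out.ne_zero
  obtain ⟨L₂, hL₂, h₂⟩ := hJ.finiteLevel 1
  haveI := hL₁
  haveI := hL₂
  haveI : FiniteDimensional ℚ (L₁ ⊔ L₂ : IntermediateField ℚ _) :=
    IntermediateField.finiteDimensional_sup _ _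
  have hρL : ∀ σ τ : GQ, (∀ x ∈ (L₁ ⊔ L₂ : IntermediateField ℚ _), σ x = τ x) →
      rho W p σ = rho W p τ := by
    intro σ τ h
    have h2 : rho W p (τ⁻¹ * σ) = 1 := by
      apply h₁
      intro x hx
      show τ.symm (σ x) = x
      rw [h x (le_sup_left (a := L₁) hx), τ.symm_apply_apply]
    rw [_root_.map_mul] at h2
    have h4 : rho W p τ * rho W p τ⁻¹ = 1 := by
      rw [← _root_.map_mul, mul_inv_cancel, _root_.map_one]
    calc rho W p σ = (rho W p τ * rho W p τ⁻¹) * rho W p σ := by rw [h4, one_mul]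
      _ = rho W p τ := by rw [mul_assoc, h2, mul_one]
  have hrL : ∀ σ τ : GQ, (∀ x ∈ (L₁ ⊔ L₂ : IntermediateField ℚ _), σ x = τ x) → r σ = r τ := by
    intro σ τ h
    refine LinearMap.ext fun x => Subtype.ext ?_
    rw [hr, coe_eigenRep_apply, coe_eigenRep_apply]
    have h3 : (τ⁻¹ * σ) • (x : J) = x := by
      refine h₂ _ (fun y hy => ?_) _ (by rw [pow_one]; exact x.2.1)
      show τ.symm (σ y) = y
      rw [h y (le_sup_right (a := L₁) hy), τ.symm_apply_apply]
    rw [mul_smul, inv_smul_eq_iff] at h3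
    exact h3
  refine FrobDensity.eq_of_frobenius (fun g => r g * r g)
    (fun g => LinearMap.trace (ZMod p) _ (rho W p g) • r g -
        algebraMap (ZMod p) _ (LinearMap.det (rho W p g))) (L₁ ⊔ L₂) ?_ ?_ ?_ (↑S' : Set ℕ)
        (Finset.finite_toSet S') ?_ g
  · intro σ τ h
    simp only [hrL σ τ h]
  · intro σ τ h
    simp only [hrL σ τ h, hρL σ τ h]
  · intro φ k h
    rw [trace_rho_pow hΔ, map_pow r, map_pow (rho W p), map_pow LinearMap.det]
    exact pow_quadratic _ _ _ h k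
  · intro ℓ hℓ hℓS A hA φ hφ
    have hℓS'' : ℓ ∉ S' := by simpa using hℓS
    have hℓS' : ℓ ∉ S := fun h => hℓS'' (hSS' h)
    have hℓN : ¬ ℓ ∣ N := fun h => hℓS'' (hNS ℓ hℓ h)
    have hℓp : ℓ ≠ p := fun h => hℓS'' (h ▸ hpS)
    have hgood : W.IsGoodPrimeFor ℓ := fun h => hℓS'' (hΔS ℓ hℓ h)
    haveI : Fact ℓ.Prime := ⟨hℓ⟩
    refine LinearMap.ext fun x => Subtype.ext ?_
    have h1 := hJ.frobenius ℓ hℓ (fun h => by
      rcases (Nat.Prime.dvd_mul hℓ).mp h with h | h
      · exact hℓN h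
      · exact hℓp ((Nat.prime_dvd_prime_iff_eq hℓ hp.out).mp h)) A hA φ hφ x ⟨1, by
        rw [pow_one]; exact x.2.1⟩
    rw [(gsmul_mem_eigenPart φ x.2).2 ⟨ℓ, hℓ⟩ hℓS'] at h1
    show φ • φ • (x : J) = _
    rw [trace_rho_frobenius hgood hA hφ hℓp, det_rho_frobenius hgood hA hφ hℓp, ← ha ℓ hℓ hℓS'']
    have h3 : ((((a ℓ : ℤ) : ZMod p) • r φ - algebraMap (ZMod p) _ ((ℓ : ℕ) : ZMod p)) x :
        eigenPart S p a J) = a ℓ • r φ x - ℓ • x := by
      rw [LinearMap.sub_apply, LinearMap.smul_apply, Int.cast_smul_eq_zsmul, map_natCast,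
        Module.End.natCast_apply]
    rw [h3]
    show _ = a ℓ • (φ • (x : J)) - ℓ • (x : J)
    have h4 : φ • φ • (x : J) = (φ • φ • (x : J) - a ℓ • φ • (x : J) + ℓ • (x : J)) +
      (a ℓ • φ • (x : J) - ℓ • (x : J)) := by abel
    rw [h4, h1, zero_add]

end Relation

end Fermat.Agent.S44w

end
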