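import Fermat.Agent.Star.Inst
import Fermat.Agent.Star.TVersion
import Fermat.Agent.QX4.NormHecke
import Fermat.Agent.TEll.Gauss
import Fermat.Agent.TEll.HeckeDiv
import Fermat.Agent.GalRep.JZ1_Kummer
import Fermat.Agent.Cofaith.Exists

/-!
# The multiplicative Hecke operator on the two-component model
-/

set_option autoImplicit false
set_option linter.unusedSectionVars false

noncomputable section

open ModularCurve HahnSeries AlgebraicCurve
open Fermat.Agent.GaussVal Fermat.Agent.TEll Fermat.Agent.TwoGauss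
open scoped Fermat.Agent.GaussVal

namespace Fermat.Agent.S44w

section Series

variable {K : Type*} [Field K] (A : ValuationSubring K) (ℓ : ℕ) [NeZero ℓ]

/-- `T_ℓ` preserves congruences modulo constants, for integral series -/
theorem exists_TSer_add (Y W : LaurentSeries A) (b : A) :
    ∃ W' : LaurentSeries A, TSer A ℓ (Y + HahnSeries.C b * W) = TSer A ℓ Y + HahnSeries.C b * W' := by
  classical
  set D := TSer A ℓ (Y + HahnSeries.C b * W) - TSer A ℓ Y with hD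
  have h1 : coeffMap (Ideal.Quotient.mk (Ideal.span {b})) D = 0 := by
    rw [hD, map_sub, coeffMap_TSer, coeffMap_TSer, map_add, map_mul]
    have h2 : coeffMap (Ideal.Quotient.mk (Ideal.span {b})) (HahnSeries.C b : LaurentSeries A) = 0 := by
      rw [HahnSeries.C_apply, coeffMap_single]
      have : Ideal.Quotient.mk (Ideal.span {b}) b = 0 :=
        Ideal.Quotient.eq_zero_iff_mem.mpr (Ideal.mem_span_singleton_self b)
      rw [this, map_zero]
    rw [h2, zero_mul, add_zero, sub_self]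
  have h3 : ∀ n, ∃ c : A, D.coeff n = b * c ∧ (D.coeff n = 0 → c = 0) := by
    intro n
    by_cases h0 : D.coeff n = 0
    · exact ⟨0, by rw [h0, mul_zero], fun _ => rfl⟩
    · have h4 := congrArg (fun z : LaurentSeries (A ⧸ Ideal.span {b}) => z.coeff n) h1
      simp only [coeffMap_coeff, HahnSeries.coeff_zero] at h4
      rw [Ideal.Quotient.eq_zero_iff_mem, Ideal.mem_span_singleton] at h4
      obtain ⟨c, hc⟩ := h4
      exact ⟨c, hc, fun h => absurd h h0⟩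
  choose c hc hc0 using h3
  refine ⟨⟨c, D.isPWO_support.mono fun n hn => ?_⟩, ?_⟩
  · rw [HahnSeries.mem_support]
    intro h
    exact hn (hc0 n h)
  · rw [← sub_eq_iff_eq_add', ← hD]
    ext n
    rw [HahnSeries.C_mul_eq_smul, HahnSeries.coeff_smul, smul_eq_mul, hc n]

theorem incl_C (b : A) : incl A (HahnSeries.C b) = algebraMap K (LaurentSeries K) (b : K) := by
  rw [incl, HahnSeries.C_apply, coeffMap_single, algebraMap_laurentSeries_eq_single]
  rfl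

theorem TSer_cong {y : LaurentSeries K} {b : A}
    (h : ∃ z ∈ gaussSubring A, y = 1 + algebraMap K (LaurentSeries K) (b : K) * z) :
    ∃ z ∈ gaussSubring A, TSer K ℓ y = 1 + algebraMap K (LaurentSeries K) (b : K) * z := by
  obtain ⟨z, ⟨Y₁, Y₂, hY, hz⟩, hy⟩ := h
  have h1 : y * incl A Y₂ = incl A (Y₂ + HahnSeries.C b * Y₁) := by
    rw [hy, map_add, map_mul, ← hz, incl_C]
    ring
  have h2 := TSer_rel A ℓ h1
  obtain ⟨W, hW⟩ := exists_TSer_add A ℓ Y₂ Y₁ b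
  have hT : redS A (TSer A ℓ Y₂) ≠ 0 := redS_TSer_ne_zero A ℓ hY
  have hT0 : incl A (TSer A ℓ Y₂) ≠ 0 := by
    intro h0
    apply hT
    have : TSer A ℓ Y₂ = 0 := incl_injective (A := A) (h0.trans (map_zero _).symm)
    rw [this, map_zero]
  refine ⟨incl A W / incl A (TSer A ℓ Y₂), ⟨W, TSer A ℓ Y₂, hT, div_mul_cancel₀ _ hT0⟩, ?_⟩
  rw [hW, map_add, map_mul, incl_C] at h2
  field_simp
  linear_combination h2

end Series

section Op

local notation "𝕂" => AlgebraicClosure ℚ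

variable (N ℓ : ℕ) [NeZero N] [NeZero ℓ]

/-- the multiplicative Hecke operator -/
abbrev TT : modularFunctionFieldBar N →* modularFunctionFieldBar N := TEll 𝕂 N ℓ

variable {N ℓ}

theorem TT_smul (hℓ : ℓ.Prime) (hN : ¬ ℓ ∣ N) (σ : 𝕂 ≃ₐ[ℚ] 𝕂) (f : modularFunctionFieldBar N) :
    TT N ℓ (arithmeticGalois (modularFunctionFieldFull N) σ • f) =
      arithmeticGalois (modularFunctionFieldFull N) σ • TT N ℓ f := by
  apply Subtype.ext
  rw [coe_arithmeticGalois_smul]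
  erw [coe_TEll_bar N ℓ hℓ hN, coe_TEll_bar N ℓ hℓ hN]
  rw [coe_arithmeticGalois_smul, coeffMap_TSer]

theorem TT_algebraMap (hℓ : ℓ.Prime) (hN : ¬ ℓ ∣ N) (a : 𝕂) :
    TT N ℓ (algebraMap 𝕂 (modularFunctionFieldBar N) a) =
      algebraMap 𝕂 (modularFunctionFieldBar N) a ^ (ℓ + 1) := by
  rw [TT, TEll_apply, AlgHom.commutes,
    ← (heckeAlphaBar 𝕂 N ℓ).commutes a, normAlong_algebraMap, finrankAlong_alpha N ℓ hℓ hN]

theorem TT_inv {f : modularFunctionFieldBar N} (hf : f ≠ 0) : TT N ℓ f⁻¹ = (TT N ℓ f)⁻¹ := by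
  have h : TT N ℓ f * TT N ℓ f⁻¹ = 1 := by rw [← map_mul, mul_inv_cancel₀ hf, map_one]
  exact eq_inv_of_mul_eq_one_right h

/-- the divisor of `T_ℓ f` is divisible by `n` if the divisor of `f` is -/
theorem TT_dvd {n : ℕ} (hn : n ≠ 0) {f : modularFunctionFieldBar N} (hf : f ≠ 0)
    (h : ∀ v : Place 𝕂 (modularFunctionFieldBar N), (n : ℤ) ∣ v.ord f)
    (v : Place 𝕂 (modularFunctionFieldBar N)) : (n : ℤ) ∣ v.ord (TT N ℓ f) := by
  have hFF := Cofaith.isFF_bar N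
  obtain ⟨x, D, -, h0, hD⟩ := GalRep.exists_isKummer_of_dvd hn hf h
  have h1 : RR.div f = n • (D : Divisor 𝕂 (modularFunctionFieldBar N)) := by
    ext v
    rw [RR.div_apply, ← hD v]
    simp
  have h2 := heckeDiv_div (ℓ := ℓ) hf
  rw [h1, map_nsmul] at h2
  have h3 := congrArg (fun E : Divisor 𝕂 (modularFunctionFieldBar N) => E v) h2
  simp only [RR.div_apply] at h3
  change _ = v.ord (TT N ℓ f) at h3
  rw [← h3]
  exact ⟨heckeDiv N ℓ (D : Divisor 𝕂 (modularFunctionFieldBar N)) v, by simp⟩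

end Op

section Model

local notation "𝕂" => AlgebraicClosure ℚ

variable {A : ValuationSubring (AlgebraicClosure ℚ)} {q m : ℕ} [NeZero m]
  [Fact q.Prime] [CharP (IsLocalRing.ResidueField A) q]
  (hq : q.Prime) (hm : ¬ q ∣ m) (hA : A.LiesOverPrime q)
  (H3 : S18aux.DegThm (IsLocalRing.ResidueField A) m) {ℓ : ℕ} [NeZero ℓ]

theorem mem_O₁_iff' (x : modularFunctionFieldBar (m * q)) :
    x ∈ O₁ hq hA ↔ (x : LaurentSeries 𝕂) ∈ gaussSubring A := Iff.rfl

theorem TT_mem_O₁ (hℓ : ℓ.Prime) (hN : ¬ ℓ ∣ m * q) {x : modularFunctionFieldBar (m * q)}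
    (hx : x ∈ O₁ hq hA) : TT (m * q) ℓ x ∈ O₁ hq hA := by
  rw [mem_O₁_iff'] at hx ⊢
  erw [coe_TEll_bar (m * q) ℓ hℓ hN]
  exact TSer_mem_gaussSubring A ℓ hx

theorem coprime_aux (hℓ : ℓ.Prime) (hN : ¬ ℓ ∣ m * q) : Nat.Coprime q ℓ := by
  rw [Nat.coprime_comm, Nat.Prime.coprime_iff_not_dvd hℓ]
  exact fun h => hN (h.mul_left m)

theorem TT_wq (hℓ : ℓ.Prime) (hN : ¬ ℓ ∣ m * q) (x : modularFunctionFieldBar (m * q)) :
    TT (m * q) ℓ (wq hq hm x) = wq hq hm (TT (m * q) ℓ x) :=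
  QX4.TEll_wq hq hm (coprime_aux hℓ hN) x

theorem TT_mem_O₂ (hℓ : ℓ.Prime) (hN : ¬ ℓ ∣ m * q) {x : modularFunctionFieldBar (m * q)}
    (hx : x ∈ O₂ hq hm hA) : TT (m * q) ℓ x ∈ O₂ hq hm hA := by
  rw [mem_O₂_iff] at hx ⊢
  rw [← TT_wq hq hm hℓ hN]
  exact TT_mem_O₁ hq hA hℓ hN hx

theorem TT_cong₁ (hℓ : ℓ.Prime) (hN : ¬ ℓ ∣ m * q) {b : 𝕂} (hb : b ∈ A)
    {f : modularFunctionFieldBar (m * q)}
    (h : ∃ c ∈ O₁ hq hA, f = 1 + algebraMap 𝕂 (modularFunctionFieldBar (m * q)) b * c) :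
    ∃ c ∈ O₁ hq hA, TT (m * q) ℓ f = 1 + algebraMap 𝕂 (modularFunctionFieldBar (m * q)) b * c := by
  by_cases hb0 : b = 0
  · subst hb0
    obtain ⟨c, hc, rfl⟩ := h
    refine ⟨c, hc, ?_⟩
    rw [map_zero, zero_mul, add_zero, map_one]
  obtain ⟨c, hc, hfc⟩ := h
  have h1 : (f : LaurentSeries 𝕂) = 1 + algebraMap 𝕂 (LaurentSeries 𝕂) b * (c : LaurentSeries 𝕂) := by
    rw [hfc]; rfl
  obtain ⟨z, hz, hTz⟩ := TSer_cong A ℓ (b := ⟨b, hb⟩) ⟨(c : LaurentSeries 𝕂), hc, h1⟩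
  have hbF : algebraMap 𝕂 (modularFunctionFieldBar (m * q)) b ≠ 0 := by rwa [ne_eq, map_eq_zero]
  set c' := (TT (m * q) ℓ f - 1) / algebraMap 𝕂 (modularFunctionFieldBar (m * q)) b with hc'
  have hbL : algebraMap 𝕂 (LaurentSeries 𝕂) b ≠ 0 := by rwa [ne_eq, map_eq_zero]
  refine ⟨c', ?_, by rw [hc']; field_simp; ring⟩
  rw [mem_O₁_iff']
  have h2 : (c' : LaurentSeries 𝕂) = z := by
    have h3 : (c' : LaurentSeries 𝕂) = ((TT (m * q) ℓ f : modularFunctionFieldBar (m * q)) - 1) /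
      algebraMap 𝕂 (LaurentSeries 𝕂) b := rfl
    have h4 : ((TT (m * q) ℓ f : modularFunctionFieldBar (m * q)) : LaurentSeries 𝕂) =
      TSer 𝕂 ℓ (f : LaurentSeries 𝕂) := coe_TEll_bar (m * q) ℓ hℓ hN f
    rw [h3, h4, hTz]
    field_simp
    ring
  rw [h2]
  exact hz

theorem TT_cong₂ (hℓ : ℓ.Prime) (hN : ¬ ℓ ∣ m * q) {b : 𝕂} (hb : b ∈ A)
    {f : modularFunctionFieldBar (m * q)}
    (h : ∃ c ∈ O₂ hq hm hA, f = 1 + algebraMap 𝕂 (modularFunctionFieldBar (m * q)) b * c) :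
    ∃ c ∈ O₂ hq hm hA,
      TT (m * q) ℓ f = 1 + algebraMap 𝕂 (modularFunctionFieldBar (m * q)) b * c := by
  obtain ⟨c, hc, hfc⟩ := h
  obtain ⟨c', hc', h2⟩ := TT_cong₁ hq hA hℓ hN hb (f := wq hq hm f) ⟨wq hq hm c, hc, by
    rw [hfc, map_add, map_one, map_mul, AlgEquiv.commutes]⟩
  refine ⟨wq hq hm c', ?_, ?_⟩
  · rw [mem_O₂_iff, wq_wq]
    exact hc'
  · have h3 := congrArg (wq hq hm) h2
    rw [TT_wq hq hm hℓ hN, wq_wq, map_add, map_one, map_mul, AlgEquiv.commutes] at h3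
    exact h3

/-- **The Hecke operator `T_ℓ` is compatible with the two-component model.** -/
theorem TOp_TT (hℓ : ℓ.Prime) (hN : ¬ ℓ ∣ m * q) :
    (Star.Inst.model hq hm hA H3).TOp (TT (m * q) ℓ) (ℓ + 1) where
  smul := by
    intro g hg f
    obtain ⟨σ, hσ, rfl⟩ := Star.Inst.mem_GG.mp hg
    exact TT_smul hℓ hN σ f
  const := TT_algebraMap hℓ hN
  unit := by
    intro i f hf hf' h0
    match i, hf, hf' with
    | 0, hf, hf' =>
      refine ⟨TT_mem_O₁ hq hA hℓ hN hf, ?_⟩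
      rw [← TT_inv h0]
      exact TT_mem_O₁ hq hA hℓ hN hf'
    | 1, hf, hf' =>
      refine ⟨TT_mem_O₂ hq hm hA hℓ hN hf, ?_⟩
      rw [← TT_inv h0]
      exact TT_mem_O₂ hq hm hA hℓ hN hf'
  cong := by
    intro i b hb f hf
    match i, hf with
    | 0, hf => exact TT_cong₁ hq hA hℓ hN hb hf
    | 1, hf => exact TT_cong₂ hq hm hA hℓ hN hb hf
  dvd f hf h v := TT_dvd hq.ne_zero hf h v

end Model

end Fermat.Agent.S44w
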