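import Fermat.Agent.MW.Cusp
import Fermat.Agent.MW.FixedDiv
import Fermat.Agent.Cofaith.Exists
import Fermat.Agent.QX4.Defs

/-!
# Rational Kummer functions

A torsion class of `J₀(N)` fixed by a subgroup `H` of the Galois group has a Kummer function fixed
by `H`.
-/

set_option autoImplicit false

noncomputable section

open ModularCurve AlgebraicCurve Fermat.Agent.GalRep Fermat.Agent.MW

namespace Fermat.Agent.S44w

/-- lowest coefficient of a Laurent series -/
def lowc {R : Type*} [CommRing R] (y : LaurentSeries R) : R := y.coeff y.order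

theorem lowc_ne_zero {R : Type*} [CommRing R] {y : LaurentSeries R} (hy : y ≠ 0) : lowc y ≠ 0 :=
  HahnSeries.coeff_order_eq_zero.not.mpr hy

theorem lowc_mul {R : Type*} [CommRing R] [IsDomain R] {x y : LaurentSeries R} (hx : x ≠ 0)
    (hy : y ≠ 0) : lowc (x * y) = lowc x * lowc y := by
  rw [lowc, HahnSeries.order_mul hx hy, HahnSeries.coeff_mul_order_add_order]
  simp only [HahnSeries.leadingCoeff_eq, lowc]

theorem lowc_algebraMap {K : Type*} [Field K] (c : K) :
    lowc (algebraMap K (LaurentSeries K) c) = c := by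
  rw [lowc, ModularCurve.algebraMap_laurentSeries_eq_single]
  change (HahnSeries.C c).coeff (HahnSeries.C c).order = c
  rw [HahnSeries.order_C, HahnSeries.C_apply, HahnSeries.coeff_single_same]

theorem order_coeffMap {K L : Type*} [Field K] [Field L] (σ : K →+* L) (y : LaurentSeries K) :
    (coeffMap σ y).order = y.order := by
  by_cases hy : y = 0
  · subst hy; rw [map_zero, HahnSeries.order_zero, HahnSeries.order_zero]
  have h1 : (coeffMap σ y).coeff y.order ≠ 0 := by
    rw [coeffMap_coeff]
    exact (map_ne_zero σ).mpr (lowc_ne_zero hy)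
  have h2 : coeffMap σ y ≠ 0 := fun h => h1 (by rw [h]; rfl)
  apply le_antisymm (HahnSeries.order_le_of_coeff_ne_zero h1)
  apply HahnSeries.order_le_of_coeff_ne_zero
  intro h3
  have h4 := lowc_ne_zero h2
  rw [lowc, coeffMap_coeff, h3, map_zero] at h4
  exact h4 rfl

theorem lowc_coeffMap {K L : Type*} [Field K] [Field L] (σ : K →+* L) (y : LaurentSeries K) :
    lowc (coeffMap σ y) = σ (lowc y) := by
  rw [lowc, order_coeffMap, coeffMap_coeff, lowc]

variable (N : ℕ) [NeZero N]

local notation "KQ" => AlgebraicClosure ℚ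

/-- A torsion class fixed by a subgroup `H` has a Kummer function with lowest coefficient `1`
fixed by `H`. -/
theorem exists_fixed_kummer {n : ℕ} {x : JZero N} (hx : n • x = 0)
    (H : Subgroup (KQ ≃ₐ[ℚ] KQ)) (hH : ∀ σ ∈ H, σ • x = x) :
    ∃ f : modularFunctionFieldBar N, IsKummer n x f ∧ lowc (f : LaurentSeries KQ) = 1 ∧
      ∀ σ ∈ H, arithmeticGalois (modularFunctionFieldFull N) σ • f = f := by
  have := Fermat.Agent.Cofaith.isFF_bar N
  let act : H →* SemilinearAut KQ (modularFunctionFieldBar N) :=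
    (arithmeticGalois (modularFunctionFieldFull N)).comp H.subtype
  obtain ⟨E, m, hE, -, -, -, hfix, hxE⟩ := exists_fixed_effective_pic0 act (cuspInf N)
    (fun σ => smul_cuspInf N σ) x (fun σ => hH σ σ.2)
  set D : Divisor.degZero (K := KQ) (F := modularFunctionFieldBar N) :=
    ⟨E - Finsupp.single (cuspInf N) (m : ℤ), hE⟩ with hD
  have hDfix : ∀ σ ∈ H, arithmeticGalois (modularFunctionFieldFull N) σ •
      (D : Divisor KQ (modularFunctionFieldBar N)) = (D : Divisor KQ (modularFunctionFieldBar N)) := by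
    intro σ hσ
    have h1 := hfix ⟨σ, hσ⟩
    show arithmeticGalois (modularFunctionFieldFull N) σ •
      (E - Finsupp.single (cuspInf N) (m : ℤ)) = _
    rw [smul_sub, SemilinearAut.smul_single, smul_cuspInf]
    congr 1
  have hnD : n • Pic0.mk D = 0 := by rw [← hxE]; exact hx
  obtain ⟨g, hg0, hg⟩ := QX4.exists_ord_eq_of_nsmul_eq_zero hnD
  have hgL : (g : LaurentSeries KQ) ≠ 0 := fun h => hg0 (Subtype.ext h)
  set c := lowc (g : LaurentSeries KQ) with hc
  have hc0 : c ≠ 0 := lowc_ne_zero hgL
  set f : modularFunctionFieldBar N := algebraMap KQ _ c⁻¹ * g with hf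
  have hci : algebraMap KQ (modularFunctionFieldBar N) c⁻¹ ≠ 0 := by
    rw [map_ne_zero]; exact inv_ne_zero hc0
  have hf0 : f ≠ 0 := mul_ne_zero hci hg0
  have hford : ∀ v : Place KQ (modularFunctionFieldBar N), v.ord f = n * (D : Divisor KQ (modularFunctionFieldBar N)) v := by
    intro v
    rw [hf, v.ord_mul hci hg0, QX4.ord_algebraMap_eq_zero v (inv_ne_zero hc0), zero_add, hg]
  have hflow : lowc (f : LaurentSeries KQ) = 1 := by
    have h1 : (f : LaurentSeries KQ) = algebraMap KQ (LaurentSeries KQ) c⁻¹ * g := rfl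
    rw [h1, lowc_mul ((map_ne_zero _).mpr (inv_ne_zero hc0)) hgL, lowc_algebraMap, ← hc,
      inv_mul_cancel₀ hc0]
  refine ⟨f, ⟨D, hxE.symm, hf0, fun v => (hford v).symm⟩, hflow, fun σ hσ => ?_⟩
  have h1 : ∀ v : Place KQ (modularFunctionFieldBar N),
      v.ord (arithmeticGalois (modularFunctionFieldFull N) σ • f) = v.ord f := by
    intro v
    have h2 := SemilinearAut.ord_smul (arithmeticGalois (modularFunctionFieldFull N) σ)
      ((arithmeticGalois (modularFunctionFieldFull N) σ)⁻¹ • v) f
    rw [smul_inv_smul] at h2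
    rw [h2, hford, hford, ← SemilinearAut.divisor_smul_apply, hDfix σ hσ]
  have h0 : arithmeticGalois (modularFunctionFieldFull N) σ • f ≠ 0 := by
    rw [SemilinearAut.smul_def]
    simpa using hf0
  obtain ⟨e, he0, he⟩ := exists_algebraMap_of_ord_eq h0 hf0 h1
  have h3 := congrArg (fun y : modularFunctionFieldBar N => lowc (y : LaurentSeries KQ)) he
  simp only [coe_arithmeticGalois_smul, lowc_coeffMap, hflow] at h3
  have h4 : ((algebraMap KQ (modularFunctionFieldBar N) e * f : modularFunctionFieldBar N) :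
    LaurentSeries KQ) = algebraMap KQ (LaurentSeries KQ) e * (f : LaurentSeries KQ) := rfl
  rw [h4, lowc_mul ((map_ne_zero _).mpr he0) (fun h => hf0 (Subtype.ext h)), lowc_algebraMap,
    hflow, mul_one] at h3
  rw [he, ← h3]
  simp

end Fermat.Agent.S44w
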