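import Fermat.Agent.S44w.HeckeTOp
import Fermat.Agent.S44w.Rational
import Fermat.Agent.S44w.Dlog
import Fermat.Agent.GalRep.JZ5_RelHecke

/-!
# Kummer functions of eigenclasses and their reductions
-/

set_option autoImplicit false
set_option linter.unusedSectionVars false
set_option linter.style.haveILetI false

noncomputable section

open ModularCurve HahnSeries AlgebraicCurve
open Fermat.Agent.GaussVal Fermat.Agent.TEll Fermat.Agent.TwoGauss Fermat.Agent.GalRep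
open scoped Fermat.Agent.GaussVal

namespace Fermat.Agent.S44w

local notation "𝕂" => AlgebraicClosure ℚ

section Kummer

theorem isKummer_zpow {K F : Type*} [Field K] [Field F] [Algebra K F] {n : ℕ} {x : Pic0 K F}
    {h : F} (hx : IsKummer n x h) (m : ℤ) : IsKummer n (m • x) (h ^ m) := by
  obtain ⟨l, rfl | rfl⟩ := m.eq_nat_or_neg
  · rw [natCast_zsmul, zpow_natCast]; exact hx.pow l
  · rw [neg_smul, natCast_zsmul, zpow_neg, zpow_natCast]; exact (hx.pow l).inv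

variable {N : ℕ} [NeZero N]

/-- The Kummer function of an eigenclass. -/
theorem exists_TT_eq {n : ℕ} (hn : n ≠ 0) {x : JZero N} {f : modularFunctionFieldBar N}
    (hf : IsKummer n x f) (ℓ : Nat.Primes) {a : ℤ} (hx : heckeOperatorBar N ℓ x = a • x) :
    haveI : NeZero (ℓ : ℕ) := ⟨ℓ.2.ne_zero⟩
    ∃ u : modularFunctionFieldBar N, u ≠ 0 ∧ TT N ℓ f = f ^ a * u ^ n := by
  haveI : NeZero (ℓ : ℕ) := ⟨ℓ.2.ne_zero⟩
  have hFF := Cofaith.isFF_bar N
  have h1 := hf.hecke ℓ (heckeInputsAlong N ℓ)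
  have h2 := h1.div (isKummer_zpow hf a)
  rw [hx, sub_self] at h2
  obtain ⟨u, hu, huv⟩ := h2.exists_pow_of_zero hn
  refine ⟨u, hu, ?_⟩
  rw [← huv]
  have := zpow_ne_zero a hf.ne_zero
  change TT N ℓ f = f ^ a * (TT N ℓ f / f ^ a)
  field_simp

end Kummer

section Model

variable {A : ValuationSubring (AlgebraicClosure ℚ)} {q m : ℕ} [NeZero m]
  [Fact q.Prime] [CharP (IsLocalRing.ResidueField A) q]
  (hq : q.Prime) (hm : ¬ q ∣ m) (hA : A.LiesOverPrime q)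
  (H3 : S18aux.DegThm (IsLocalRing.ResidueField A) m) {ℓ : ℕ} [NeZero ℓ]

local notation "κ" => IsLocalRing.ResidueField A

include hm in
/-- A torsion class fixed by a subgroup `H` of inertia has a Kummer function fixed by `H` which is
a unit for the Gauss valuation. -/
theorem exists_unit_kummer {x : JZero (m * q)} {n : ℕ} (hx : n • x = 0)
    (H : Subgroup (𝕂 ≃ₐ[ℚ] 𝕂)) (hHA : H ≤ A.inertiaSubgroupIn ℚ) (hH : ∀ σ ∈ H, σ • x = x) :
    ∃ f : modularFunctionFieldBar (m * q), IsKummer n x f ∧ f ∈ O₁ hq hA ∧ f⁻¹ ∈ O₁ hq hA ∧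
      ∀ σ ∈ H, arithmeticGalois (modularFunctionFieldFull (m * q)) σ • f = f := by
  obtain ⟨f, hf, -, hfix⟩ := exists_fixed_kummer (m * q) hx H hH
  obtain ⟨c, hc, h1, h2, h3⟩ := Star.Inst.scale hq hm hA 0 f hf.ne_zero
  refine ⟨f * (algebraMap 𝕂 (modularFunctionFieldBar (m * q)) c)⁻¹, ?_, h1, h2, ?_⟩
  · rw [← map_inv₀]
    exact hf.mul_algebraMap (inv_ne_zero hc)
  · intro σ hσ
    have hfσ := hfix σ hσ
    have hcσ := h3 (arithmeticGalois (modularFunctionFieldFull (m * q)) σ)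
      (Star.Inst.mem_GG.mpr ⟨σ, hHA hσ, rfl⟩) hfσ
    rw [smul_mul', hfσ, ← map_inv₀, SemilinearAut.smul_algebraMap, map_inv₀, hcσ, map_inv₀]

/-- the reduction at infinity of a function of level `m q`, as a Laurent series -/
theorem coe_ρ₁' {x : modularFunctionFieldBar (m * q)} (hx : x ∈ O₁ hq hA) :
    ((ρ₁ hq hm hA H3 ⟨x, hx⟩ : modularFunctionFieldFullC κ m) : LaurentSeries κ) =
      gaussRed A ⟨(x : LaurentSeries 𝕂), hx⟩ := coe_ρ₁ hq hm hA H3 _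

/-- `T_ℓ` commutes with reduction at infinity. -/
theorem coe_ρ₁_TT (hℓ : ℓ.Prime) (hN : ¬ ℓ ∣ m * q) {x : modularFunctionFieldBar (m * q)}
    (hx : x ∈ O₁ hq hA) (hTx : TT (m * q) ℓ x ∈ O₁ hq hA) :
    ((ρ₁ hq hm hA H3 ⟨TT (m * q) ℓ x, hTx⟩ : modularFunctionFieldFullC κ m) : LaurentSeries κ) =
      TSer κ ℓ ((ρ₁ hq hm hA H3 ⟨x, hx⟩ : modularFunctionFieldFullC κ m) : LaurentSeries κ) := by
  rw [coe_ρ₁', coe_ρ₁', ← gaussRed_TSer]
  congr 1
  apply Subtype.ext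
  exact coe_TEll_bar (m * q) ℓ hℓ hN x

theorem red_eq_ρ₁ {x : modularFunctionFieldBar (m * q)} (hx : x ∈ O₁ hq hA) :
    (Star.Inst.model hq hm hA H3).red 0 x = ρ₁ hq hm hA H3 ⟨x, hx⟩ :=
  Star.tred_of_mem hx

/-- **The logarithmic derivative of the reduction is a Hecke eigenvector.** -/
theorem T2_dlog [IsAlgClosed κ] (hℓ : ℓ.Prime) (hN : ¬ ℓ ∣ m * q)
    {f u : modularFunctionFieldBar (m * q)} (f0 : f ≠ 0) (hf : f ∈ O₁ hq hA)
    (hf' : f⁻¹ ∈ O₁ hq hA) {a : ℤ} (hTf : TT (m * q) ℓ f = f ^ a * u ^ q) :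
    T2 ℓ (dlog ((ρ₁ hq hm hA H3 ⟨f, hf⟩ : modularFunctionFieldFullC κ m) : LaurentSeries κ)) =
      (a : κ) • dlog ((ρ₁ hq hm hA H3 ⟨f, hf⟩ : modularFunctionFieldFullC κ m) :
        LaurentSeries κ) := by
  set M := Star.Inst.model hq hm hA H3 with hM
  have hTf1 : TT (m * q) ℓ f ∈ O₁ hq hA := TT_mem_O₁ hq hA hℓ hN hf
  have hTf2 : (TT (m * q) ℓ f)⁻¹ ∈ O₁ hq hA := by
    rw [← TT_inv f0]; exact TT_mem_O₁ hq hA hℓ hN hf'
  have hTf0 : TT (m * q) ℓ f ≠ 0 := Star.Datum.T_ne_zero _ f0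
  have fa0 : f ^ a ≠ 0 := zpow_ne_zero a f0
  have hzp : f ^ a ∈ O₁ hq hA ∧ (f ^ a)⁻¹ ∈ O₁ hq hA := by
    obtain ⟨l, rfl | rfl⟩ := a.eq_nat_or_neg
    · rw [zpow_natCast, ← inv_pow]; exact ⟨pow_mem hf l, pow_mem hf' l⟩
    · rw [zpow_neg, zpow_natCast, inv_inv, ← inv_pow]; exact ⟨pow_mem hf' l, pow_mem hf l⟩
  have hred : ∀ {x : modularFunctionFieldBar (m * q)}, x ∈ O₁ hq hA → x⁻¹ ∈ O₁ hq hA → x ≠ 0 →
      M.red 0 x ≠ 0 := fun {x} h1 h2 h0 => (Star.Model.red_ne_zero_iff h1).2 ⟨h0, h2⟩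
  -- the `q`-th power `u ^ q` is a unit, hence so is `u`
  have hu0 : u ≠ 0 := by
    rintro rfl
    rw [zero_pow hq.ne_zero, mul_zero] at hTf
    exact hTf0 hTf
  have huq : u ^ q = TT (m * q) ℓ f * (f ^ a)⁻¹ := by
    rw [hTf]; field_simp
  have hu1 : u ^ q ∈ O₁ hq hA := by rw [huq]; exact mul_mem hTf1 hzp.2
  have hu2 : (u⁻¹) ^ q ∈ O₁ hq hA := by
    rw [inv_pow, huq, mul_inv, inv_inv]; exact mul_mem hTf2 hzp.1
  have hroot : ∀ {x : modularFunctionFieldBar (m * q)}, x ^ q ∈ O₁ hq hA → x ∈ O₁ hq hA := by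
    intro x hx
    rw [← ValuationSubring.valuation_le_one_iff] at hx ⊢
    rw [map_pow] at hx
    exact (pow_le_one_iff hq.ne_zero).1 hx
  have hu1' := hroot hu1
  have hu2' := hroot hu2
  -- reductions
  have e1 : M.red 0 (TT (m * q) ℓ f) = M.red 0 f ^ a * M.red 0 u ^ q := by
    rw [hTf, Star.Model.red_mul hzp.1 hu1, Star.Model.red_pow hu1']
    congr 1
    obtain ⟨l, rfl | rfl⟩ := a.eq_nat_or_neg
    · rw [zpow_natCast, Star.Model.red_pow hf, zpow_natCast]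
    · rw [zpow_neg, zpow_natCast, Star.Model.red_inv (pow_mem hf l)
        (by rw [← inv_pow]; exact pow_mem hf' l) (pow_ne_zero l f0), Star.Model.red_pow hf,
        zpow_neg, zpow_natCast]
  have n1 := hred hf hf' f0
  have n2 := hred hu1' hu2' hu0
  have e2 := congrArg (fun z : modularFunctionFieldFullC κ m => (z : LaurentSeries κ)) e1
  rw [red_eq_ρ₁ hq hm hA H3 hTf1, coe_ρ₁_TT hq hm hA H3 hℓ hN hf hTf1] at e2
  rw [red_eq_ρ₁ hq hm hA H3 hf] at n1 e2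
  have n1' : ((ρ₁ hq hm hA H3 ⟨f, hf⟩ : modularFunctionFieldFullC κ m) : LaurentSeries κ) ≠ 0 :=
    fun h => n1 (Subtype.ext h)
  have n2' : ((M.red 0 u : modularFunctionFieldFullC κ m) : LaurentSeries κ) ≠ 0 :=
    fun h => n2 (Subtype.ext h)
  have hℓκ : (ℓ : κ) ≠ 0 := by
    rw [Ne, CharP.cast_eq_zero_iff κ q]
    intro h
    exact hN ((Nat.prime_dvd_prime_iff_eq hq hℓ).mp h ▸ Dvd.intro_left m rfl)
  rw [← dlog_TSer ℓ hℓκ n1', e2]
  have e3 : (((ρ₁ hq hm hA H3 ⟨f, hf⟩ : modularFunctionFieldFullC κ m) ^ a * M.red 0 u ^ q :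
      modularFunctionFieldFullC κ m) : LaurentSeries κ) =
      ((ρ₁ hq hm hA H3 ⟨f, hf⟩ : modularFunctionFieldFullC κ m) : LaurentSeries κ) ^ a *
        ((M.red 0 u : modularFunctionFieldFullC κ m) : LaurentSeries κ) ^ q := by
    push_cast
    rfl
  rw [e3, dlog_mul (zpow_ne_zero a n1') (pow_ne_zero q n2'), dlog_zpow n1', dlog_pow_char q n2',
    add_zero, ← map_intCast (HahnSeries.C : κ →+* LaurentSeries κ), HahnSeries.C_mul_eq_smul]

end Model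

end Fermat.Agent.S44w

end
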