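import Mathlib

/-!
# The Deligne–Serre lifting lemma for characters of a finite torsion-free `ℤ`-algebra
-/

set_option autoImplicit false
set_option linter.style.haveILetI false

namespace Fermat.Agent.S44w

/-- A ring hom `θ : T →+* k` from a finite torsion-free `ℤ`-algebra to a field is the reduction of a
ring hom `χ : T →+* ℂ` modulo a maximal ideal of the ring of algebraic integers. -/
theorem exists_char_lift {T : Type*} [CommRing T] [Module.Finite ℤ T] [IsAddTorsionFree T]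
    {k : Type*} [Field k] (θ : T →+* k) (p : ℕ) [hp : Fact p.Prime] (hpk : (p : k) = 0) :
    ∃ (χ : T →+* ℂ) (𝔪 : Ideal (integralClosure ℤ ℂ)), 𝔪.IsMaximal ∧
      (p : integralClosure ℤ ℂ) ∈ 𝔪 ∧
      ∀ (t : T) (n : ℤ), θ t = n →
        ∃ a : integralClosure ℤ ℂ, (a : ℂ) = χ t ∧ a - (n : integralClosure ℤ ℂ) ∈ 𝔪 := by
  classical
  have hT : Nontrivial T := θ.domain_nontrivial
  set 𝔫 : Ideal T := RingHom.ker θ with h𝔫
  have h𝔫p : 𝔫.IsPrime := RingHom.ker_isPrime θ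
  have h𝔫m : 𝔫.IsMaximal := by
    have hint : Algebra.IsIntegral ℤ T := Algebra.IsIntegral.of_finite ℤ _
    refine Ideal.isMaximal_of_isIntegral_of_isMaximal_comap (R := ℤ) 𝔫 ?_
    have hprime : (Ideal.span {(p : ℤ)}).IsMaximal :=
      PrincipalIdealRing.isMaximal_of_irreducible (Nat.prime_iff_prime_int.mp hp.out).irreducible
    have hle : Ideal.span {(p : ℤ)} ≤ 𝔫.comap (algebraMap ℤ T) := by
      rw [Ideal.span_singleton_le_iff_mem, Ideal.mem_comap, h𝔫, RingHom.mem_ker]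
      simpa using hpk
    have hne : 𝔫.comap (algebraMap ℤ T) ≠ ⊤ := Ideal.comap_ne_top _ h𝔫p.ne_top
    rwa [← hprime.eq_of_le hne hle]
  obtain ⟨𝔭, h𝔭, h𝔭𝔫⟩ := Ideal.exists_minimalPrimes_le (I := ⊥) (J := 𝔫) bot_le
  have h𝔭p : 𝔭.IsPrime := h𝔭.1.1
  have hcast : ∀ n : ℕ, n ≠ 0 → (n : T) ∉ 𝔭 := by
    intro n hn hmem
    have h1 : (n : T) ∈ nonZeroDivisors T := by
      rw [mem_nonZeroDivisors_iff_right]
      intro x hx
      have h2 : n • x = 0 := by rw [nsmul_eq_mul, mul_comm, hx]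
      exact (smul_eq_zero_iff_right hn).mp h2
    exact (Ideal.disjoint_nonZeroDivisors_of_mem_minimalPrimes h𝔭).le_bot ⟨hmem, h1⟩
  have hchar : CharZero (T ⧸ 𝔭) := by
    refine charZero_of_inj_zero fun n hn => ?_
    by_contra h0
    apply hcast n h0
    rw [← Ideal.Quotient.eq_zero_iff_mem, map_natCast]
    exact hn
  have : Algebra.IsIntegral ℤ (T ⧸ 𝔭) := Algebra.IsIntegral.of_finite ℤ _
  have hfaith : FaithfulSMul ℤ (T ⧸ 𝔭) := by
    rw [faithfulSMul_iff_algebraMap_injective]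
    exact (algebraMap ℤ (T ⧸ 𝔭)).injective_int
  let ψ : (T ⧸ 𝔭) →ₐ[ℤ] ℂ := IsAlgClosed.lift
  have hkp : (RingHom.ker (ψ : (T ⧸ 𝔭) →+* ℂ)).IsPrime := RingHom.ker_isPrime _
  have hk : RingHom.ker (ψ : (T ⧸ 𝔭) →+* ℂ) = ⊥ := by
    refine Ideal.eq_bot_of_comap_eq_bot (R := ℤ) ?_
    rw [eq_bot_iff]
    intro n hn
    rw [Ideal.mem_comap, RingHom.mem_ker] at hn
    have h1 : ((n : ℤ) : ℂ) = 0 := by
      rw [← hn]
      simp
    simpa using h1
  have hint : ∀ x : T ⧸ 𝔭, ψ x ∈ integralClosure ℤ ℂ := fun x =>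
    (Algebra.IsIntegral.isIntegral (R := ℤ) x).map ψ
  let φ : (T ⧸ 𝔭) →ₐ[ℤ] integralClosure ℤ ℂ := ψ.codRestrict _ hint
  letI : Algebra (T ⧸ 𝔭) (integralClosure ℤ ℂ) := φ.toRingHom.toAlgebra
  haveI : IsScalarTower ℤ (T ⧸ 𝔭) (integralClosure ℤ ℂ) := IsScalarTower.of_algebraMap_eq fun n => by
    simp
  haveI : Algebra.IsIntegral (T ⧸ 𝔭) (integralClosure ℤ ℂ) :=
    Algebra.IsIntegral.tower_top (R := ℤ)
  have hmap : (𝔫.map (Ideal.Quotient.mk 𝔭)).IsMaximal := by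
    refine (Ideal.map_eq_top_or_isMaximal_of_surjective _ Ideal.Quotient.mk_surjective
      h𝔫m).resolve_left fun h => ?_
    have h1 : (𝔫.map (Ideal.Quotient.mk 𝔭)).comap (Ideal.Quotient.mk 𝔭) = 𝔫 := by
      rw [Ideal.comap_map_of_surjective _ Ideal.Quotient.mk_surjective]
      rw [← RingHom.ker_eq_comap_bot, Ideal.mk_ker, sup_eq_left.mpr h𝔭𝔫]
    rw [h, Ideal.comap_top] at h1
    exact h𝔫p.ne_top h1.symm
  obtain ⟨𝔪, h𝔪p, h𝔪⟩ := Ideal.exists_ideal_over_prime_of_isIntegral_of_isDomain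
    (S := integralClosure ℤ ℂ) (𝔫.map (Ideal.Quotient.mk 𝔭)) (by
      intro x hx
      have h1 : φ x = 0 := hx
      have h2 : x ∈ RingHom.ker (ψ : (T ⧸ 𝔭) →+* ℂ) := by
        rw [RingHom.mem_ker]
        exact congrArg Subtype.val h1
      rw [hk] at h2
      rw [(Submodule.mem_bot _).mp h2]
      exact Ideal.zero_mem _)
  have hmax : 𝔪.IsMaximal := by
    refine Ideal.isMaximal_of_isIntegral_of_isMaximal_comap (R := T ⧸ 𝔭) 𝔪 ?_
    rw [h𝔪]; exact hmap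
  have hmem : ∀ t : T, t ∈ 𝔫 → φ (Ideal.Quotient.mk 𝔭 t) ∈ 𝔪 := by
    intro t ht
    have h1 : Ideal.Quotient.mk 𝔭 t ∈ 𝔪.comap (algebraMap (T ⧸ 𝔭) (integralClosure ℤ ℂ)) := by
      rw [h𝔪]; exact Ideal.mem_map_of_mem _ ht
    exact h1
  refine ⟨(ψ : (T ⧸ 𝔭) →+* ℂ).comp (Ideal.Quotient.mk 𝔭), 𝔪, hmax, ?_, fun t n hn => ?_⟩
  · have h1 := hmem (p : T) (by rw [h𝔫, RingHom.mem_ker]; simpa using hpk)
    simpa using h1
  · refine ⟨φ (Ideal.Quotient.mk 𝔭 t), rfl, ?_⟩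
    have h1 := hmem (t - n) (by rw [h𝔫, RingHom.mem_ker, map_sub, hn]; simp)
    simpa using h1

end Fermat.Agent.S44w
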