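import Fermat.Agent.S44w.PPow
import Fermat.Agent.Star.WidthEis
import Fermat.Agent.Star.InstTame

/-!
# `StarEis` when all the widths are one
-/

set_option autoImplicit false
set_option linter.unusedSectionVars false
set_option linter.style.haveILetI false

noncomputable section

open CuspForm ModularCurve HahnSeries AlgebraicCurve
open Fermat.Agent.GaussVal Fermat.Agent.TEll Fermat.Agent.TwoGauss Fermat.Agent.GalRep
open scoped Fermat.Agent.GaussVal

namespace Fermat.Agent.S44w

local notation "𝕂" => AlgebraicClosure ℚ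

section Model

variable {A : ValuationSubring (AlgebraicClosure ℚ)} {p m : ℕ} [NeZero m]
  [hpf : Fact p.Prime] [CharP (IsLocalRing.ResidueField A) p]
  (hp : p.Prime) (hm : ¬ p ∣ m) (hA : A.LiesOverPrime p)
  (H3 : S18aux.DegThm (IsLocalRing.ResidueField A) m)

local notation "κ" => IsLocalRing.ResidueField A

/-- `StarEis` from the two-component model when all widths are one (`p` may divide `U.E`). -/
theorem starEis_of_width [IsAlgClosed κ] [FF.IsFF 𝕂 (modularFunctionFieldBar (m * p))]
    [FF.IsFF κ (modularFunctionFieldFullC κ m)]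
    (hM : (Star.Inst.model hp hm hA H3).Good)
    (U : Star.Model.UnitData (Star.Inst.model hp hm hA H3))
    (hw1 : ∀ {P : (Star.Inst.model hp hm hA H3).Pt} (_ : ∀ i, i ∈ P.on)
      (C : Star.Model.Pt.Coord U hM P), C.w = 1) {H : Subgroup (𝕂 ≃ₐ[ℚ] 𝕂)}
    (W : Nonempty (Star.Model.Wild (Star.Inst.model hp hm hA H3)
        (H.map (arithmeticGalois (modularFunctionFieldFull (m * p))))) ∨
      Nonempty (Star.Model.Tame (Star.Inst.model hp hm hA H3)
        (H.map (arithmeticGalois (modularFunctionFieldFull (m * p)))))) :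
    StarEis hp hm hA H3 H := by
  intro f hO f0 hO' hfix hdiv ℓ _ hℓ hN a u hTf hℓa w
  have key := Star.Model.dvd_ord_red_of_eigen_width (M := Star.Inst.model hp hm hA H3) hM U hw1 W
    f0 (by
      intro g hg
      obtain ⟨σ, hσ, rfl⟩ := Subgroup.mem_map.1 hg
      exact hfix σ hσ) hO hO' hdiv (TOp_TT hp hm hA H3 hℓ hN) (a := a) (c := 1)
      (g := u) (by
        rw [map_one, one_mul]
        exact hTf) (by
        intro h
        apply hℓa
        have e1 : (((ℓ + 1 : ℕ) : ℤ)) = (ℓ : ℤ) + 1 := by push_cast; rfl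
        rw [e1] at h
        exact h) w
  rw [red_eq_ρ₁ hp hm hA H3 hO] at key
  exact key

end Model

end Fermat.Agent.S44w

end
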